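/-
Programme TW (S56), brick B5-R (ramification chapter), file 11 (helper50).

BRIDGE from the abstract ramification chapter to helper8's Kummer chapter:

`breakBound_totRam` : `K ⊆ F ⊆ L` `p`-adic fields (model of `PT/LOC/Interface12`), `L/K` Galois and
totally ramified, `e(K/ℚ_p) = 1`, `F/K` tame, Fontaine's `(P_m)` for `𝒪_L/𝒪_K` (`PmAbs p K L`).
Then every degree-`p` Galois subextension `M/F` of `L/F` with break `b` has `b (p-1) ≤ e(F/ℚ_p)`
(`BreakBound p F L`).
-/
import Mathlib
import Fermat.Agent.TW.Ram50.ModelInst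

set_option autoImplicit false
set_option linter.unusedSectionVars false

namespace Fermat.Agent.TW.Ram50.Bridge8

open scoped Fermat.Agent.PT.LOC.Interface12 Fermat.Agent.PT.LOC.StructureTower27
open Fermat.Agent.PT.LOC.Interface12 Fermat.Agent.PT.LOC.Structure14
  Fermat.Agent.PT.LOC.StructureNorm14 Fermat.Agent.PT.LOC.StructureTower27
  Fermat.Agent.PT.LOC.StructureTowerEF27 Fermat.Agent.PT.LOC.Unram11
  Fermat.Agent.TW.Ram8.Val Fermat.Agent.TW.Ram8.KIface
open IsDiscreteValuationRing IsLocalRing Polynomial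
open Fermat.Agent.TW.Ram50.Lower Fermat.Agent.TW.Ram50.Norm Fermat.Agent.TW.Ram50.Converse
open Fermat.Agent.TW.Ram50.ModelInst Fermat.Agent.TW.Ram50.RamIdx67

variable (p : ℕ) [hp : Fact p.Prime]

variable (K F L : Type) [Field K] [Algebra ℚ_[p] K] [FiniteDimensional ℚ_[p] K]
  [Field F] [Algebra ℚ_[p] F] [FiniteDimensional ℚ_[p] F]
  [Field L] [Algebra ℚ_[p] L] [FiniteDimensional ℚ_[p] L]
  [Algebra K F] [Algebra F L] [Algebra K L] [IsScalarTower K F L]
  [IsScalarTower ℚ_[p] K F] [IsScalarTower ℚ_[p] F L] [IsScalarTower ℚ_[p] K L]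

/-- `Gal(L/F)` as a subgroup of `Gal(L/K)`. -/
noncomputable def galSub : Subgroup (L ≃ₐ[K] L) := (galIncl K F L).range

theorem galIncl_injective : Function.Injective (galIncl K F L) :=
  AlgEquiv.restrictScalars_injective K

/-- `Gal(L/F) ≃ galSub`. -/
noncomputable def galSubEquiv : (L ≃ₐ[F] L) ≃* galSub K F L :=
  MonoidHom.ofInjective (galIncl_injective K F L)

theorem coe_galSubEquiv (τ : L ≃ₐ[F] L) (x : L) : ((galSubEquiv K F L τ : L ≃ₐ[K] L)) x = τ x := rfl

theorem galSub_apply (g : galSub K F L) (x : L) :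
    (g : L ≃ₐ[K] L) x = (galSubEquiv K F L).symm g x := by
  conv_lhs => rw [← (galSubEquiv K F L).apply_symm_apply g]
  rfl

theorem card_galSub [FiniteDimensional F L] [IsGalois F L] :
    Nat.card (galSub K F L) = Module.finrank F L := by
  rw [← IsGalois.card_aut_eq_finrank F L]
  exact (Nat.card_congr (galSubEquiv K F L).toEquiv).symm

variable (M : IntermediateField F L) [Normal F M]

/-- Restriction `galSub → Gal(M/F)`. -/
noncomputable def resM : galSub K F L →* (M ≃ₐ[F] M) :=
  (AlgEquiv.restrictNormalHom M).comp (galSubEquiv K F L).symm.toMonoidHom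

theorem resM_apply (g : galSub K F L) (m : M) :
    ((resM K F L M g m : M) : L) = (g : L ≃ₐ[K] L) (m : L) := by
  rw [galSub_apply]
  exact AlgEquiv.restrictNormalHom_apply M _ m

theorem resM_surjective [Normal F L] : Function.Surjective (resM K F L M) := by
  intro σ
  obtain ⟨τ, hτ⟩ := AlgEquiv.restrictNormalHom_surjective (F := F) (K₁ := M) L σ
  exact ⟨galSubEquiv K F L τ, by simp [resM, hτ]⟩

theorem card_ker_resM [FiniteDimensional F L] [IsGalois F L] [IsGalois F M] :
    Nat.card (resM K F L M).ker * Module.finrank F M = Module.finrank F L := by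
  have h1 := Subgroup.card_eq_card_quotient_mul_card_subgroup (resM K F L M).ker
  rw [card_galSub] at h1
  have h2 : Nat.card (galSub K F L ⧸ (resM K F L M).ker) = Nat.card (M ≃ₐ[F] M) :=
    Nat.card_congr (QuotientGroup.quotientKerEquivOfSurjective _ (resM_surjective K F L M)).toEquiv
  rw [h2, IsGalois.card_aut_eq_finrank F M] at h1
  rw [h1, mul_comm]

omit hp in
theorem enat_cancel {a n : ℕ} {x : ℕ∞} (ha : 0 < a) (h : ((a * n : ℕ) : ℕ∞) = (a : ℕ∞) * x) :
    x = n := by
  have hx : x ≠ ⊤ := by
    rintro rfl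
    rw [ENat.mul_top (by exact_mod_cast ha.ne')] at h
    exact ENat.natCast_ne_top _ h
  obtain ⟨m, rfl⟩ := ENat.ne_top_iff_exists.1 hx
  have h' : a * n = a * m := by exact_mod_cast h
  have := Nat.eq_of_mul_eq_mul_left ha h'
  rw [this]

/-- **Bridge**: Fontaine's `(P_m)` for `𝒪_L/𝒪_K` bounds the breaks of the degree-`p` layers of
`L/F` above a tame base `F/K`. -/
theorem breakBound_totRam [IsGalois K L] (hK : eAbs p K = 1)
    (htot : ramIdx p K L = Module.finrank K L) (htame : ¬ p ∣ ramIdx p K F)
    (hPm : PmAbs p K L) : BreakBound p F L := by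
  classical
  intro M b hMb
  obtain ⟨hgal, hdeg, hram, hbrk⟩ := hMb
  have fdKL : FiniteDimensional K L := finiteDimensional_tower p K L
  have fdFL : FiniteDimensional F L := finiteDimensional_tower p F L
  have fdKF : FiniteDimensional K F := finiteDimensional_tower p K F
  have : IsGalois F L := IsGalois.tower_top_of_isGalois K F L
  have : Normal F M := hgal.to_normal
  have : IsScalarTower ℚ_[p] M L := IsScalarTower.of_algebraMap_eq fun _ => rfl
  -- total ramification in the tower
  obtain ⟨htKF, htFL⟩ := totRam_tower p K F L htot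
  obtain ⟨htFM, htML⟩ := totRam_tower p F M L htFL
  -- the data
  obtain ⟨πL, hπL⟩ := exists_isUniformizer p L
  have h : TotRam (L ≃ₐ[K] L) (baseRing p K L) (⟨(πL : L), hπL.1⟩ : intRing p L) :=
    totRam p K L htot hπL
  have hpB := dvd_natCast_p p L h.irr
  have hPm' := pmHyp_of_pmAbs p K L hPm
  -- cardinalities
  have hcG : Nat.card (L ≃ₐ[K] L) = Module.finrank K L := IsGalois.card_aut_eq_finrank K L
  have hcH0 : Nat.card (galSub K F L) = Module.finrank F L := card_galSub K F L
  have hcH1 : Nat.card (resM K F L M).ker * Module.finrank F M = Module.finrank F L :=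
    card_ker_resM K F L M
  have hmulKFL := Module.finrank_mul_finrank K F L
  have hmulFML := Module.finrank_mul_finrank F M L
  have hposFL : 0 < Module.finrank F L := Module.finrank_pos
  have hposFM : 0 < Module.finrank F M := Module.finrank_pos
  have hcH1' : Nat.card (resM K F L M).ker = ramIdx p M L := by
    rw [htML]
    rw [← hmulFML, mul_comm] at hcH1
    exact Nat.eq_of_mul_eq_mul_left hposFM hcH1
  -- the wild inertia group lies in `Gal(L/F)`
  have hfaith := Quot67.faithfulSMul h
  have hpmax : ((p : ℕ) : intRing p L) ∈ IsLocalRing.maximalIdeal (intRing p L) := by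
    rw [← maxId_eq_maximalIdeal]
    exact natCast_mem_maxId p L
  have hidx : ¬ p ∣ (galSub K F L).index := by
    have h1 := (galSub K F L).index_mul_card
    rw [hcH0, hcG, ← hmulKFL] at h1
    have h2 : (galSub K F L).index = Module.finrank K F := Nat.eq_of_mul_eq_mul_right hposFL h1
    rw [h2, ← htKF]
    exact htame
  have hH0 : ∀ σ : L ≃ₐ[K] L, 2 ≤ iG (intRing p L) σ → σ ∈ galSub K F L :=
    fun σ hσ => mem_of_two_le_iG' hpmax (galSub K F L) hidx hσ
  -- a nontrivial element of the quotient
  have hcardM : Nat.card (M ≃ₐ[F] M) = p := by rw [IsGalois.card_aut_eq_finrank F M, hdeg]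
  have hnt : Nontrivial (M ≃ₐ[F] M) := by
    rw [← Finite.one_lt_card_iff_nontrivial, hcardM]
    exact hp.out.one_lt
  obtain ⟨σ1, hσ1⟩ := exists_ne (1 : M ≃ₐ[F] M)
  obtain ⟨g1, hg1⟩ := resM_surjective K F L M σ1
  have hσ'0 : ((g1 : galSub K F L ⧸ (resM K F L M).ker)) ≠ 1 := by
    intro h1
    rw [QuotientGroup.eq_one_iff, MonoidHom.mem_ker, hg1] at h1
    exact hσ1 h1
  -- a uniformizer of `M`, as a uniformizer of the ring of invariants
  obtain ⟨π₁, hπ₁⟩ := exists_isUniformizer p M
  have hπ₁L : ((π₁ : M) : L) ∈ intRing p L := algebraMap_mem_intRing p M L hπ₁.1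
  have hfix : ∀ g : (resM K F L M).ker,
      g • (⟨((π₁ : M) : L), hπ₁L⟩ : intRing p L) = ⟨((π₁ : M) : L), hπ₁L⟩ := by
    intro g
    apply Subtype.ext
    have h1 := resM_apply K F L M (g : galSub K F L) (π₁ : M)
    rw [show resM K F L M (g : galSub K F L) = 1 from g.2] at h1
    exact h1.symm
  have hFin0 : Fintype (galSub K F L) := Fintype.ofFinite _
  have h0 : TotRam (galSub K F L) (FixedPoints.subring (intRing p L) (galSub K F L))
      (⟨(πL : L), hπL.1⟩ : intRing p L) := Quot67.totRam_subgroup h (galSub K F L)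
  have heI : eIdx (FixedPoints.subring (intRing p L) (resM K F L M).ker) (intRing p L) =
      ramIdx p M L := by
    rw [Quot67.eIdx_fixedPoints h0 (resM K F L M).ker, hcH1']
  have heMpos : (0 : ℝ) < eAbs p M := by exact_mod_cast eAbs_pos p M
  have hrpos : 0 < ramIdx p M L := ramIdx_pos p M L
  have hrposR : (0 : ℝ) < ramIdx p M L := by exact_mod_cast hrpos
  have heL : (eAbs p L : ℝ) = (eAbs p M : ℝ) * (ramIdx p M L : ℝ) := by
    rw [eAbs_tower p M L]; push_cast; rfl
  -- valuation dictionary for elements of `M` which are integral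
  have hdict : ∀ (m : M) (hm : m ≠ 0) (hmL : (m : L) ∈ intRing p L) (n : ℕ),
      val p M m = (n : ℝ) / (eAbs p M : ℝ) →
      addVal (intRing p L) (⟨(m : L), hmL⟩ : intRing p L) = ((ramIdx p M L * n : ℕ) : ℕ∞) := by
    intro m hm hmL n hv
    have hm' : ((⟨(m : L), hmL⟩ : intRing p L) : L) ≠ 0 := by
      change (m : L) ≠ 0
      exact_mod_cast hm
    apply addVal_eq_of_val p L _ hm'
    change val p L (algebraMap M L m) = _
    rw [val_algebraMap p M L m, hv, heL]
    push_cast
    field_simp
  have hFS : FaithfulSMul (FixedPoints.subring (intRing p L) (resM K F L M).ker) (intRing p L) :=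
    (faithfulSMul_iff_algebraMap_injective _ _).2 Subtype.val_injective
  -- the uniformizer of the ring of invariants
  have hϖ : Irreducible (⟨⟨((π₁ : M) : L), hπ₁L⟩, hfix⟩ :
      FixedPoints.subring (intRing p L) (resM K F L M).ker) := by
    apply irreducible_of_addVal_eq_one
    have h1 := hdict (π₁ : M) hπ₁.2.1 hπ₁L 1 (by rw [val_uniformizer p M hπ₁]; norm_num)
    have h2 := RamIdx67.addVal_algebraMap
      (B' := FixedPoints.subring (intRing p L) (resM K F L M).ker) (B := intRing p L)
      (⟨⟨((π₁ : M) : L), hπ₁L⟩, hfix⟩ : FixedPoints.subring (intRing p L) (resM K F L M).ker)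
    rw [heI] at h2
    have h3 : ((ramIdx p M L * 1 : ℕ) : ℕ∞) = (ramIdx p M L : ℕ∞) *
        addVal (FixedPoints.subring (intRing p L) (resM K F L M).ker)
          (⟨⟨((π₁ : M) : L), hπ₁L⟩, hfix⟩ :
            FixedPoints.subring (intRing p L) (resM K F L M).ker) := by
      rw [← h2, ← h1]; rfl
    have := enat_cancel hrpos h3
    rw [this]; rfl
  have hFinQ : Fintype (galSub K F L ⧸ (resM K F L M).ker) := Fintype.ofFinite _
  have tq := Quot67.totRam_quotient h0 (resM K F L M).ker hϖ
  have hb : ∀ σ' : galSub K F L ⧸ (resM K F L M).ker, σ' ≠ 1 →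
      iG (FixedPoints.subring (intRing p L) (resM K F L M).ker) σ' = (b + 1 : ℕ) := by
    intro σ' hσ'
    induction σ' using QuotientGroup.induction_on with
    | H g =>
      have hrg : resM K F L M g ≠ 1 := by
        intro h1
        apply hσ'
        rw [QuotientGroup.eq_one_iff, MonoidHom.mem_ker]
        exact h1
      obtain ⟨hne, hval⟩ := hbrk (resM K F L M g) hrg (π₁ : M) hπ₁
      rw [Value.TotRam'.iG_eq tq]
      have hz0 : resM K F L M g (π₁ : M) - (π₁ : M) ≠ 0 := sub_ne_zero.2 hne
      have hzL : ((resM K F L M g (π₁ : M) - (π₁ : M) : M) : L) ∈ intRing p L := by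
        have : resM K F L M g (π₁ : M) - (π₁ : M) ∈ intRing p M :=
          sub_mem ((algEquiv_mem_intRing_iff p F M _).2 hπ₁.1) hπ₁.1
        exact algebraMap_mem_intRing p M L this
      have h1 := hdict _ hz0 hzL (b + 1) (by rw [hval]; push_cast; rfl)
      have h2 := RamIdx67.addVal_algebraMap
        (B' := FixedPoints.subring (intRing p L) (resM K F L M).ker) (B := intRing p L)
        ((g : galSub K F L ⧸ (resM K F L M).ker) •
          (⟨⟨((π₁ : M) : L), hπ₁L⟩, hfix⟩ :
            FixedPoints.subring (intRing p L) (resM K F L M).ker) -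
          (⟨⟨((π₁ : M) : L), hπ₁L⟩, hfix⟩ :
            FixedPoints.subring (intRing p L) (resM K F L M).ker))
      rw [heI] at h2
      have h3 : algebraMap (FixedPoints.subring (intRing p L) (resM K F L M).ker) (intRing p L)
          ((g : galSub K F L ⧸ (resM K F L M).ker) •
            (⟨⟨((π₁ : M) : L), hπ₁L⟩, hfix⟩ :
              FixedPoints.subring (intRing p L) (resM K F L M).ker) -
            (⟨⟨((π₁ : M) : L), hπ₁L⟩, hfix⟩ :
              FixedPoints.subring (intRing p L) (resM K F L M).ker)) =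
          (⟨((resM K F L M g (π₁ : M) - (π₁ : M) : M) : L), hzL⟩ : intRing p L) := by
        apply Subtype.ext
        have := resM_apply K F L M g (π₁ : M)
        change (g : L ≃ₐ[K] L) ((π₁ : M) : L) - ((π₁ : M) : L) = _
        rw [← this]
        rfl
      rw [h3, h1] at h2
      exact enat_cancel hrpos h2
  -- the abstract bound
  have key := Layer67.break_bound_fixedPoints h p hpB hPm' (galSub K F L) hH0
    (resM K F L M).ker b hb _ hσ'0
  rw [addVal_natCast_p p L, hcG, hcH0, eAbs_tower p K L, hK, one_mul, htot, ← hmulKFL] at key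
  have key' : (p - 1) * (Module.finrank K F * Module.finrank F L + Module.finrank F L * b) ≤
      p * (Module.finrank K F * Module.finrank F L) := by exact_mod_cast key
  have heF : eAbs p F = Module.finrank K F := by
    rw [eAbs_tower p K F, hK, one_mul, htKF]
  rw [heF]
  have hp1 : 1 ≤ p := hp.out.one_lt.le
  obtain ⟨q, rfl⟩ : ∃ q, p = q + 1 := ⟨p - 1, by omega⟩
  simp only [Nat.add_sub_cancel] at key' ⊢
  have h5 : (q * (Module.finrank K F + b)) * Module.finrank F L ≤
      ((q + 1) * Module.finrank K F) * Module.finrank F L := by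
    calc (q * (Module.finrank K F + b)) * Module.finrank F L
        = q * (Module.finrank K F * Module.finrank F L + Module.finrank F L * b) := by ring
      _ ≤ (q + 1) * (Module.finrank K F * Module.finrank F L) := key'
      _ = ((q + 1) * Module.finrank K F) * Module.finrank F L := by ring
  have h6 := Nat.le_of_mul_le_mul_right h5 hposFL
  nlinarith

end Fermat.Agent.TW.Ram50.Bridge8
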