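/-
Programme TW (S56), brick B5-K/R, file 12 (helper50): the INERTIA FIELD of `L/K₀` in the model
`K̄ = PadicAlgCl p` of `TW/B5/Iface`.

`exists_inertia_field` : for finite `K₀ ≤ L` with `K₀/ℚ_p` unramified, the field
`K = K₀(ζ)`, `ζ` a Teichmüller generator of `L` (a primitive `(Q_L - 1)`-th root of unity), is finite,
unramified over `ℚ_p`, normal over `K₀`, contained in `L`, and has the same residue field as `L`.
-/
import Mathlib
import Fermat.Agent.TW.Ram8.UnramSub

set_option autoImplicit false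
set_option linter.unusedSectionVars false

namespace Fermat.Agent.TW.Ram50.Inertia50

open scoped Fermat.Agent.PT.LOC.Interface12
open Fermat.Agent.PT.LOC.Interface12 Fermat.Agent.PT.LOC.Structure14
  Fermat.Agent.PT.LOC.StructureNorm14 Fermat.Agent.PT.LOC.RootsUnity14
  Fermat.Agent.PT.LOC.StructureTower27
  Fermat.Agent.PT.LOC.StructureTowerEF27 Fermat.Agent.PT.LOC.Unram11
  Fermat.Agent.TW.Ram8.Val Fermat.Agent.TW.Ram8.KIface Fermat.Agent.TW.Ram8.NormalForm
  Fermat.Agent.TW.Ram8.Residue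
  Fermat.Agent.TW.Ram8.Level Fermat.Agent.TW.Ram8.Unram Fermat.Agent.TW.Ram8.KbarModel
open Fermat.Agent.TW.B5.Iface

variable (p : ℕ) [hp : Fact p.Prime]

omit hp in
/-- `K₀(ζ) = K₀ ⊔ k(ζ)`, in the form consumed by `Unram.ramIdx_eq_one_of_adjoin_root`. -/
theorem adjoin_eq_top_of_le_sup {k Ω : Type*} [Field k] [Field Ω] [Algebra k Ω]
    (K₀ K : IntermediateField k Ω) [Algebra K₀ K]
    (halg : ∀ x : K₀, ((algebraMap K₀ K x : K) : Ω) = (x : Ω)) (ζ : K)
    (hK : K ≤ K₀ ⊔ IntermediateField.adjoin k {(ζ : Ω)}) :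
    IntermediateField.adjoin K₀ {ζ} = ⊤ := by
  have htow : IsScalarTower k K₀ K := IsScalarTower.of_algebraMap_eq fun x =>
    Subtype.ext (by rw [halg]; rfl)
  rw [eq_top_iff]
  intro y _
  set A : IntermediateField K₀ K := IntermediateField.adjoin K₀ {ζ} with hA
  set T : IntermediateField k Ω := (A.restrictScalars k).map K.val with hT
  have h1 : K₀ ≤ T := by
    intro x hx
    rw [hT, IntermediateField.mem_map]
    refine ⟨algebraMap K₀ K ⟨x, hx⟩, ?_, halg ⟨x, hx⟩⟩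
    rw [IntermediateField.mem_restrictScalars]
    exact A.algebraMap_mem _
  have h2 : IntermediateField.adjoin k {(ζ : Ω)} ≤ T := by
    rw [IntermediateField.adjoin_le_iff]
    intro x hx
    rw [Set.mem_singleton_iff] at hx
    rw [hx, SetLike.mem_coe, hT, IntermediateField.mem_map]
    refine ⟨ζ, ?_, rfl⟩
    rw [IntermediateField.mem_restrictScalars]
    exact IntermediateField.mem_adjoin_simple_self K₀ ζ
  have h3 : (y : Ω) ∈ T := (sup_le h1 h2) (hK y.2)
  rw [hT, IntermediateField.mem_map] at h3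
  obtain ⟨a, ha, hay⟩ := h3
  have : a = y := K.val.injective hay
  rw [← this]
  exact (IntermediateField.mem_restrictScalars k).1 ha

/-- An unramified field (value group `p^ℤ`) has absolute ramification index `1`. -/
theorem eAbs_eq_one_of_isUnramifiedField (K₀ : IntermediateField ℚ_[p] (Kbar p))
    [FiniteDimensional ℚ_[p] K₀] (hK₀ : IsUnramifiedField p K₀) : eAbs p K₀ = 1 := by
  obtain ⟨ϖ, hϖ⟩ := exists_isUniformizer p K₀
  have h1 := val_uniformizer p K₀ hϖ
  have hϖ0 : (ϖ : K₀) ≠ 0 := hϖ.2.1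
  have hϖ0' : (((ϖ : K₀ˣ) : K₀) : Kbar p) ≠ 0 := by
    intro h
    exact hϖ0 (Subtype.ext h)
  obtain ⟨n, hn⟩ := hK₀ _ ((ϖ : K₀) : K₀).2 hϖ0'
  have h2 := norm_eq_rpow p K₀ hϖ0
  rw [hn, ← Real.rpow_intCast] at h2
  have h3 : (n : ℝ) = -(val p K₀ (ϖ : K₀)) := by
    have hp1 := one_lt_p p
    have := congrArg (Real.logb (p : ℝ)) h2
    rwa [Real.logb_rpow (p_pos p) hp1.ne', Real.logb_rpow (p_pos p) hp1.ne'] at this
  rw [h1] at h3
  have he := eAbs_pos_real p K₀
  have h4 : (-n : ℝ) * (eAbs p K₀ : ℝ) = 1 := by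
    rw [h3]; field_simp
  have h5 : (-n) * (eAbs p K₀ : ℤ) = 1 := by exact_mod_cast h4
  have h6 : ((eAbs p K₀ : ℕ) : ℤ) = 1 :=
    Int.eq_one_of_dvd_one (by positivity) (Dvd.intro_left _ h5)
  exact_mod_cast h6

/-- A field with absolute ramification index `1` is unramified (value group `p^ℤ`). -/
theorem isUnramifiedField_of_eAbs (K : IntermediateField ℚ_[p] (Kbar p))
    [FiniteDimensional ℚ_[p] K] (he : eAbs p K = 1) : IsUnramifiedField p K := by
  intro x hx hx0
  have hxK : (⟨x, hx⟩ : K) ≠ 0 := by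
    intro h
    exact hx0 (congrArg Subtype.val h)
  refine ⟨-ordZ p K ⟨x, hx⟩, ?_⟩
  have h1 := norm_eq_rpow p K hxK
  rw [val_eq_ordZ_div p _ hxK, he] at h1
  have h2 : ‖x‖ = (p : ℝ) ^ (-((ordZ p K ⟨x, hx⟩ : ℝ) / ((1 : ℕ) : ℝ))) := h1
  rw [h2, ← Real.rpow_intCast]
  congr 1
  push_cast
  ring

/-- **The inertia field** of `L/K₀`. -/
theorem exists_inertia_field (K₀ L : IntermediateField ℚ_[p] (Kbar p))
    (hK₀fd : FiniteDimensional ℚ_[p] K₀) (hLfd : FiniteDimensional ℚ_[p] L)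
    (hK₀ : IsUnramifiedField p K₀) (hle : K₀ ≤ L) :
    ∃ (K : IntermediateField ℚ_[p] (Kbar p)) (ζ : Kbar p) (m : ℕ), ¬ p ∣ m ∧ IsPrimitiveRoot ζ m ∧
      K = K₀ ⊔ IntermediateField.adjoin ℚ_[p] {ζ} ∧ K ≤ L ∧ FiniteDimensional ℚ_[p] K ∧
      IsUnramifiedField p K ∧ IsNormalOver p K₀ K ∧
      ∀ x ∈ L, ‖x‖ ≤ 1 → ∃ y ∈ K, ‖x - y‖ < 1 := by
  classical
  obtain ⟨ζ, hζ, hteich⟩ := exists_teich p L
  have hpm : ¬ p ∣ resCard p L - 1 := by
    have := not_dvd_resCard_pow_sub_one p L 1 one_pos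
    rwa [pow_one] at this
  have hm0 : resCard p L - 1 ≠ 0 := ne_zero_of_not_dvd p hpm
  have hζK : IsPrimitiveRoot (ζ : Kbar p) (resCard p L - 1) :=
    hζ.map_of_injective (f := L.val) L.val.injective
  have hζint : IsIntegral ℚ_[p] (ζ : Kbar p) :=
    (Algebra.IsAlgebraic.isAlgebraic (ζ : Kbar p)).isIntegral
  have hfdζ : FiniteDimensional ℚ_[p] (IntermediateField.adjoin ℚ_[p] {(ζ : Kbar p)}) :=
    IntermediateField.adjoin.finiteDimensional hζint
  set K : IntermediateField ℚ_[p] (Kbar p) :=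
    K₀ ⊔ IntermediateField.adjoin ℚ_[p] {(ζ : Kbar p)} with hKdef
  have hζmemK : (ζ : Kbar p) ∈ K :=
    (le_sup_right : IntermediateField.adjoin ℚ_[p] {(ζ : Kbar p)} ≤ K)
      (IntermediateField.mem_adjoin_simple_self ℚ_[p] (ζ : Kbar p))
  have hK₀K : K₀ ≤ K := le_sup_left
  have hKL : K ≤ L := by
    refine sup_le hle ?_
    rw [IntermediateField.adjoin_le_iff]
    intro y hy
    rw [Set.mem_singleton_iff] at hy
    rw [hy]
    exact ζ.2
  have hKfd : FiniteDimensional ℚ_[p] K := IntermediateField.finiteDimensional_sup _ _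
  refine ⟨K, (ζ : Kbar p), resCard p L - 1, hpm, hζK, rfl, hKL, hKfd, ?_, ?_, ?_⟩
  · -- unramified
    let _ : Algebra K₀ K := (IntermediateField.inclusion hK₀K).toRingHom.toAlgebra
    have : IsScalarTower ℚ_[p] K₀ K := IsScalarTower.of_algebraMap_eq fun _ => rfl
    have hprim : IsPrimitiveRoot (⟨(ζ : Kbar p), hζmemK⟩ : K) (resCard p L - 1) :=
      IsPrimitiveRoot.of_map_of_injective (f := K.val) hζK K.val.injective
    have hgen : IntermediateField.adjoin K₀ {(⟨(ζ : Kbar p), hζmemK⟩ : K)} = ⊤ :=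
      adjoin_eq_top_of_le_sup K₀ K (fun _ => rfl) ⟨(ζ : Kbar p), hζmemK⟩ le_rfl
    have hram := ramIdx_eq_one_of_adjoin_root p K₀ K hpm hprim hgen
    have he : eAbs p K = 1 := by
      rw [eAbs_tower p K₀ K, eAbs_eq_one_of_isUnramifiedField p K₀ hK₀, hram]
    exact isUnramifiedField_of_eAbs p K he
  · -- normal over `K₀`
    intro τ hτ y hy
    have hle' : K ≤ K.comap (τ : Kbar p →ₐ[ℚ_[p]] Kbar p) := by
      refine sup_le ?_ ?_
      · intro x hx
        change τ x ∈ K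
        rw [hτ x hx]
        exact hK₀K hx
      · rw [IntermediateField.adjoin_le_iff]
        intro x hx
        rw [Set.mem_singleton_iff] at hx
        rw [hx]
        change τ (ζ : Kbar p) ∈ K
        have : NeZero (resCard p L - 1) := ⟨hm0⟩
        have h1 : (τ (ζ : Kbar p)) ^ (resCard p L - 1) = 1 := by
          rw [← map_pow, hζK.pow_eq_one, map_one]
        obtain ⟨j, -, hj⟩ := hζK.eq_pow_of_pow_eq_one h1
        rw [← hj]
        exact pow_mem hζmemK j
    exact hle' hy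
  · -- same residue field
    intro x hx hx1
    have hxint : (⟨x, hx⟩ : L) ∈ intRing p L := by
      rw [mem_intRing_iff]
      have := snorm_eq_norm p L ⟨x, hx⟩
      rw [show spectralNorm ℚ_[p] L (⟨x, hx⟩ : L) = snorm p L ⟨x, hx⟩ from rfl, this]
      exact hx1
    rcases hteich ⟨x, hx⟩ hxint with h | ⟨j, hj⟩
    · refine ⟨0, zero_mem _, ?_⟩
      rw [snorm_eq_norm] at h
      simpa using h
    · refine ⟨(ζ : Kbar p) ^ j, pow_mem hζmemK j, ?_⟩
      rw [snorm_eq_norm] at hj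
      exact hj

end Fermat.Agent.TW.Ram50.Inertia50
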