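/-
Programme TW (S56), brick B5-R (ramification chapter), file 1 (helper50).

Lower numbering for a finite group acting on a discrete valuation ring.

Setting: `B` a DVR, `G` a group acting on `B` by ring automorphisms (not necessarily faithfully).
`iG B σ = inf_x v_B(σ x - x) ∈ ℕ∞` is Serre's function `i_G` (Local Fields, IV §1).
Mathlib only.
-/
import Mathlib

set_option autoImplicit false

namespace Fermat.Agent.TW.Ram50.Lower

open IsDiscreteValuationRing Polynomial

section Basic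

variable (B : Type*) [CommRing B] [IsDomain B] [IsDiscreteValuationRing B]
variable {G : Type*} [Group G] [MulSemiringAction G B]

/-- A ring automorphism of a DVR preserves the additive valuation. -/
theorem addVal_smul (σ : G) (y : B) : addVal B (σ • y) = addVal B y := by
  rcases eq_or_ne y 0 with rfl | hy
  · simp
  obtain ⟨ϖ, hϖ⟩ := exists_irreducible B
  obtain ⟨n, u, rfl⟩ := eq_unit_mul_pow_irreducible hy hϖ
  have hσϖ : Irreducible (σ • ϖ) :=
    (MulEquiv.irreducible_iff (MulSemiringAction.toRingEquiv G B σ)).2 hϖ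
  have hu : IsUnit (σ • (u : B)) :=
    (MulSemiringAction.toRingEquiv G B σ).toRingHom.isUnit_map u.isUnit
  rw [smul_mul', smul_pow', addVal_def' u hϖ n]
  exact addVal_def _ hu.unit hσϖ n rfl

/-- Serre's function `i_G`, with values in `ℕ∞`. -/
noncomputable def iG (σ : G) : ℕ∞ := ⨅ x : B, addVal B (σ • x - x)

variable {B}

theorem iG_le (σ : G) (x : B) : iG B σ ≤ addVal B (σ • x - x) := iInf_le _ x

theorem le_iG_iff {n : ℕ∞} {σ : G} : n ≤ iG B σ ↔ ∀ x : B, n ≤ addVal B (σ • x - x) :=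
  le_iInf_iff

theorem iG_eq_top_iff {σ : G} : iG B σ = ⊤ ↔ ∀ x : B, σ • x = x := by
  rw [← top_le_iff, le_iG_iff]
  refine forall_congr' fun x => ?_
  rw [top_le_iff, addVal_eq_top_iff, sub_eq_zero]

@[simp] theorem iG_one : iG B (1 : G) = ⊤ := iG_eq_top_iff.2 fun x => one_smul G x

theorem iG_mul (σ τ : G) : min (iG B σ) (iG B τ) ≤ iG B (σ * τ) := by
  rw [le_iG_iff]
  intro x
  have h : (σ * τ) • x - x = σ • (τ • x - x) + (σ • x - x) := by
    rw [mul_smul, smul_sub]; ring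
  rw [h]
  refine le_trans ?_ addVal_add
  refine le_min (le_trans (min_le_right _ _) ?_) (le_trans (min_le_left _ _) (iG_le σ x))
  rw [addVal_smul]
  exact iG_le τ x

theorem iG_inv (σ : G) : iG B σ⁻¹ = iG B σ := by
  have key : ∀ σ : G, iG B σ ≤ iG B σ⁻¹ := by
    intro σ
    rw [le_iG_iff]
    intro x
    have h : σ⁻¹ • x - x = -(σ⁻¹ • (σ • x - x)) := by
      rw [smul_sub, inv_smul_smul]; ring
    rw [h, (addVal B).map_neg, addVal_smul]
    exact iG_le σ x
  exact le_antisymm (by simpa using key σ⁻¹) (key σ)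

theorem iG_conj (σ τ : G) : iG B (τ * σ * τ⁻¹) = iG B σ := by
  have key : ∀ σ τ : G, iG B σ ≤ iG B (τ * σ * τ⁻¹) := by
    intro σ τ
    rw [le_iG_iff]
    intro x
    have h : (τ * σ * τ⁻¹) • x - x = τ • (σ • (τ⁻¹ • x) - τ⁻¹ • x) := by
      rw [smul_sub, smul_inv_smul, mul_smul, mul_smul]
    rw [h, addVal_smul]
    exact iG_le σ _
  refine le_antisymm ?_ (key σ τ)
  have h2 : iG B (τ * σ * τ⁻¹) ≤ iG B (τ⁻¹ * (τ * σ * τ⁻¹) * τ⁻¹⁻¹) := key (τ * σ * τ⁻¹) τ⁻¹
  have h3 : τ⁻¹ * (τ * σ * τ⁻¹) * τ⁻¹⁻¹ = σ := by group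
  rwa [h3] at h2

/-- Ultrametric equality: if `i_G(σ) < i_G(τ)` then `i_G(σ τ) = i_G(σ)`. -/
theorem iG_mul_eq_of_lt {σ τ : G} (h : iG B σ < iG B τ) : iG B (σ * τ) = iG B σ := by
  refine le_antisymm ?_ ?_
  · by_contra hlt
    rw [not_le] at hlt
    have h1 := iG_mul (B := B) (σ * τ) τ⁻¹
    rw [mul_inv_cancel_right, iG_inv] at h1
    exact absurd h1 (not_le.2 (lt_min hlt h))
  · have := iG_mul (B := B) σ τ
    rwa [min_eq_left h.le] at this

theorem iG_mul_eq_of_lt' {σ τ : G} (h : iG B τ < iG B σ) : iG B (σ * τ) = iG B τ := by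
  have h1 : iG B (τ⁻¹ * σ⁻¹) = iG B τ⁻¹ := iG_mul_eq_of_lt (by rwa [iG_inv, iG_inv])
  rw [← mul_inv_rev, iG_inv, iG_inv] at h1
  exact h1

/-- The lower ramification subgroups `{σ | n ≤ i_G(σ)}` (so `G_i` corresponds to `n = i + 1`). -/
def lowerGroup (B : Type*) [CommRing B] [IsDomain B] [IsDiscreteValuationRing B]
    (G : Type*) [Group G] [MulSemiringAction G B] (n : ℕ∞) : Subgroup G where
  carrier := {σ | n ≤ iG B σ}
  mul_mem' {σ τ} hσ hτ := le_trans (le_min hσ hτ) (iG_mul σ τ)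
  one_mem' := by simp
  inv_mem' {σ} hσ := by simpa [iG_inv] using hσ

theorem mem_lowerGroup {n : ℕ∞} {σ : G} : σ ∈ lowerGroup B G n ↔ n ≤ iG B σ := Iff.rfl

instance lowerGroup_normal (n : ℕ∞) : (lowerGroup B G n).Normal :=
  ⟨fun σ hσ τ => by rw [mem_lowerGroup, iG_conj]; exact hσ⟩

end Basic

section Generator

variable {B : Type*} [CommRing B] [IsDomain B] [IsDiscreteValuationRing B]
variable {G : Type*} [Group G] [MulSemiringAction G B]

omit [IsDomain B] [IsDiscreteValuationRing B] in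
/-- If `A` is a subring fixed pointwise by `σ`, then `σ • q(x) = q(σ • x)` for `q ∈ A[X]`. -/
theorem smul_aeval (A : Subring B) (σ : G) (hA : ∀ a ∈ A, σ • a = a) (x : B) (q : A[X]) :
    σ • (aeval x q) = aeval (σ • x) q := by
  induction q using Polynomial.induction_on' with
  | add p q hp hq => rw [map_add, smul_add, hp, hq, map_add]
  | monomial n a =>
    rw [aeval_monomial, aeval_monomial, smul_mul', smul_pow']
    congr 1
    exact hA _ a.2

/-- If `B = A[x]` with `A` fixed pointwise by `G`, then `i_G(σ) = v(σ x - x)`. -/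
theorem iG_eq_of_adjoin (A : Subring B) (hA : ∀ σ : G, ∀ a ∈ A, σ • a = a) (x : B)
    (hx : ∀ b : B, ∃ q : A[X], aeval x q = b) (σ : G) :
    iG B σ = addVal B (σ • x - x) := by
  refine le_antisymm (iG_le σ x) ?_
  rw [le_iG_iff]
  intro b
  obtain ⟨q, rfl⟩ := hx b
  rw [smul_aeval A σ (hA σ) x q, addVal_le_iff_dvd, aeval_def, aeval_def,
    ← eval_map, ← eval_map]
  exact sub_dvd_eval_sub _ _ _

end Generator

end Fermat.Agent.TW.Ram50.Lower
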