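/-
Programme TW (S56), brick B5-R (ramification chapter), file 2 (helper50).

Totally ramified Galois data `(B, G, A, π)`: `B` a DVR with an action of a finite group `G`,
`A = B^G`, `π` a uniformizer of `B` with `B = A[π]`, `G` acting faithfully on `π`.
The polynomial `P = ∏_σ (X - σ π)` descends to `A[X]`, is the minimal polynomial of `π`, and its
constant term (the norm of `π`) divides every non-unit of `A`.
Mathlib only.
-/
import Mathlib
import Fermat.Agent.TW.Ram50.Lower

set_option autoImplicit false
set_option linter.unusedSectionVars false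

namespace Fermat.Agent.TW.Ram50.Norm

open IsDiscreteValuationRing Polynomial IsLocalRing
open Fermat.Agent.TW.Ram50.Lower

variable {B : Type*} [CommRing B] [IsDomain B] [IsDiscreteValuationRing B]
variable (G : Type*) [Group G] [Fintype G] [MulSemiringAction G B]

omit G [Fintype G] [MulSemiringAction G B] in
theorem addVal_prod {ι : Type*} (s : Finset ι) (f : ι → B) :
    addVal B (∏ i ∈ s, f i) = ∑ i ∈ s, addVal B (f i) := by
  classical
  induction s using Finset.induction_on with
  | empty => simp
  | insert a s ha ih => rw [Finset.prod_insert ha, Finset.sum_insert ha, addVal_mul, ih]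

/-- Totally ramified Galois data: `A = B^G`, `B = A[π]`, `π` a uniformizer with trivial stabilizer. -/
structure TotRam (A : Subring B) (π : B) : Prop where
  irr : Irreducible π
  fixed : ∀ σ : G, ∀ a ∈ A, σ • a = a
  mem_of_fixed : ∀ b : B, (∀ σ : G, σ • b = b) → b ∈ A
  gen : ∀ b : B, ∃ q : A[X], aeval π q = b
  faithful : ∀ σ : G, σ • π = π → σ = 1

variable {G}

/-- The polynomial `∏_σ (X - σ π)` over `B`. -/
noncomputable def polyB (G : Type*) [Group G] [Fintype G] [MulSemiringAction G B] (π : B) : B[X] :=
  ∏ σ : G, (X - C (σ • π))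

theorem polyB_monic (π : B) : (polyB G π).Monic :=
  monic_prod_of_monic _ _ fun σ _ => monic_X_sub_C (σ • π)

theorem polyB_natDegree (π : B) : (polyB G π).natDegree = Fintype.card G := by
  rw [polyB, natDegree_prod_of_monic _ _ fun σ _ => monic_X_sub_C (σ • π)]
  simp

theorem polyB_map_smul (π : B) (σ : G) :
    (polyB G π).map (MulSemiringAction.toRingHom G B σ) = polyB G π := by
  rw [polyB, Polynomial.map_prod]
  simp only [Polynomial.map_sub, map_X, map_C, MulSemiringAction.toRingHom_apply, ← mul_smul]
  exact Fintype.prod_equiv (Equiv.mulLeft σ) _ _ fun τ => rfl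

theorem polyB_coeff_fixed (π : B) (σ : G) (j : ℕ) :
    σ • (polyB G π).coeff j = (polyB G π).coeff j := by
  conv_rhs => rw [← polyB_map_smul π σ]
  rw [coeff_map]; rfl

theorem eval_polyB (π x : B) : (polyB G π).eval x = ∏ σ : G, (x - σ • π) := by
  rw [polyB, eval_prod]; simp

namespace TotRam

variable {A : Subring B} {π : B} (h : TotRam G A π)
include h

theorem smul_injective : Function.Injective fun σ : G => σ • π := by
  intro σ τ hστ
  have h1 : (τ⁻¹ * σ) • π = π := by
    rw [mul_smul]; simp only at hστ; rw [hστ, inv_smul_smul]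
  have := h.faithful _ h1
  exact (inv_mul_eq_one.1 this).symm

theorem exists_polyA : ∃ q : A[X], q.map A.subtype = polyB G π ∧
    q.natDegree = Fintype.card G ∧ q.Monic := by
  have hl : polyB G π ∈ lifts A.subtype := by
    rw [lifts_iff_coeff_lifts]
    intro j
    exact ⟨⟨_, h.mem_of_fixed _ fun σ => polyB_coeff_fixed π σ j⟩, rfl⟩
  obtain ⟨q, h1, h2, h3⟩ := lifts_and_natDegree_eq_and_monic hl (polyB_monic π)
  exact ⟨q, h1, by rw [h2, polyB_natDegree], h3⟩

/-- The minimal polynomial of `π` over `A`. -/
noncomputable def polyA : A[X] := h.exists_polyA.choose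

theorem polyA_map : h.polyA.map A.subtype = polyB G π := h.exists_polyA.choose_spec.1

theorem polyA_natDegree : h.polyA.natDegree = Fintype.card G := h.exists_polyA.choose_spec.2.1

theorem polyA_monic : h.polyA.Monic := h.exists_polyA.choose_spec.2.2

theorem aeval_eq_eval_map (q : A[X]) (x : B) : aeval x q = (q.map A.subtype).eval x := by
  rw [aeval_def, eval_map]; rfl

theorem aeval_polyA (x : B) : aeval x h.polyA = ∏ σ : G, (x - σ • π) := by
  rw [h.aeval_eq_eval_map, h.polyA_map, eval_polyB]

theorem aeval_polyA_self : aeval π h.polyA = 0 := by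
  rw [h.aeval_polyA]
  exact Finset.prod_eq_zero (Finset.mem_univ (1 : G)) (by simp)

/-- `polyA` generates the kernel of evaluation at `π`. -/
theorem polyA_dvd_of_aeval_eq_zero (R : A[X]) (hR : aeval π R = 0) : h.polyA ∣ R := by
  classical
  rw [← modByMonic_eq_zero_iff_dvd h.polyA_monic]
  set r := R %ₘ h.polyA with hr
  have hdeg : r.natDegree < Fintype.card G := by
    rcases subsingleton_or_nontrivial G with hG | hG
    · -- card G = 1, polyA has degree 1
      have hlt := natDegree_modByMonic_lt R h.polyA_monic (by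
        intro h1
        have := h.polyA_natDegree
        rw [h1, natDegree_one] at this
        exact absurd this.symm Fintype.card_ne_zero)
      rwa [h.polyA_natDegree] at hlt
    · have hlt := natDegree_modByMonic_lt R h.polyA_monic (by
        intro h1
        have := h.polyA_natDegree
        rw [h1, natDegree_one] at this
        exact absurd this.symm Fintype.card_ne_zero)
      rwa [h.polyA_natDegree] at hlt
  have hrπ : aeval π r = 0 := by
    have h1 : R = r + h.polyA * (R /ₘ h.polyA) := (modByMonic_add_div R h.polyA).symm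
    have h2 := congrArg (aeval π) h1
    rw [map_add, map_mul, h.aeval_polyA_self, zero_mul, add_zero, hR] at h2
    exact h2.symm
  have hroots : ∀ σ : G, (r.map A.subtype).eval (σ • π) = 0 := by
    intro σ
    rw [← h.aeval_eq_eval_map, ← smul_aeval A σ (h.fixed σ), hrπ, smul_zero]
  have hzero : r.map A.subtype = 0 :=
    eq_zero_of_natDegree_lt_card_of_eval_eq_zero _ h.smul_injective hroots
      (lt_of_le_of_lt natDegree_map_le hdeg)
  exact (Polynomial.map_eq_zero_iff A.subtype_injective).1 hzero

/-- The norm of `π`, as an element of `A`. -/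
noncomputable def normPi : A :=
  ⟨∏ σ : G, σ • π, h.mem_of_fixed _ fun τ => by
    rw [Finset.smul_prod']
    simp only [← mul_smul]
    exact Fintype.prod_equiv (Equiv.mulLeft τ) _ _ fun σ => rfl⟩

theorem coe_normPi : (h.normPi : B) = ∏ σ : G, σ • π := rfl

theorem addVal_normPi : addVal B (h.normPi : B) = Fintype.card G := by
  rw [coe_normPi, addVal_prod]
  simp [addVal_smul, addVal_uniformizer h.irr]

theorem normPi_ne_zero : (h.normPi : B) ≠ 0 := by
  intro h0
  have := h.addVal_normPi
  rw [h0, addVal_zero] at this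
  exact ENat.top_ne_natCast _ this

theorem polyA_coeff_zero : (h.polyA.coeff 0 : B) = (-1) ^ Fintype.card G * (h.normPi : B) := by
  have h1 : (h.polyA.coeff 0 : B) = (h.polyA.map A.subtype).coeff 0 := by
    rw [coeff_map]; rfl
  rw [h1, h.polyA_map, coeff_zero_eq_eval_zero, eval_polyB, coe_normPi]
  simp only [zero_sub]
  rw [Finset.prod_neg]
  simp

/-- Every element of `B` is congruent mod `π` to an element of `A` (residue degree one). -/
theorem exists_rep (b : B) : ∃ a : A, π ∣ b - (a : B) := by
  obtain ⟨q, rfl⟩ := h.gen b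
  refine ⟨q.coeff 0, ?_⟩
  have h1 : ((q.coeff 0 : A) : B) = (q.map A.subtype).eval 0 := by
    rw [← coeff_zero_eq_eval_zero, coeff_map]; rfl
  rw [h1, h.aeval_eq_eval_map]
  have := sub_dvd_eval_sub π 0 (q.map A.subtype)
  rwa [sub_zero] at this

/-- The norm of `π` divides (in `A`) every element of `A` divisible by `π` in `B`. -/
theorem normPi_dvd_of_dvd (a : A) (ha : π ∣ (a : B)) : h.normPi ∣ a := by
  obtain ⟨u, hu⟩ := ha
  obtain ⟨q, hq⟩ := h.gen u
  have hR : aeval π (C a - X * q) = 0 := by
    rw [map_sub, map_mul, aeval_X, aeval_C, hq, ← hu]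
    exact sub_self _
  obtain ⟨g, hg⟩ := h.polyA_dvd_of_aeval_eq_zero _ hR
  have h0 := congrArg (fun f => f.coeff 0) hg
  simp only [coeff_sub, coeff_C_zero, mul_coeff_zero, coeff_X_zero, zero_mul, sub_zero] at h0
  have h1 : h.polyA.coeff 0 = (-1) ^ Fintype.card G * h.normPi := by
    apply Subtype.ext
    rw [h.polyA_coeff_zero]
    push_cast
    rfl
  rw [h0, h1]
  exact ⟨(-1) ^ Fintype.card G * g.coeff 0, by ring⟩

theorem le_addVal_of_dvd (a : A) (ha : π ∣ (a : B)) : (Fintype.card G : ℕ∞) ≤ addVal B (a : B) := by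
  obtain ⟨a', rfl⟩ := h.normPi_dvd_of_dvd a ha
  push_cast
  rw [addVal_mul, h.addVal_normPi]
  exact le_self_add

/-- An element of `A` which is a unit of `B` is a unit of `A`. -/
theorem isUnit_of_isUnit (a : A) (ha : IsUnit (a : B)) : IsUnit a := by
  obtain ⟨u, hu⟩ := ha
  have hmem : (↑u⁻¹ : B) ∈ A := by
    apply h.mem_of_fixed
    intro σ
    have h1 : σ • ((u : B) * (↑u⁻¹ : B)) = 1 := by simp
    rw [smul_mul', hu, h.fixed σ _ a.2, ← hu] at h1
    calc σ • (↑u⁻¹ : B) = (↑u⁻¹ : B) * ((u : B) * σ • (↑u⁻¹ : B)) := by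
          rw [← mul_assoc, Units.inv_mul, one_mul]
      _ = (↑u⁻¹ : B) := by rw [h1, mul_one]
  refine IsUnit.of_mul_eq_one ⟨_, hmem⟩ ?_
  apply Subtype.ext
  push_cast
  rw [← hu]
  simp

end TotRam

end Fermat.Agent.TW.Ram50.Norm
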