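/-
Programme TW (S56), brick B5-R (ramification chapter), file 3 (helper50).

The value formula `v(P(β)) = ∑_τ min(v(β - π), i_G(τ))` for `P = ∏_τ (X - τ π)` (when `π` is a
closest conjugate to `β`), the function `F(x) = x + ∑_{τ ≠ 1} min(x, i_G τ)`, and the reduction
"a root of `Q ∈ A[X]` may be moved by `G` so that `π` is a closest conjugate".
Mathlib only.
-/
import Mathlib
import Fermat.Agent.TW.Ram50.Norm

set_option autoImplicit false
set_option linter.unusedSectionVars false

namespace Fermat.Agent.TW.Ram50.Value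

open IsDiscreteValuationRing Polynomial IsLocalRing
open Fermat.Agent.TW.Ram50.Lower Fermat.Agent.TW.Ram50.Norm

variable {B : Type*} [CommRing B] [IsDomain B] [IsDiscreteValuationRing B]
variable {G : Type*} [Group G] [Fintype G] [MulSemiringAction G B]

/-- Ultrametric computation: if `v(z - d) ≤ v(z)` then `v(z - d) = min (v z) (v d)`. -/
theorem addVal_sub_eq_min {z d : B} (hmax : addVal B (z - d) ≤ addVal B z) :
    addVal B (z - d) = min (addVal B z) (addVal B d) := by
  have h1 : min (addVal B z) (addVal B d) ≤ addVal B (z - d) := by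
    have := addVal_add (R := B) (a := z) (b := -d)
    rwa [(addVal B).map_neg, ← sub_eq_add_neg] at this
  refine le_antisymm ?_ h1
  rcases lt_or_ge (addVal B d) (addVal B z) with hlt | hge
  · rw [min_eq_right hlt.le]
    by_contra hc
    rw [not_le] at hc
    have h2 : min (addVal B z) (addVal B (z - d)) ≤ addVal B d := by
      have := addVal_add (R := B) (a := z) (b := -(z - d))
      rw [(addVal B).map_neg] at this
      have h3 : z + -(z - d) = d := by ring
      rwa [h3] at this
    exact absurd h2 (not_le.2 (lt_min hlt hc))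
  · rw [min_eq_left hge]; exact hmax

namespace TotRam'

variable {A : Subring B} {π : B} (h : TotRam G A π)
include h

theorem iG_eq (τ : G) : iG B τ = addVal B (τ • π - π) :=
  iG_eq_of_adjoin A h.fixed π h.gen τ

theorem one_le_iG (τ : G) : 1 ≤ iG B τ := by
  rw [iG_eq h, ← addVal_uniformizer h.irr, addVal_le_iff_dvd]
  have h1 : π ∣ τ • π := by
    rw [← addVal_le_iff_dvd, addVal_smul]
  exact dvd_sub h1 dvd_rfl

theorem iG_ne_top {τ : G} (hτ : τ ≠ 1) : iG B τ ≠ ⊤ := by
  rw [iG_eq h, Ne, addVal_eq_top_iff, sub_eq_zero]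
  exact fun h1 => hτ (h.faithful τ h1)

/-- The value formula. -/
theorem addVal_aeval_polyA {β : B}
    (hmax : ∀ τ : G, addVal B (β - τ • π) ≤ addVal B (β - π)) :
    addVal B (aeval β h.polyA) = ∑ τ : G, min (addVal B (β - π)) (iG B τ) := by
  rw [h.aeval_polyA, addVal_prod]
  refine Finset.sum_congr rfl fun τ _ => ?_
  have h1 : β - τ • π = (β - π) - (τ • π - π) := by ring
  rw [iG_eq h, h1]
  apply addVal_sub_eq_min
  rw [← h1]
  exact hmax τ

/-- A root in `B` of a polynomial over `A` can be moved by `G` to a root for which `π` is a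
closest conjugate of `π`. -/
theorem exists_root_closest (Q : A[X]) {β : B} (hβ : aeval β Q = 0) :
    ∃ β' : B, aeval β' Q = 0 ∧ addVal B β' = addVal B β ∧
      ∀ τ : G, addVal B (β' - τ • π) ≤ addVal B (β' - π) := by
  obtain ⟨τ0, -, hτ0⟩ := Finset.exists_max_image (Finset.univ : Finset G)
    (fun τ => addVal B (β - τ • π)) ⟨1, Finset.mem_univ _⟩
  refine ⟨τ0⁻¹ • β, ?_, addVal_smul B _ _, ?_⟩
  · rw [← smul_aeval A τ0⁻¹ (h.fixed τ0⁻¹), hβ, smul_zero]
  · intro τ
    have h1 : τ0⁻¹ • β - τ • π = τ0⁻¹ • (β - (τ0 * τ) • π) := by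
      rw [smul_sub, mul_smul, inv_smul_smul]
    have h2 : τ0⁻¹ • β - π = τ0⁻¹ • (β - τ0 • π) := by
      rw [smul_sub, inv_smul_smul]
    rw [h1, h2, addVal_smul, addVal_smul]
    exact hτ0 _ (Finset.mem_univ _)

end TotRam'

section Fn

variable [DecidableEq G]

/-- The function `F(x) = x + ∑_{τ ≠ 1} min(x, e τ)` on natural numbers. -/
def Fn (e : G → ℕ) (x : ℕ) : ℕ := x + ∑ τ ∈ Finset.univ.erase (1 : G), min x (e τ)

theorem Fn_strictMono (e : G → ℕ) : StrictMono (Fn e) := by
  intro x y hxy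
  unfold Fn
  refine add_lt_add_of_lt_of_le hxy (Finset.sum_le_sum fun τ _ => ?_)
  exact min_le_min hxy.le le_rfl

theorem Fn_one (e : G → ℕ) (he : ∀ τ : G, τ ≠ 1 → 1 ≤ e τ) : Fn e 1 = Fintype.card G := by
  unfold Fn
  rw [Finset.sum_congr rfl (g := fun _ => 1)]
  · rw [Finset.sum_const, Finset.card_erase_of_mem (Finset.mem_univ _), Finset.card_univ,
      smul_eq_mul, mul_one]
    have : 0 < Fintype.card G := Fintype.card_pos
    omega
  · intro τ hτ
    exact min_eq_left (he τ (Finset.ne_of_mem_erase hτ))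

theorem Fn_zero (e : G → ℕ) : Fn e 0 = 0 := by
  unfold Fn
  simp

/-- Comparison with the `ℕ∞`-valued sum. -/
theorem sum_min_eq_Fn (e : G → ℕ) (i : G → ℕ∞) (hi1 : i 1 = ⊤) (hi : ∀ τ : G, τ ≠ 1 → i τ = e τ)
    (x : ℕ) : ∑ τ : G, min (x : ℕ∞) (i τ) = (Fn e x : ℕ) := by
  unfold Fn
  rw [← Finset.add_sum_erase Finset.univ _ (Finset.mem_univ (1 : G)), hi1, min_eq_left le_top]
  push_cast
  congr 1
  refine Finset.sum_congr rfl fun τ hτ => ?_
  rw [hi τ (Finset.ne_of_mem_erase hτ)]
  rcases le_total x (e τ) with hle | hle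
  · rw [min_eq_left hle, min_eq_left (Nat.cast_le.2 hle)]
  · rw [min_eq_right hle, min_eq_right (Nat.cast_le.2 hle)]

end Fn

end Fermat.Agent.TW.Ram50.Value
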