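/-
Programme TW (S56), brick B5-R (ramification chapter), file 4 (helper50).

Core of the SHARP converse of Fontaine's Prop. 1.5(ii) for finite residue fields.

`(B, G, A, π)` totally ramified Galois data with finite residue field, wildly ramified
(`T := max_{τ ≠ 1} i_G(τ) ≥ 2`).  Write `F(T) = ∑_τ min(T, i_G τ) = |G| q + i`, `0 ≤ i < |G|`.
Then there is a unit `a ∈ A` such that `Q = P - a N(π)^q X^i` has NO root in `B`.
(`Q` is Eisenstein of degree `|G|`, `E = K[X]/(Q)` is a totally ramified extension of degree `|G|`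
with `O_L → O_E / m_E^{F(T)}`, so Fontaine's property `(P_m)` fails for `m = F(T)/|G| = u_{L/K}`.)
Mathlib only.
-/
import Mathlib
import Fermat.Agent.TW.Ram50.Value

set_option autoImplicit false
set_option linter.unusedSectionVars false

namespace Fermat.Agent.TW.Ram50.NoRoot

open IsDiscreteValuationRing Polynomial IsLocalRing
open Fermat.Agent.TW.Ram50.Lower Fermat.Agent.TW.Ram50.Norm Fermat.Agent.TW.Ram50.Value

variable {B : Type*} [CommRing B] [IsDomain B] [IsDiscreteValuationRing B]
variable {G : Type*} [Group G] [Fintype G] [DecidableEq G] [MulSemiringAction G B]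
variable {A : Subring B} {π : B}

/-- The breaks `e τ = i_G(τ)` as natural numbers (junk value `0` at `τ = 1`). -/
noncomputable def brk (B : Type*) [CommRing B] [IsDomain B] [IsDiscreteValuationRing B]
    {G : Type*} [Group G] [MulSemiringAction G B] (τ : G) : ℕ := (iG B τ).toNat

/-- The largest break `T = max_{τ ≠ 1} i_G(τ)`. -/
noncomputable def topBrk (B : Type*) [CommRing B] [IsDomain B] [IsDiscreteValuationRing B]
    (G : Type*) [Group G] [Fintype G] [DecidableEq G] [MulSemiringAction G B] : ℕ :=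
  (Finset.univ.erase (1 : G)).sup (brk B)

/-- `F(T) = ∑_τ min(T, i_G τ)`, the numerator of Fontaine's `u_{L/K}`. -/
noncomputable def FT (B : Type*) [CommRing B] [IsDomain B] [IsDiscreteValuationRing B]
    (G : Type*) [Group G] [Fintype G] [DecidableEq G] [MulSemiringAction G B] : ℕ :=
  Fn (brk (G := G) B) (topBrk B G)

theorem coe_brk (h : TotRam G A π) {τ : G} (hτ : τ ≠ 1) : (brk B τ : ℕ∞) = iG B τ :=
  ENat.natCast_toNat (TotRam'.iG_ne_top h hτ)

theorem one_le_brk (h : TotRam G A π) {τ : G} (hτ : τ ≠ 1) : 1 ≤ brk B τ := by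
  have h1 := TotRam'.one_le_iG h τ
  rw [← coe_brk h hτ] at h1
  exact_mod_cast h1

theorem brk_le_topBrk {τ : G} (hτ : τ ≠ 1) : brk B τ ≤ topBrk B G :=
  Finset.le_sup (f := brk B) (Finset.mem_erase.2 ⟨hτ, Finset.mem_univ τ⟩)

theorem card_le_FT (h : TotRam G A π) (hT : 1 ≤ topBrk B G) : Fintype.card G ≤ FT B G := by
  rw [← Fn_one (brk (G := G) B) fun τ hτ => one_le_brk h hτ]
  exact (Fn_strictMono _).monotone hT

/-- The polynomial `Q = P - a N(π)^q X^i`, generic exponents. -/
noncomputable def polyQ' (h : TotRam G A π) (q i : ℕ) (a : A) : A[X] :=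
  h.polyA - C (a * h.normPi ^ q) * X ^ i

/-- The polynomial `Q = P - a N(π)^q X^i`. -/
noncomputable def polyQ (h : TotRam G A π) (a : A) : A[X] :=
  polyQ' h (FT B G / Fintype.card G) (FT B G % Fintype.card G) a

theorem aeval_polyQ' (h : TotRam G A π) (q i : ℕ) (a : A) (β : B) :
    aeval β (polyQ' h q i a) = (∏ τ : G, (β - τ • π)) -
      (a : B) * (h.normPi : B) ^ q * β ^ i := by
  rw [polyQ', map_sub, map_mul, map_pow, aeval_X, aeval_C, h.aeval_polyA]
  rfl

/-- **No-root theorem**, generic form. -/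
theorem exists_polyQ'_no_root (h : TotRam G A π) [Finite (ResidueField B)]
    (n T q i : ℕ) (hn : n = Fintype.card G) (hTdef : T = topBrk B G) (hT : 2 ≤ T)
    (hFT : n * q + i = FT B G) (hqpos : 1 ≤ q) :
    ∃ a : A, IsUnit (a : B) ∧ ∀ β : B, aeval β (polyQ' h q i a) ≠ 0 := by
  classical
  have hnpos : 0 < n := hn ▸ Fintype.card_pos
  have hπ0 : π ≠ 0 := h.irr.ne_zero
  have hvπ : addVal B π = 1 := addVal_uniformizer h.irr
  -- a top element
  have hFTeq : Fn (brk (G := G) B) T = n * q + i := by rw [hFT, FT, hTdef]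
  have hFn1 : Fn (brk (G := G) B) 1 = n := by
    rw [Fn_one _ fun τ hτ => one_le_brk h hτ, hn]
  obtain ⟨τ1, hτ1mem, hτ1⟩ : ∃ τ1 ∈ Finset.univ.erase (1 : G), T = brk B τ1 := by
    have hne : (Finset.univ.erase (1 : G)).Nonempty := by
      by_contra hne
      rw [Finset.not_nonempty_iff_eq_empty] at hne
      have : T = 0 := by rw [hTdef, topBrk, hne, Finset.sup_empty]; rfl
      omega
    obtain ⟨τ1, h1, h2⟩ := Finset.exists_mem_eq_sup (Finset.univ.erase (1 : G)) hne (brk B)
    exact ⟨τ1, h1, hTdef.trans h2⟩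
  have hτ1ne : τ1 ≠ 1 := Finset.ne_of_mem_erase hτ1mem
  -- expansion data
  have hexp : ∀ τ : G, ∃ u : B, τ • π - π = π ^ brk B τ * u ∧ (τ ≠ 1 → IsUnit u) ∧
      (τ = 1 → u = 0) := by
    intro τ
    by_cases hτ : τ = 1
    · exact ⟨0, by simp [hτ], fun h1 => absurd hτ h1, fun _ => rfl⟩
    · have hne : τ • π - π ≠ 0 := by
        rw [Ne, sub_eq_zero]; exact fun h1 => hτ (h.faithful τ h1)
      obtain ⟨m, u, hu⟩ := eq_unit_mul_pow_irreducible hne h.irr
      have hm : (m : ℕ∞) = brk B τ := by
        rw [coe_brk h hτ, TotRam'.iG_eq h, hu, addVal_def' u h.irr m]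
      have hm' : m = brk B τ := by exact_mod_cast hm
      refine ⟨u, ?_, fun _ => u.isUnit, fun h1 => absurd h1 hτ⟩
      rw [hu, hm', mul_comm]
  choose u hu1 hu2 hu3 using hexp
  have hθ : ∀ τ : G, ∃ θ : B, τ • π = π * θ ∧ IsUnit θ := by
    intro τ
    have h1 : addVal B (τ • π) = addVal B π := addVal_smul B τ π
    obtain ⟨w, hw⟩ := ((addVal_eq_iff_associated _ _).1 h1).symm
    exact ⟨w, hw.symm, w.isUnit⟩
  choose θ hθ1 hθ2 using hθ
  -- the residue map
  let r : B →+* ResidueField B := residue B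
  have hrπ : r π = 0 := by
    rw [residue_eq_zero_iff]
    exact h.irr.not_isUnit
  have hrunit : ∀ x : B, IsUnit x → r x ≠ 0 := by
    intro x hx h0
    rw [residue_eq_zero_iff] at h0
    exact h0 hx
  -- the map Φ
  let inTop : G → Prop := fun τ => τ = 1 ∨ brk B τ = T
  let Φ : ResidueField B → ResidueField B := fun ζ =>
    ∏ τ : G, (if inTop τ then ζ - r (u τ) else - r (u τ))
  have hΦ0 : Φ 0 = 0 := by
    apply Finset.prod_eq_zero (Finset.mem_univ (1 : G))
    have : inTop 1 := Or.inl rfl
    rw [if_pos this, hu3 1 rfl]; simp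
  have hΦ1 : Φ (r (u τ1)) = 0 := by
    apply Finset.prod_eq_zero (Finset.mem_univ τ1)
    have : inTop τ1 := Or.inr hτ1.symm
    rw [if_pos this, sub_self]
  have hne01 : r (u τ1) ≠ 0 := hrunit _ (hu2 τ1 hτ1ne)
  have hnotinj : ¬ Function.Injective Φ := fun hinj => hne01 (hinj (hΦ1.trans hΦ0.symm))
  have hnotsurj : ¬ Function.Surjective Φ := fun hs => hnotinj (Finite.injective_iff_surjective.2 hs)
  obtain ⟨w, hw⟩ : ∃ w, ∀ ζ, Φ ζ ≠ w := by
    by_contra hcon
    push Not at hcon
    exact hnotsurj hcon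
  have hw0 : w ≠ 0 := fun h0 => hw 0 (hΦ0.trans h0.symm)
  -- the constant
  set Θ : ResidueField B := (∏ τ : G, r (θ τ)) ^ q with hΘ
  have hΘ0 : Θ ≠ 0 := by
    apply pow_ne_zero
    rw [Finset.prod_ne_zero_iff]
    exact fun τ _ => hrunit _ (hθ2 τ)
  obtain ⟨w', hw'⟩ := residue_surjective (w * Θ⁻¹)
  obtain ⟨a, ha⟩ := h.exists_rep w'
  have hra : r (a : B) * Θ = w := by
    have h1 : r (w' - (a : B)) = 0 := by
      rw [residue_eq_zero_iff]
      obtain ⟨x, hx⟩ := ha
      rw [hx]
      exact fun hu => h.irr.not_isUnit (isUnit_of_mul_isUnit_left hu)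
    rw [map_sub, sub_eq_zero] at h1
    rw [← h1]
    show residue B w' * Θ = w
    rw [hw', inv_mul_cancel_right₀ hΘ0]
  have haunit : IsUnit (a : B) := by
    by_contra hnu
    have : r (a : B) = 0 := (residue_eq_zero_iff _).2 hnu
    rw [this, zero_mul] at hra
    exact hw0 hra.symm
  refine ⟨a, haunit, ?_⟩
  intro β0 hβ0
  -- move to a closest root
  obtain ⟨β, hβ, -, hmax⟩ := TotRam'.exists_root_closest h (polyQ' h q i a) hβ0
  rw [aeval_polyQ', sub_eq_zero] at hβ
  have hval := TotRam'.addVal_aeval_polyA h hmax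
  rw [h.aeval_polyA, hβ] at hval
  have hnorm : (h.normPi : B) = π ^ n * ∏ τ : G, θ τ := by
    rw [TotRam.coe_normPi, Finset.prod_congr rfl fun τ _ => hθ1 τ, Finset.prod_mul_distrib,
      Finset.prod_const, Finset.card_univ, ← hn]
  have hva : addVal B (a : B) = 0 := addVal_eq_zero_iff.2 haunit
  rw [addVal_mul, addVal_mul, addVal_pow, addVal_pow, hva, h.addVal_normPi, zero_add, ← hn] at hval
  set z := β - π with hz
  -- s is finite
  have hzne : z ≠ 0 := by
    intro h0
    have hβπ : β = π := sub_eq_zero.1 h0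
    have h1 : ∏ τ : G, (β - τ • π) = 0 :=
      Finset.prod_eq_zero (Finset.mem_univ (1 : G)) (by rw [one_smul]; exact h0)
    rw [h1] at hβ
    have h2 : (a : B) * (h.normPi : B) ^ q * β ^ i ≠ 0 := by
      apply mul_ne_zero (mul_ne_zero haunit.ne_zero (pow_ne_zero _ h.normPi_ne_zero))
      rw [hβπ]; exact pow_ne_zero _ hπ0
    exact h2 hβ.symm
  obtain ⟨s, hs⟩ : ∃ s : ℕ, addVal B z = s := by
    have : addVal B z ≠ ⊤ := by rwa [Ne, addVal_eq_top_iff]
    exact ⟨(addVal B z).toNat, (ENat.natCast_toNat this).symm⟩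
  have hβne : β ≠ 0 := by
    intro h0
    -- then z = -π, all factors β - τπ = -τπ nonzero, rhs = 0 if i > 0 ... handle by valuation
    have h1 : ∏ τ : G, (β - τ • π) ≠ 0 := by
      rw [Finset.prod_ne_zero_iff]
      intro τ _
      rw [h0, zero_sub, neg_ne_zero, hθ1 τ]
      exact mul_ne_zero hπ0 (hθ2 τ).ne_zero
    have h2 : addVal B (∏ τ : G, (β - τ • π)) = n := by
      rw [addVal_prod]
      have : ∀ τ ∈ (Finset.univ : Finset G), addVal B (β - τ • π) = 1 := by
        intro τ _
        rw [h0, zero_sub, (addVal B).map_neg, addVal_smul, hvπ]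
      rw [Finset.sum_congr rfl this]
      simp [hn]
    rw [hβ, addVal_mul, addVal_mul, addVal_pow, addVal_pow, hva, h.addVal_normPi, zero_add, h0,
      addVal_zero, ← hn] at h2
    rcases Nat.eq_zero_or_pos i with hi0 | hipos
    · rw [hi0] at h2
      simp only [zero_smul, add_zero, nsmul_eq_mul] at h2
      have h3 : q * n = n := by exact_mod_cast h2
      have hq1 : q = 1 := by
        have : q * n = 1 * n := by rw [h3, one_mul]
        exact Nat.eq_of_mul_eq_mul_right hnpos this
      -- then FT = n = Fn 1, so T = 1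
      have h4 : Fn (brk (G := G) B) T = Fn (brk (G := G) B) 1 := by
        rw [hFn1, hFTeq, hi0, hq1]; ring
      have h5 : T = 1 := (Fn_strictMono (brk (G := G) B)).injective h4
      omega
    · have : (i • (⊤ : ℕ∞)) = ⊤ := by
        rw [nsmul_eq_mul]
        exact ENat.mul_top (by exact_mod_cast hipos.ne')
      rw [this, add_top] at h2
      exact ENat.top_ne_natCast _ h2
  obtain ⟨b, hb⟩ : ∃ b : ℕ, addVal B β = b := by
    have : addVal B β ≠ ⊤ := by rwa [Ne, addVal_eq_top_iff]
    exact ⟨(addVal B β).toNat, (ENat.natCast_toNat this).symm⟩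
  rw [hs, hb, sum_min_eq_Fn (brk (G := G) B) (iG B) iG_one (fun τ hτ => (coe_brk h hτ).symm) s]
    at hval
  have hval' : Fn (brk (G := G) B) s = q * n + i * b := by
    have : ((Fn (brk (G := G) B) s : ℕ) : ℕ∞) = ((q * n + i * b : ℕ) : ℕ∞) := by
      rw [← hval]; push_cast; simp [nsmul_eq_mul]
    exact_mod_cast this
  -- s ≥ 1, b ≥ 1
  have hs1 : 1 ≤ s := by
    by_contra hlt
    have hs0 : s = 0 := by omega
    rw [hs0, Fn_zero] at hval'
    have : 1 ≤ q * n := Nat.mul_pos hqpos hnpos
    omega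
  have hπz : π ∣ z := by
    rw [← addVal_le_iff_dvd, hvπ, hs]; exact_mod_cast hs1
  have hb1 : 1 ≤ b := by
    have h1 : π ∣ β := by
      have : β = π + z := by rw [hz]; ring
      rw [this]; exact dvd_add dvd_rfl hπz
    rw [← addVal_le_iff_dvd, hvπ, hb] at h1
    exact_mod_cast h1
  have hb_of_s : 2 ≤ s → b = 1 := by
    intro hs2
    have hβeq : β = z + π := by rw [hz]; ring
    have hlt : addVal B π < addVal B z := by
      rw [hvπ, hs]; exact_mod_cast hs2
    have h1 : addVal B (z + π) = addVal B π := by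
      have h2 : min (addVal B z) (addVal B π) ≤ addVal B (z + π) := addVal_add
      rw [min_eq_right hlt.le] at h2
      refine le_antisymm ?_ h2
      by_contra hc
      rw [not_le] at hc
      have h3 : min (addVal B (z + π)) (addVal B (-z)) ≤ addVal B (z + π + -z) := addVal_add
      rw [(addVal B).map_neg] at h3
      have h4 : z + π + -z = π := by ring
      rw [h4] at h3
      exact absurd h3 (not_le.2 (lt_min hc hlt))
    rw [← hβeq, hb, hvπ] at h1
    exact_mod_cast h1
  have hsT : s = T ∧ b = 1 := by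
    rcases Nat.lt_or_ge b 2 with hblt | hbge
    · have hb1' : b = 1 := by omega
      refine ⟨?_, hb1'⟩
      apply (Fn_strictMono (brk (G := G) B)).injective
      rw [hval', hFTeq, hb1']; ring
    · exfalso
      have hs1' : s = 1 := by
        by_contra hne
        have : b = 1 := hb_of_s (by omega)
        omega
      rw [hs1', hFn1] at hval'
      -- n = q n + i b with q ≥ 1, b ≥ 2
      have hi0 : i = 0 := by
        by_contra hine
        have h1 : 1 ≤ i := Nat.pos_of_ne_zero hine
        have h2 : n ≤ q * n := Nat.le_mul_of_pos_left n hqpos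
        have h3 : 2 ≤ i * b := by nlinarith
        omega
      have hq1 : q = 1 := by
        rw [hi0, zero_mul, add_zero] at hval'
        have : q * n = 1 * n := by rw [← hval', one_mul]
        exact Nat.eq_of_mul_eq_mul_right hnpos this
      have h4 : Fn (brk (G := G) B) T = Fn (brk (G := G) B) 1 := by
        rw [hFn1, hFTeq, hi0, hq1]; ring
      have h5 : T = 1 := (Fn_strictMono (brk (G := G) B)).injective h4
      omega
  obtain ⟨hsT1, hb1'⟩ := hsT
  -- z = π^T z'
  obtain ⟨z', hz'⟩ : π ^ T ∣ z := by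
    rw [← addVal_le_iff_dvd, addVal_pow, hvπ, hs, hsT1]; simp
  -- factorisation of each factor
  let m : G → ℕ := fun τ => if inTop τ then T else brk B τ
  let f : G → B := fun τ => if inTop τ then z' - u τ else π ^ (T - brk B τ) * z' - u τ
  have hfac : ∀ τ : G, β - τ • π = π ^ m τ * f τ := by
    intro τ
    have h1 : β - τ • π = z - (τ • π - π) := by rw [hz]; ring
    rw [h1, hu1 τ, hz']
    by_cases hin : inTop τ
    · simp only [m, f, if_pos hin]
      rcases hin with h1' | hT'
      · rw [hu3 τ h1']; ring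
      · rw [hT']; ring
    · simp only [m, f, if_neg hin]
      have hτ : τ ≠ 1 := fun h1' => hin (Or.inl h1')
      have hle : brk B τ ≤ T := (hTdef ▸ brk_le_topBrk (B := B) hτ)
      have : π ^ T = π ^ brk B τ * π ^ (T - brk B τ) := by
        rw [← pow_add]; congr 1; omega
      rw [this]; ring
  have hsum : ∑ τ : G, m τ = n * q + i := by
    rw [← hFTeq, Fn, ← Finset.add_sum_erase Finset.univ m (Finset.mem_univ (1 : G))]
    have hm1 : m 1 = T := by
      have : inTop 1 := Or.inl rfl
      simp only [m, if_pos this]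
    rw [hm1]
    congr 1
    refine Finset.sum_congr rfl fun τ hτ => ?_
    have hτ' : τ ≠ 1 := Finset.ne_of_mem_erase hτ
    have hle : brk B τ ≤ T := (hTdef ▸ brk_le_topBrk (B := B) hτ')
    by_cases hin : inTop τ
    · simp only [m, if_pos hin]
      rcases hin with h1' | hT'
      · exact absurd h1' hτ'
      · rw [hT', min_self]
    · simp only [m, if_neg hin]
      rw [min_eq_right hle]
  have hprod : ∏ τ : G, (β - τ • π) = π ^ (n * q + i) * ∏ τ : G, f τ := by
    rw [Finset.prod_congr rfl fun τ _ => hfac τ, Finset.prod_mul_distrib,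
      Finset.prod_pow_eq_pow_sum, hsum]
  have hβfac : β = π * (1 + π ^ (T - 1) * z') := by
    have h1 : β = π + z := by rw [hz]; ring
    have h2 : π ^ T = π * π ^ (T - 1) := by
      rw [← pow_succ']; congr 1; omega
    rw [h1, hz', h2]; ring
  have hrhs : (a : B) * (h.normPi : B) ^ q * β ^ i =
      π ^ (n * q + i) * ((a : B) * (∏ τ : G, θ τ) ^ q * (1 + π ^ (T - 1) * z') ^ i) := by
    rw [hnorm]
    conv_lhs => rw [hβfac]
    rw [mul_pow, mul_pow, ← pow_mul, pow_add]
    ring
  rw [hprod, hrhs] at hβ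
  have hcancel : ∏ τ : G, f τ = (a : B) * (∏ τ : G, θ τ) ^ q * (1 + π ^ (T - 1) * z') ^ i :=
    mul_left_cancel₀ (pow_ne_zero _ hπ0) hβ
  -- apply the residue map
  have hres := congrArg r hcancel
  rw [map_prod, map_mul, map_mul, map_pow, map_pow, map_prod, map_add, map_one, map_mul, map_pow,
    hrπ, zero_pow (by omega), zero_mul, add_zero, one_pow, mul_one] at hres
  have hΦz : (∏ τ : G, r (f τ)) = Φ (r z') := by
    refine Finset.prod_congr rfl fun τ _ => ?_
    by_cases hin : inTop τ
    · simp only [f, if_pos hin, map_sub]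
    · simp only [f, if_neg hin, map_sub, map_mul, map_pow]
      have hτ : τ ≠ 1 := fun h1' => hin (Or.inl h1')
      have hle : brk B τ ≤ T := (hTdef ▸ brk_le_topBrk (B := B) hτ)
      have hlt : brk B τ < T := lt_of_le_of_ne hle fun heq => hin (Or.inr heq)
      rw [hrπ, zero_pow (by omega), zero_mul, zero_sub]
  rw [hΦz] at hres
  exact hw (r z') (hres.trans hra)

/-- **No-root theorem.** -/
theorem exists_polyQ_no_root (h : TotRam G A π) [Finite (ResidueField B)]
    (hT : 2 ≤ topBrk B G) :
    ∃ a : A, IsUnit (a : B) ∧ ∀ β : B, aeval β (polyQ h a) ≠ 0 := by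
  have hnpos : 0 < Fintype.card G := Fintype.card_pos
  exact exists_polyQ'_no_root h (Fintype.card G) (topBrk B G) _ _ rfl rfl hT
    (Nat.div_add_mod _ _) (Nat.div_pos (card_le_FT h (by omega)) hnpos)

end Fermat.Agent.TW.Ram50.NoRoot
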