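/-
Programme TW (S56), brick B5-R (ramification chapter), file 5 (helper50).

For totally ramified Galois data `(B, G, A, π)`: the base ring `A = B^G` is a DVR with uniformizer
`N(π)`, `v_B = |G| · v_A` on `A`, and the polynomials `P - c X^i` (`c` a non-unit of `A`, with
`v_B(c) > |G|` or `i > 0`) are Eisenstein at the maximal ideal of `A`.
Mathlib only.
-/
import Mathlib
import Fermat.Agent.TW.Ram50.NoRoot

set_option autoImplicit false
set_option linter.unusedSectionVars false

namespace Fermat.Agent.TW.Ram50.BaseDVR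

open IsDiscreteValuationRing Polynomial IsLocalRing
open Fermat.Agent.TW.Ram50.Lower Fermat.Agent.TW.Ram50.Norm Fermat.Agent.TW.Ram50.Value
open Fermat.Agent.TW.Ram50.NoRoot

variable {B : Type*} [CommRing B] [IsDomain B] [IsDiscreteValuationRing B]
variable {G : Type*} [Group G] [Fintype G] [MulSemiringAction G B]
variable {A : Subring B} {π : B}

theorem isUnit_coe_iff (h : TotRam G A π) (a : A) : IsUnit (a : B) ↔ IsUnit a :=
  ⟨h.isUnit_of_isUnit a, fun ha => ha.map A.subtype⟩

theorem not_isUnit_iff_dvd (h : TotRam G A π) (a : A) : ¬ IsUnit a ↔ π ∣ (a : B) := by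
  rw [← isUnit_coe_iff h]
  constructor
  · intro h0
    rw [← addVal_le_iff_dvd, addVal_uniformizer h.irr]
    exact Order.one_le_iff_ne_zero.2 fun h1 => h0 (addVal_eq_zero_iff.1 h1)
  · intro h1 h0
    exact h.irr.not_isUnit (isUnit_of_dvd_unit h1 h0)

theorem normPi_not_isUnit (h : TotRam G A π) : ¬ IsUnit h.normPi := by
  rw [not_isUnit_iff_dvd h, ← addVal_le_iff_dvd, h.addVal_normPi, addVal_uniformizer h.irr]
  exact_mod_cast Fintype.card_pos

theorem normPi_irreducible (h : TotRam G A π) : Irreducible h.normPi := by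
  refine ⟨normPi_not_isUnit h, fun x y hxy => ?_⟩
  by_contra hcon
  push Not at hcon
  obtain ⟨hx, hy⟩ := hcon
  have hx' := h.le_addVal_of_dvd x ((not_isUnit_iff_dvd h x).1 hx)
  have hy' := h.le_addVal_of_dvd y ((not_isUnit_iff_dvd h y).1 hy)
  have h1 : addVal B (h.normPi : B) = addVal B (x : B) + addVal B (y : B) := by
    rw [hxy]; push_cast; exact addVal_mul
  rw [h.addVal_normPi] at h1
  have h2 : (Fintype.card G : ℕ∞) + Fintype.card G ≤ Fintype.card G :=
    calc (Fintype.card G : ℕ∞) + Fintype.card G
        ≤ addVal B (x : B) + addVal B (y : B) := add_le_add hx' hy'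
      _ = Fintype.card G := h1.symm
  have h3 : Fintype.card G + Fintype.card G ≤ Fintype.card G := by exact_mod_cast h2
  have : 0 < Fintype.card G := Fintype.card_pos
  omega

theorem exists_associated_pow (h : TotRam G A π) {x : A} (hx : x ≠ 0) :
    ∃ k : ℕ, Associated (h.normPi ^ k) x := by
  have hfin : addVal B (x : B) ≠ ⊤ := by
    rw [Ne, addVal_eq_top_iff]
    exact fun h0 => hx (Subtype.ext h0)
  obtain ⟨m, hm⟩ : ∃ m : ℕ, addVal B (x : B) = m := ⟨_, (ENat.natCast_toNat hfin).symm⟩
  induction m using Nat.strong_induction_on generalizing x with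
  | _ m ih =>
    by_cases hu : IsUnit x
    · exact ⟨0, by rw [pow_zero]; exact (associated_one_iff_isUnit.2 hu).symm⟩
    · obtain ⟨x', rfl⟩ := h.normPi_dvd_of_dvd x ((not_isUnit_iff_dvd h x).1 hu)
      have hx' : x' ≠ 0 := right_ne_zero_of_mul hx
      have hfin' : addVal B (x' : B) ≠ ⊤ := by
        rw [Ne, addVal_eq_top_iff]
        exact fun h0 => hx' (Subtype.ext h0)
      obtain ⟨m', hm'⟩ : ∃ m' : ℕ, addVal B (x' : B) = m' := ⟨_, (ENat.natCast_toNat hfin').symm⟩
      have h1 : (m : ℕ∞) = Fintype.card G + m' := by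
        rw [← hm, ← hm']; push_cast; rw [addVal_mul, h.addVal_normPi]
      have h2 : m = Fintype.card G + m' := by exact_mod_cast h1
      have hlt : m' < m := by
        have : 0 < Fintype.card G := Fintype.card_pos
        omega
      obtain ⟨k, hk⟩ := ih m' hlt hx' hfin' hm'
      exact ⟨k + 1, by rw [pow_succ']; exact hk.mul_left _⟩

/-- `A = B^G` is a discrete valuation ring. -/
theorem isDiscreteValuationRing (h : TotRam G A π) : IsDiscreteValuationRing A :=
  IsDiscreteValuationRing.ofHasUnitMulPowIrreducibleFactorization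
    ⟨h.normPi, normPi_irreducible h, fun hx => exists_associated_pow h hx⟩

theorem mem_maximalIdeal_iff (h : TotRam G A π) [IsLocalRing A] (a : A) :
    a ∈ maximalIdeal A ↔ π ∣ (a : B) := by
  rw [mem_maximalIdeal, mem_nonunits_iff, not_isUnit_iff_dvd h]

/-- `v_B = |G| · v_A` on `A`. -/
theorem addVal_coe (h : TotRam G A π) [IsDiscreteValuationRing A] (a : A) :
    addVal B (a : B) = Fintype.card G • addVal A a := by
  rcases eq_or_ne a 0 with rfl | ha
  · simp only [ZeroMemClass.coe_zero, addVal_zero]
    rw [nsmul_eq_mul, ENat.mul_top]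
    exact_mod_cast Fintype.card_ne_zero
  obtain ⟨k, u, hu⟩ := exists_associated_pow h ha
  rw [← hu]
  push_cast
  rw [addVal_mul, addVal_mul, addVal_pow, addVal_pow, h.addVal_normPi,
    addVal_uniformizer (normPi_irreducible h), addVal_eq_zero_of_unit,
    addVal_eq_zero_iff.2 ((isUnit_coe_iff h _).2 u.isUnit), add_zero, add_zero]
  simp only [nsmul_eq_mul, mul_one]
  rw [mul_comm]

theorem mem_sq_maximalIdeal (h : TotRam G A π) [IsLocalRing A] {x : A}
    (hx : x ∈ maximalIdeal A ^ 2) : (2 * Fintype.card G : ℕ) ≤ addVal B (x : B) := by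
  rw [pow_two] at hx
  refine Submodule.mul_induction_on hx ?_ ?_
  · intro a ha b hb
    have ha' := h.le_addVal_of_dvd a ((mem_maximalIdeal_iff h a).1 ha)
    have hb' := h.le_addVal_of_dvd b ((mem_maximalIdeal_iff h b).1 hb)
    push_cast
    rw [addVal_mul, two_mul]
    exact add_le_add ha' hb'
  · intro a b ha hb
    push_cast
    exact le_trans (le_min ha hb) addVal_add

variable [DecidableEq G]

theorem polyQ'_monic (h : TotRam G A π) (q i : ℕ) (a : A) (hi : i < Fintype.card G) :
    (polyQ' h q i a).Monic := by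
  have hdeg : (C (a * h.normPi ^ q) * X ^ i : A[X]).degree < h.polyA.degree := by
    rw [degree_eq_natDegree h.polyA_monic.ne_zero, h.polyA_natDegree]
    refine lt_of_le_of_lt (degree_C_mul_X_pow_le _ _) ?_
    exact_mod_cast hi
  exact h.polyA_monic.sub_of_left hdeg

theorem polyQ'_natDegree (h : TotRam G A π) (q i : ℕ) (a : A) (hi : i < Fintype.card G) :
    (polyQ' h q i a).natDegree = Fintype.card G := by
  rw [polyQ', natDegree_sub_eq_left_of_natDegree_lt, h.polyA_natDegree]
  rw [h.polyA_natDegree]
  exact lt_of_le_of_lt (natDegree_C_mul_X_pow_le _ _) hi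

/-- `Q = P - a N(π)^q X^i` is Eisenstein at the maximal ideal of `A` when `|G| < |G| q + i`. -/
theorem polyQ'_isEisensteinAt (h : TotRam G A π) [IsLocalRing A] (q i : ℕ) (a : A)
    (hq : 1 ≤ q) (hi : i < Fintype.card G) (hqi : 2 ≤ q ∨ 1 ≤ i) :
    (polyQ' h q i a).IsEisensteinAt (maximalIdeal A) := by
  have hn : 0 < Fintype.card G := Fintype.card_pos
  have hdeg : (C (a * h.normPi ^ q) * X ^ i : A[X]).degree < h.polyA.degree := by
    rw [degree_eq_natDegree h.polyA_monic.ne_zero, h.polyA_natDegree]
    refine lt_of_le_of_lt (degree_C_mul_X_pow_le _ _) ?_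
    exact_mod_cast hi
  have hmonic : (polyQ' h q i a).Monic := h.polyA_monic.sub_of_left hdeg
  have hnat : (polyQ' h q i a).natDegree = Fintype.card G := by
    rw [polyQ', natDegree_sub_eq_left_of_natDegree_lt, h.polyA_natDegree]
    rw [h.polyA_natDegree]
    refine lt_of_le_of_lt (natDegree_C_mul_X_pow_le _ _) hi
  have hcmem : a * h.normPi ^ q ∈ maximalIdeal A := by
    rw [mem_maximalIdeal_iff h]
    push_cast
    apply Dvd.dvd.mul_left
    apply dvd_pow _ (by omega)
    rw [← addVal_le_iff_dvd, h.addVal_normPi, addVal_uniformizer h.irr]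
    exact_mod_cast hn
  have hPcoeff : ∀ j, j < Fintype.card G → h.polyA.coeff j ∈ maximalIdeal A := by
    intro j hj
    rw [mem_maximalIdeal_iff h]
    have h1 : ((h.polyA.coeff j : A) : B) = (polyB G π).coeff j := by
      rw [← h.polyA_map, coeff_map]; rfl
    rw [h1]
    -- reduce mod π: polyB ≡ X^n
    have h2 : (polyB G π).map (residue B) = X ^ Fintype.card G := by
      rw [polyB, Polynomial.map_prod]
      have : ∀ σ ∈ (Finset.univ : Finset G), (X - C (σ • π)).map (residue B) = X := by
        intro σ _
        rw [Polynomial.map_sub, map_X, map_C]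
        have : residue B (σ • π) = 0 := by
          rw [residue_eq_zero_iff]
          intro hu
          have h3 : addVal B (σ • π) = 0 := addVal_eq_zero_iff.2 hu
          rw [addVal_smul, addVal_uniformizer h.irr] at h3
          exact one_ne_zero h3
        rw [this, C_0, sub_zero]
      rw [Finset.prod_congr rfl this, Finset.prod_const, Finset.card_univ]
    have h3 : residue B ((polyB G π).coeff j) = 0 := by
      rw [← coeff_map, h2, coeff_X_pow, if_neg hj.ne]
    rw [residue_eq_zero_iff] at h3
    rw [← addVal_le_iff_dvd, addVal_uniformizer h.irr]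
    exact Order.one_le_iff_ne_zero.2 fun h0 => h3 (addVal_eq_zero_iff.1 h0)
  refine hmonic.isEisensteinAt_of_mem_of_notMem (maximalIdeal.isMaximal A).ne_top ?_ ?_
  · intro j hj
    rw [hnat] at hj
    rw [polyQ', coeff_sub, coeff_C_mul, coeff_X_pow]
    refine Ideal.sub_mem _ (hPcoeff j hj) (Ideal.mul_mem_right _ _ hcmem)
  · intro hmem
    have h1 := mem_sq_maximalIdeal h hmem
    have h2 : addVal B (((polyQ' h q i a).coeff 0 : A) : B) = Fintype.card G := by
      rw [polyQ', coeff_sub, coeff_C_mul, coeff_X_pow]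
      rcases Nat.eq_zero_or_pos i with hi0 | hipos
      · have hq2 : 2 ≤ q := by omega
        rw [if_pos hi0.symm, mul_one]
        push_cast
        rw [h.polyA_coeff_zero]
        have hneg : addVal B ((-1 : B) ^ Fintype.card G) = 0 := by
          rw [addVal_eq_zero_iff]; exact (isUnit_one.neg).pow _
        have hlt : addVal B ((-1) ^ Fintype.card G * (h.normPi : B)) <
            addVal B ((a : B) * (h.normPi : B) ^ q) := by
          rw [addVal_mul, hneg, zero_add, h.addVal_normPi, addVal_mul, addVal_pow,
            h.addVal_normPi]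
          calc (Fintype.card G : ℕ∞) < 2 * Fintype.card G := by
                exact_mod_cast (by omega : Fintype.card G < 2 * Fintype.card G)
            _ ≤ q • (Fintype.card G : ℕ∞) := by
                rw [nsmul_eq_mul]; exact mul_le_mul_left (by exact_mod_cast hq2) _
            _ ≤ _ := le_add_self
        have h3 := AddValuation.map_sub_eq_of_lt_left (addVal B) hlt
        rw [h3, addVal_mul, h.addVal_normPi, hneg, zero_add]
      · rw [if_neg (by omega), mul_zero, sub_zero, h.polyA_coeff_zero, addVal_mul, h.addVal_normPi]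
        have : addVal B ((-1 : B) ^ Fintype.card G) = 0 := by
          rw [addVal_eq_zero_iff]; exact (isUnit_one.neg).pow _
        rw [this, zero_add]
    rw [h2] at h1
    have : 2 * Fintype.card G ≤ Fintype.card G := by exact_mod_cast h1
    omega

end Fermat.Agent.TW.Ram50.BaseDVR
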