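/-
Programme TW (S56), brick B5-R (ramification chapter), file 6 (helper50).

Two algebraic tools for the sharp converse of Fontaine's Prop. 1.5(ii), for totally ramified Galois
data `(B, G, A, π)`:
* `exists_algHom_of_root`: `B ≅ A[X]/(P)`, so a root of `P` in an `A`-algebra `D` gives `B →ₐ[A] D`;
* `bijective_of_algHom`: an `A`-algebra map from `B` to a DVR `C`, finite over `A`, totally ramified of
  the same degree (`v_C(N π) = |G|`, residue classes represented in `A`), is bijective (Nakayama).
Mathlib only.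
-/
import Mathlib
import Fermat.Agent.TW.Ram50.BaseDVR

set_option autoImplicit false
set_option linter.unusedSectionVars false

namespace Fermat.Agent.TW.Ram50.Invert

open IsDiscreteValuationRing Polynomial IsLocalRing
open Fermat.Agent.TW.Ram50.Lower Fermat.Agent.TW.Ram50.Norm Fermat.Agent.TW.Ram50.Value
open Fermat.Agent.TW.Ram50.NoRoot Fermat.Agent.TW.Ram50.BaseDVR

variable {B : Type*} [CommRing B] [IsDomain B] [IsDiscreteValuationRing B]
variable {G : Type*} [Group G] [Fintype G] [MulSemiringAction G B]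
variable {A : Subring B} {π : B}

/-- `B ≅ A[X]/(P)`: a root `d` of `P` in an `A`-algebra `D` defines `B →ₐ[A] D`, `π ↦ d`. -/
theorem exists_algHom_of_root (h : TotRam G A π) {D : Type*} [CommRing D] [Algebra A D] (d : D)
    (hd : aeval d h.polyA = 0) : ∃ φ : B →ₐ[A] D, φ π = d := by
  have hπ : eval₂ (Algebra.ofId A B) π h.polyA = 0 := by
    have := h.aeval_polyA_self
    rwa [aeval_def] at this
  let f : AdjoinRoot h.polyA →ₐ[A] B := AdjoinRoot.liftAlgHom h.polyA (Algebra.ofId A B) π hπ
  have hfmk : ∀ g : A[X], f (AdjoinRoot.mk h.polyA g) = aeval π g := fun g => by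
    rw [AdjoinRoot.liftAlgHom_mk, aeval_def]; rfl
  have hf : Function.Bijective f := by
    constructor
    · rw [injective_iff_map_eq_zero]
      intro x hx
      obtain ⟨g, rfl⟩ := AdjoinRoot.mk_surjective x
      rw [hfmk] at hx
      exact AdjoinRoot.mk_eq_zero.2 (h.polyA_dvd_of_aeval_eq_zero g hx)
    · intro b
      obtain ⟨g, hg⟩ := h.gen b
      exact ⟨AdjoinRoot.mk h.polyA g, by rw [hfmk, hg]⟩
  let e : AdjoinRoot h.polyA ≃ₐ[A] B := AlgEquiv.ofBijective f hf
  have hd' : eval₂ (Algebra.ofId A D) d h.polyA = 0 := by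
    rwa [aeval_def] at hd
  let g : AdjoinRoot h.polyA →ₐ[A] D := AdjoinRoot.liftAlgHom h.polyA (Algebra.ofId A D) d hd'
  refine ⟨g.comp e.symm.toAlgHom, ?_⟩
  have h1 : e (AdjoinRoot.root h.polyA) = π := by
    show f (AdjoinRoot.root h.polyA) = π
    exact AdjoinRoot.liftAlgHom_root _ _ _ _
  have h2 : e.symm π = AdjoinRoot.root h.polyA := (AlgEquiv.symm_apply_eq e).2 h1.symm
  show g (e.symm π) = d
  rw [h2]
  exact AdjoinRoot.liftAlgHom_root _ _ _ _

/-- An `A`-algebra map from `B` to a totally ramified DVR `C` of the same degree is bijective. -/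
theorem bijective_of_algHom (h : TotRam G A π) {C : Type*} [CommRing C] [IsDomain C]
    [IsDiscreteValuationRing C] [Algebra A C] [Module.Finite A C] (ρ : C) (hρ : Irreducible ρ)
    (hrep : ∀ x : C, ∃ a : A, ρ ∣ x - algebraMap A C a)
    (hval : addVal C (algebraMap A C h.normPi) = Fintype.card G)
    (ι : B →ₐ[A] C) : Function.Bijective ι := by
  classical
  have hn : 0 < Fintype.card G := Fintype.card_pos
  have hιA : ∀ a : A, ι (a : B) = algebraMap A C a := fun a => ι.commutes a
  -- units go to units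
  have hunit : ∀ x : B, IsUnit x → IsUnit (ι x) := fun x hx => hx.map ι
  -- valuation of ι π
  have hθ : ∀ τ : G, ∃ θ : B, τ • π = π * θ ∧ IsUnit θ := by
    intro τ
    have h1 : addVal B (τ • π) = addVal B π := addVal_smul B τ π
    obtain ⟨w, hw⟩ := ((addVal_eq_iff_associated _ _).1 h1).symm
    exact ⟨w, hw.symm, w.isUnit⟩
  choose θ hθ1 hθ2 using hθ
  have hprod : algebraMap A C h.normPi = ι π ^ Fintype.card G * ∏ τ : G, ι (θ τ) := by
    rw [← hιA, TotRam.coe_normPi, map_prod, Finset.prod_congr rfl fun τ _ => by rw [hθ1 τ, map_mul],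
      Finset.prod_mul_distrib, Finset.prod_const, Finset.card_univ]
  have hvθ : addVal C (∏ τ : G, ι (θ τ)) = 0 := by
    rw [addVal_eq_zero_iff]
    have : (∏ τ : G, ι (θ τ)) = ι (∏ τ : G, θ τ) := (map_prod ι _ _).symm
    rw [this]
    apply hunit
    rw [← addVal_eq_zero_iff, addVal_prod]
    exact Finset.sum_eq_zero fun τ _ => addVal_eq_zero_iff.2 (hθ2 τ)
  have hvπ : addVal C (ι π) = 1 := by
    have h1 := hval
    rw [hprod, addVal_mul, hvθ, add_zero, addVal_pow, nsmul_eq_mul] at h1
    -- n * x = n in ℕ∞ with n > 0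
    have hfin : addVal C (ι π) ≠ ⊤ := by
      intro htop
      rw [htop, ENat.mul_top (by exact_mod_cast hn.ne')] at h1
      exact ENat.top_ne_natCast _ h1
    obtain ⟨m, hm⟩ : ∃ m : ℕ, addVal C (ι π) = m := ⟨_, (ENat.natCast_toNat hfin).symm⟩
    rw [hm] at h1 ⊢
    have h2 : Fintype.card G * m = Fintype.card G := by exact_mod_cast h1
    have h3 : m = 1 := by
      have : Fintype.card G * m = Fintype.card G * 1 := by rw [h2, mul_one]
      exact Nat.eq_of_mul_eq_mul_left hn this
    rw [h3]; rfl
  constructor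
  · -- injective
    rw [injective_iff_map_eq_zero]
    intro x hx
    by_contra hx0
    obtain ⟨m, u, rfl⟩ := eq_unit_mul_pow_irreducible hx0 h.irr
    rw [map_mul, map_pow] at hx
    have h1 : ι π ^ m = 0 := by
      rcases mul_eq_zero.1 hx with h2 | h2
      · exact absurd h2 (hunit _ u.isUnit).ne_zero
      · exact h2
    have h2 : ι π = 0 := eq_zero_of_pow_eq_zero h1
    rw [h2, addVal_zero] at hvπ
    exact ENat.top_ne_one hvπ
  · -- surjective
    have hassoc : Associated (ι π) ρ := by
      rw [← addVal_eq_iff_associated, hvπ, addVal_uniformizer hρ]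
    have hstep : ∀ m : ℕ, ∀ x : C, ∃ b : B, ι π ^ m ∣ x - ι b := by
      intro m
      induction m with
      | zero => intro x; exact ⟨0, by simp⟩
      | succ m ih =>
        intro x
        obtain ⟨b, y, hy⟩ := ih x
        obtain ⟨a, ha⟩ := hrep y
        have ha' : ι π ∣ y - algebraMap A C a := hassoc.dvd.trans ha
        obtain ⟨y', hy'⟩ := ha'
        refine ⟨b + π ^ m * (a : B), y', ?_⟩
        rw [map_add, map_mul, map_pow, hιA, pow_succ]
        have hx : x = ι b + ι π ^ m * y := by rw [← hy]; ring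
        have h3 : y = algebraMap A C a + ι π * y' := by rw [← hy']; ring
        rw [hx, h3]; ring
    have hassocN : Associated (ι π ^ Fintype.card G) (algebraMap A C h.normPi) := by
      rw [← addVal_eq_iff_associated, hval, addVal_pow, hvπ]
      simp
    have : IsDiscreteValuationRing A := BaseDVR.isDiscreteValuationRing h
    have hjac : Ideal.span {h.normPi} ≤ Ideal.jacobson (⊥ : Ideal A) := by
      rw [IsLocalRing.jacobson_eq_maximalIdeal ⊥ bot_ne_top, Ideal.span_le, Set.singleton_subset_iff]
      exact (mem_maximalIdeal _).2 (normPi_not_isUnit h)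
    have hFG : (⊤ : Submodule A C).FG := Module.finite_def.1 inferInstance
    have hle : (⊤ : Submodule A C) ≤ LinearMap.range ι.toLinearMap ⊔
        Ideal.span {h.normPi} • (⊤ : Submodule A C) := by
      intro x _
      obtain ⟨b, hb⟩ := hstep (Fintype.card G) x
      obtain ⟨c, hc⟩ := hassocN.dvd_iff_dvd_left.1 hb
      have hx : x = ι b + h.normPi • c := by
        rw [Algebra.smul_def, ← hc]; ring
      rw [hx]
      refine Submodule.add_mem_sup ⟨b, rfl⟩ ?_
      exact Submodule.smul_mem_smul (Ideal.subset_span rfl) Submodule.mem_top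
    have htop := Submodule.le_of_le_smul_of_le_jacobson_bot hFG hjac hle
    intro x
    obtain ⟨b, hb⟩ := htop (Submodule.mem_top : x ∈ ⊤)
    exact ⟨b, hb⟩

end Fermat.Agent.TW.Ram50.Invert
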