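/-
Programme TW (S56), brick B5-R (ramification chapter), file 7 (helper50).

SHARP converse of Fontaine's Prop. 1.5(ii) for finite residue fields, and the resulting
ramification bound:  Fontaine's property `(P_m)` for all `m > e_K p/(p-1)`  ⟹
`(p-1) · F(T) ≤ p · v_B(p)`, where `F(T) = ∑_τ min(T, i_G τ) = |G| · u_{L/K}`.

The input `EisOK` (an Eisenstein polynomial over a DVR defines a totally ramified DVR) is proved in
`Ram50/EisDVR84.lean` (helper84); it enters here as a hypothesis so that this file is Mathlib-only.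
-/
import Mathlib
import Fermat.Agent.TW.Ram50.Invert

set_option autoImplicit false
set_option linter.unusedSectionVars false

namespace Fermat.Agent.TW.Ram50.Converse

open IsDiscreteValuationRing Polynomial IsLocalRing
open Fermat.Agent.TW.Ram50.Lower Fermat.Agent.TW.Ram50.Norm Fermat.Agent.TW.Ram50.Value
open Fermat.Agent.TW.Ram50.NoRoot Fermat.Agent.TW.Ram50.BaseDVR Fermat.Agent.TW.Ram50.Invert

universe u

/-- The conclusion of the Eisenstein lemma for a polynomial `Q` over a DVR `A`. -/
def EisOK {A : Type u} [CommRing A] [IsDomain A] [IsDiscreteValuationRing A] (Q : A[X]) : Prop :=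
  ∃ (_ : IsDomain (AdjoinRoot Q)) (_ : IsDiscreteValuationRing (AdjoinRoot Q)),
    Irreducible (AdjoinRoot.root Q) ∧
    (∀ x : AdjoinRoot Q, ∃ a : A, AdjoinRoot.root Q ∣ x - AdjoinRoot.of Q a) ∧
    (∀ a : A, addVal (AdjoinRoot Q) (AdjoinRoot.of Q a) = Q.natDegree • addVal A a) ∧
    Function.Injective (AdjoinRoot.of Q)

variable {B : Type u} [CommRing B] [IsDomain B] [IsDiscreteValuationRing B]
variable {G : Type*} [Group G] [Fintype G] [DecidableEq G] [MulSemiringAction G B]
variable {A : Subring B} {π : B}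

/-- Fontaine's property `(P_m)` for all `m > e_K p/(p-1)`, in the shape delivered by the
Hopf-algebra side: test rings are DVRs `C` finite over `A`, `m = N / e(C/A)`. -/
def PmHyp (B : Type u) [CommRing B] (A : Subring B) (p : ℕ) : Prop :=
  ∀ (C : Type u) [CommRing C] [IsDomain C] [IsDiscreteValuationRing C] [Algebra A C]
    [Module.Finite A C], Function.Injective (algebraMap A C) → ∀ N : ℕ,
    (p : ℕ∞) * addVal C (p : C) < ((p - 1) * N : ℕ) →
    Nonempty (B →ₐ[A] C ⧸ IsLocalRing.maximalIdeal C ^ N) → Nonempty (B →ₐ[A] C)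

theorem FT_le_card_of_tame (h : TotRam G A π) (hT : topBrk B G ≤ 1) :
    FT B G ≤ Fintype.card G := by
  rw [← Fn_one (brk (G := G) B) fun τ hτ => one_le_brk h hτ]
  exact (Fn_strictMono _).monotone hT

theorem card_lt_FT_of_wild (h : TotRam G A π) (hT : 2 ≤ topBrk B G) :
    Fintype.card G < FT B G := by
  rw [← Fn_one (brk (G := G) B) fun τ hτ => one_le_brk h hτ]
  exact Fn_strictMono _ (by omega)

/-- **Fontaine's ramification bound from `(P_m)`** (sharp converse of Prop. 1.5(ii)). -/
theorem fontaine_bound (h : TotRam G A π) [Finite (ResidueField B)] (p : ℕ)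
    (hpB : π ∣ (p : B)) (hPm : PmHyp B A p)
    (hEis : ∀ [IsDiscreteValuationRing A] (Q : A[X]), Q.Monic →
      Q.IsEisensteinAt (IsLocalRing.maximalIdeal A) → Q.natDegree ≠ 0 → EisOK Q) :
    (((p - 1) * FT B G : ℕ) : ℕ∞) ≤ p * addVal B (p : B) := by
  classical
  have hn : 0 < Fintype.card G := Fintype.card_pos
  have hpA : (p : B) = ((p : A) : B) := by push_cast; rfl
  have hvp : (Fintype.card G : ℕ∞) ≤ addVal B (p : B) := by
    rw [hpA]; exact h.le_addVal_of_dvd _ (hpA ▸ hpB)
  rcases Nat.lt_or_ge (topBrk B G) 2 with hT | hT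
  · -- tame case
    have h1 : FT B G ≤ Fintype.card G := FT_le_card_of_tame h (by omega)
    calc (((p - 1) * FT B G : ℕ) : ℕ∞) ≤ ((p * Fintype.card G : ℕ) : ℕ∞) := by
          exact_mod_cast Nat.mul_le_mul (Nat.sub_le p 1) h1
      _ = p * (Fintype.card G : ℕ∞) := by push_cast; rfl
      _ ≤ p * addVal B (p : B) := mul_le_mul_right hvp _
  · -- wild case
    by_contra hlt
    rw [not_le] at hlt
    obtain ⟨a, haunit, hnoroot⟩ := exists_polyQ_no_root h hT
    set q := FT B G / Fintype.card G with hq
    set i := FT B G % Fintype.card G with hi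
    have hFT : Fintype.card G * q + i = FT B G := Nat.div_add_mod _ _
    have hilt : i < Fintype.card G := Nat.mod_lt _ hn
    have hwild := card_lt_FT_of_wild h hT
    have hqpos : 1 ≤ q := Nat.div_pos hwild.le hn
    have hqi : 2 ≤ q ∨ 1 ≤ i := by
      by_contra hcon
      push Not at hcon
      have hq1 : q = 1 := by omega
      have hi0 : i = 0 := by omega
      rw [hq1, hi0] at hFT
      omega
    have : IsDiscreteValuationRing A := BaseDVR.isDiscreteValuationRing h
    set Q : A[X] := polyQ' h q i a with hQ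
    have hQeq : polyQ h a = Q := rfl
    have hmonic : Q.Monic := polyQ'_monic h q i a hilt
    have hnat : Q.natDegree = Fintype.card G := polyQ'_natDegree h q i a hilt
    have hE : Q.IsEisensteinAt (IsLocalRing.maximalIdeal A) := polyQ'_isEisensteinAt h q i a hqpos hilt hqi
    obtain ⟨hdom, hdvr, hρirr, hrep, hvalC, hinj⟩ := hEis Q hmonic hE (by rw [hnat]; omega)
    have : Module.Finite A (AdjoinRoot Q) := (AdjoinRoot.powerBasis' hmonic).finite
    have halg : ∀ x : A, algebraMap A (AdjoinRoot Q) x = AdjoinRoot.of Q x := fun x => rfl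
    have hvalC' : ∀ x : A, addVal (AdjoinRoot Q) (AdjoinRoot.of Q x) = addVal B (x : B) := by
      intro x
      rw [hvalC, hnat, addVal_coe h]
    -- valuation of p in C
    have hpC : (p : AdjoinRoot Q) = AdjoinRoot.of Q (p : A) := by rw [map_natCast]
    have hvpC : addVal (AdjoinRoot Q) (p : AdjoinRoot Q) = addVal B (p : B) := by
      rw [hpC, hvalC', ← hpA]
    -- the maximal ideal of C
    have hmax : IsLocalRing.maximalIdeal (AdjoinRoot Q) = Ideal.span {AdjoinRoot.root Q} :=
      hρirr.maximalIdeal_eq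
    -- the map η
    have hroot : aeval (Ideal.Quotient.mk (IsLocalRing.maximalIdeal (AdjoinRoot Q) ^ FT B G)
        (AdjoinRoot.root Q)) h.polyA = 0 := by
      have h1 : aeval (Ideal.Quotient.mk (IsLocalRing.maximalIdeal (AdjoinRoot Q) ^ FT B G)
          (AdjoinRoot.root Q)) h.polyA =
          Ideal.Quotient.mk (IsLocalRing.maximalIdeal (AdjoinRoot Q) ^ FT B G)
            (aeval (AdjoinRoot.root Q) h.polyA) :=
        aeval_algHom_apply (Ideal.Quotient.mkₐ A (IsLocalRing.maximalIdeal (AdjoinRoot Q) ^ FT B G))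
          (AdjoinRoot.root Q) h.polyA
      rw [h1, Ideal.Quotient.eq_zero_iff_mem, hmax, Ideal.span_singleton_pow,
        Ideal.mem_span_singleton]
      have h2 : h.polyA = Q + C (a * h.normPi ^ q) * X ^ i := by
        rw [hQ, polyQ']; ring
      rw [h2, map_add, AdjoinRoot.aeval_eq, AdjoinRoot.mk_self, zero_add, map_mul, map_pow,
        aeval_X, aeval_C, halg, ← addVal_le_iff_dvd, addVal_mul, hvalC', addVal_pow, addVal_pow,
        addVal_uniformizer hρirr]
      push_cast
      rw [addVal_mul, addVal_pow, h.addVal_normPi, addVal_eq_zero_iff.2 haunit, zero_add]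
      rw [← hFT]
      simp only [nsmul_eq_mul, mul_one]
      push_cast
      rw [mul_comm]
    obtain ⟨η, -⟩ := exists_algHom_of_root h _ hroot
    have hcond : (p : ℕ∞) * addVal (AdjoinRoot Q) (p : AdjoinRoot Q) <
        (((p - 1) * FT B G : ℕ) : ℕ∞) := by rw [hvpC]; exact hlt
    unfold PmHyp at hPm
    obtain ⟨ι⟩ := hPm (AdjoinRoot Q) (by
      intro x y hxy; rw [halg, halg] at hxy; exact hinj hxy) (FT B G) hcond ⟨η⟩
    have hvalN : addVal (AdjoinRoot Q) (algebraMap A (AdjoinRoot Q) h.normPi) =
        Fintype.card G := by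
      rw [halg, hvalC', h.addVal_normPi]
    have hbij := bijective_of_algHom h (AdjoinRoot.root Q) hρirr
      (fun x => by obtain ⟨a', ha'⟩ := hrep x; exact ⟨a', by rw [halg]; exact ha'⟩) hvalN ι
    obtain ⟨β, hβ⟩ := hbij.2 (AdjoinRoot.root Q)
    apply hnoroot β
    apply hbij.1
    rw [map_zero, hQeq, ← aeval_algHom_apply, hβ, AdjoinRoot.aeval_eq, AdjoinRoot.mk_self]

end Fermat.Agent.TW.Ram50.Converse
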