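/-
Fermat/Agent/TW/Ram50/EisDVR84.lean  (helper84, for helper50's ramification chapter, brick B5-R)

Adjoining a root of an Eisenstein polynomial to a discrete valuation ring gives a totally
ramified discrete valuation ring: `AdjoinRoot Q` is a DVR with uniformizer `root Q`, residue
field that of `A`, and ramification index `Q.natDegree`.

Mathlib only.  NOTE: `Q = 1` satisfies `IsEisensteinAt` vacuously, so `Q.natDegree ≠ 0` is needed.
-/
import Mathlib

set_option autoImplicit false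
set_option linter.unusedSectionVars false

namespace Fermat.Agent.TW.Ram50.EisDVR84

open Polynomial IsLocalRing

variable {A : Type*} [CommRing A] [IsDomain A] [IsDiscreteValuationRing A]

section General

variable (Q : A[X])

/-- Every element of `AdjoinRoot Q` is a constant plus a multiple of the root. -/
theorem exists_eq_of_add_root_mul (x : AdjoinRoot Q) :
    ∃ (a : A) (y : AdjoinRoot Q), x = AdjoinRoot.of Q a + AdjoinRoot.root Q * y := by
  obtain ⟨g, rfl⟩ := AdjoinRoot.mk_surjective x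
  refine ⟨g.coeff 0, AdjoinRoot.mk Q g.divX, ?_⟩
  conv_lhs => rw [← Polynomial.divX_mul_X_add g]
  rw [map_add, map_mul, AdjoinRoot.mk_X, AdjoinRoot.mk_C]
  ring

/-- `root Q` divides `x - a` for a suitable constant `a`. -/
theorem exists_root_dvd_sub_of (x : AdjoinRoot Q) :
    ∃ a : A, AdjoinRoot.root Q ∣ x - AdjoinRoot.of Q a := by
  obtain ⟨a, y, rfl⟩ := exists_eq_of_add_root_mul Q x
  exact ⟨a, ⟨y, by ring⟩⟩

/-- The root divides the constant coefficient. -/
theorem root_dvd_of_coeff_zero : AdjoinRoot.root Q ∣ AdjoinRoot.of Q (Q.coeff 0) := by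
  have h : AdjoinRoot.mk Q Q = 0 := AdjoinRoot.mk_self
  rw [← Polynomial.divX_mul_X_add Q, map_add, map_mul, AdjoinRoot.mk_X, AdjoinRoot.mk_C] at h
  refine ⟨-AdjoinRoot.mk Q Q.divX, ?_⟩
  rw [Polynomial.divX_mul_X_add] at h
  linear_combination h

/-- The ring homomorphism `AdjoinRoot Q → ResidueField A` killing the root, available when the
constant coefficient lies in the maximal ideal. -/
noncomputable def resHom (h0 : Q.coeff 0 ∈ IsLocalRing.maximalIdeal A) :
    AdjoinRoot Q →+* ResidueField A :=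
  AdjoinRoot.lift (residue A) 0 (by
    rw [Polynomial.eval₂_at_zero]
    exact (residue_eq_zero_iff _).2 h0)

variable {Q}

@[simp] theorem resHom_of (h0 : Q.coeff 0 ∈ IsLocalRing.maximalIdeal A) (a : A) :
    resHom Q h0 (AdjoinRoot.of Q a) = residue A a := by
  simp [resHom]

@[simp] theorem resHom_root (h0 : Q.coeff 0 ∈ IsLocalRing.maximalIdeal A) :
    resHom Q h0 (AdjoinRoot.root Q) = 0 := by
  simp [resHom]

theorem resHom_mk (h0 : Q.coeff 0 ∈ IsLocalRing.maximalIdeal A) (g : A[X]) :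
    resHom Q h0 (AdjoinRoot.mk Q g) = residue A (g.coeff 0) := by
  simp [resHom, Polynomial.eval₂_at_zero]

theorem resHom_surjective (h0 : Q.coeff 0 ∈ IsLocalRing.maximalIdeal A) :
    Function.Surjective (resHom Q h0) := by
  intro z
  obtain ⟨a, rfl⟩ := residue_surjective z
  exact ⟨AdjoinRoot.of Q a, resHom_of h0 a⟩

end General

section Eisenstein

variable {Q : A[X]}

/-- Structure of a monic Eisenstein polynomial over a DVR with uniformizer `ϖ`:
`Q = X ^ n + C ϖ * R` with `R.coeff 0` a unit. -/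
theorem exists_eq_X_pow_add (hQ : Q.Monic) (hE : Q.IsEisensteinAt (IsLocalRing.maximalIdeal A))
    (hn : Q.natDegree ≠ 0) {ϖ : A} (hϖ : Irreducible ϖ) :
    ∃ R : A[X], Q = X ^ Q.natDegree + C ϖ * R ∧ Q.coeff 0 = ϖ * R.coeff 0 ∧
      IsUnit (R.coeff 0) := by
  have hm : IsLocalRing.maximalIdeal A = Ideal.span {ϖ} := hϖ.maximalIdeal_eq
  have hdvd : C ϖ ∣ Q - X ^ Q.natDegree := by
    rw [Polynomial.C_dvd_iff_dvd_coeff]
    intro i
    rw [coeff_sub, coeff_X_pow]
    rcases lt_trichotomy i Q.natDegree with hi | hi | hi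
    · rw [if_neg hi.ne, sub_zero, ← Ideal.mem_span_singleton, ← hm]
      exact hE.mem hi
    · rw [if_pos hi, hi, hQ.coeff_natDegree, sub_self]
      exact dvd_zero _
    · rw [if_neg hi.ne', coeff_eq_zero_of_natDegree_lt hi, sub_zero]
      exact dvd_zero _
  obtain ⟨R, hR⟩ := hdvd
  have h0 : Q.coeff 0 = ϖ * R.coeff 0 := by
    have := congrArg (fun p : A[X] => p.coeff 0) hR
    simpa [coeff_C_mul, coeff_X_pow, Ne.symm hn] using this
  refine ⟨R, by rw [← hR]; ring, h0, ?_⟩
  by_contra hu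
  have hR0 : R.coeff 0 ∈ IsLocalRing.maximalIdeal A := (mem_maximalIdeal _).2 hu
  apply hE.notMem
  rw [h0, sq]
  exact Ideal.mul_mem_mul (hm ▸ Ideal.mem_span_singleton_self ϖ) hR0

end Eisenstein


section Main

variable {Q : A[X]}

theorem coeff_zero_mem (hE : Q.IsEisensteinAt (IsLocalRing.maximalIdeal A))
    (hn : Q.natDegree ≠ 0) : Q.coeff 0 ∈ IsLocalRing.maximalIdeal A :=
  hE.mem (Nat.pos_of_ne_zero hn)

theorem of_injective (hn : Q.natDegree ≠ 0) : Function.Injective (AdjoinRoot.of Q) := by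
  apply AdjoinRoot.of.injective_of_degree_ne_zero
  intro h
  exact hn (natDegree_eq_zero_iff_degree_le_zero.2 h.le)

/-- The uniformizer of `A` is a multiple of the root. -/
theorem root_dvd_of_irreducible (hQ : Q.Monic) (hE : Q.IsEisensteinAt (IsLocalRing.maximalIdeal A))
    (hn : Q.natDegree ≠ 0) {ϖ : A} (hϖ : Irreducible ϖ) :
    AdjoinRoot.root Q ∣ AdjoinRoot.of Q ϖ := by
  obtain ⟨R, -, h0, hu⟩ := exists_eq_X_pow_add hQ hE hn hϖ
  have h := root_dvd_of_coeff_zero Q
  rw [h0, map_mul] at h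
  exact (IsUnit.dvd_mul_right (hu.map (AdjoinRoot.of Q))).1 h

/-- `ρ ^ n = -(ϖ * w)` with `w` not killed by the residue map. -/
theorem exists_root_pow_eq (hQ : Q.Monic) (hE : Q.IsEisensteinAt (IsLocalRing.maximalIdeal A))
    (hn : Q.natDegree ≠ 0) {ϖ : A} (hϖ : Irreducible ϖ) :
    ∃ w : AdjoinRoot Q, AdjoinRoot.root Q ^ Q.natDegree = -(AdjoinRoot.of Q ϖ * w) ∧
      resHom Q (coeff_zero_mem hE hn) w ≠ 0 := by
  obtain ⟨R, hR, -, hu⟩ := exists_eq_X_pow_add hQ hE hn hϖ
  refine ⟨AdjoinRoot.mk Q R, ?_, ?_⟩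
  · have h : AdjoinRoot.mk Q (X ^ Q.natDegree + C ϖ * R) = 0 := by
      rw [← hR]
      exact AdjoinRoot.mk_self
    rw [map_add, map_mul, map_pow, AdjoinRoot.mk_X, AdjoinRoot.mk_C] at h
    linear_combination h
  · rw [resHom_mk]
    intro h
    exact ((mem_maximalIdeal _).1 ((residue_eq_zero_iff _).1 h)) hu

/-- The kernel of the residue map is generated by the root. -/
theorem ker_resHom (hQ : Q.Monic) (hE : Q.IsEisensteinAt (IsLocalRing.maximalIdeal A))
    (hn : Q.natDegree ≠ 0) :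
    RingHom.ker (resHom Q (coeff_zero_mem hE hn)) = Ideal.span {AdjoinRoot.root Q} := by
  obtain ⟨ϖ, hϖ⟩ := IsDiscreteValuationRing.exists_irreducible A
  apply le_antisymm
  · intro x hx
    rw [RingHom.mem_ker] at hx
    obtain ⟨a, y, rfl⟩ := exists_eq_of_add_root_mul Q x
    rw [map_add, map_mul, resHom_root, zero_mul, add_zero, resHom_of, residue_eq_zero_iff,
      hϖ.maximalIdeal_eq, Ideal.mem_span_singleton] at hx
    obtain ⟨b, rfl⟩ := hx
    rw [Ideal.mem_span_singleton]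
    refine dvd_add ?_ (dvd_mul_right _ _)
    rw [map_mul]
    exact Dvd.dvd.mul_right (root_dvd_of_irreducible hQ hE hn hϖ) _
  · rw [Ideal.span_singleton_le_iff_mem, RingHom.mem_ker, resHom_root]

theorem span_root_isMaximal (hQ : Q.Monic) (hE : Q.IsEisensteinAt (IsLocalRing.maximalIdeal A))
    (hn : Q.natDegree ≠ 0) : (Ideal.span {AdjoinRoot.root Q}).IsMaximal := by
  rw [← ker_resHom hQ hE hn]
  exact RingHom.ker_isMaximal_of_surjective _ (resHom_surjective _)

theorem moduleFinite (hQ : Q.Monic) : Module.Finite A (AdjoinRoot Q) :=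
  Module.Finite.of_basis (AdjoinRoot.powerBasis' hQ).basis

/-- Every maximal ideal of `AdjoinRoot Q` is `(ρ)`. -/
theorem eq_span_root_of_isMaximal (hQ : Q.Monic)
    (hE : Q.IsEisensteinAt (IsLocalRing.maximalIdeal A)) (hn : Q.natDegree ≠ 0)
    (M : Ideal (AdjoinRoot Q)) (hM : M.IsMaximal) : M = Ideal.span {AdjoinRoot.root Q} := by
  obtain ⟨ϖ, hϖ⟩ := IsDiscreteValuationRing.exists_irreducible A
  have := moduleFinite hQ
  have : Algebra.IsIntegral A (AdjoinRoot Q) := Algebra.IsIntegral.of_finite A (AdjoinRoot Q)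
  have hc : (M.comap (algebraMap A (AdjoinRoot Q))).IsMaximal :=
    Ideal.isMaximal_comap_of_isIntegral_of_isMaximal M
  have hc' := IsLocalRing.eq_maximalIdeal hc
  have hϖM : AdjoinRoot.of Q ϖ ∈ M := by
    have : ϖ ∈ M.comap (algebraMap A (AdjoinRoot Q)) := by
      rw [hc', hϖ.maximalIdeal_eq]
      exact Ideal.mem_span_singleton_self ϖ
    exact this
  obtain ⟨w, hw, -⟩ := exists_root_pow_eq hQ hE hn hϖ
  have hpow : AdjoinRoot.root Q ^ Q.natDegree ∈ M := by
    rw [hw]
    exact M.neg_mem (M.mul_mem_right _ hϖM)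
  have hroot : AdjoinRoot.root Q ∈ M := hM.isPrime.mem_of_pow_mem _ hpow
  exact ((span_root_isMaximal hQ hE hn).eq_of_le hM.ne_top
    ((Ideal.span_singleton_le_iff_mem _).2 hroot)).symm

theorem isLocalRing (hQ : Q.Monic) (hE : Q.IsEisensteinAt (IsLocalRing.maximalIdeal A))
    (hn : Q.natDegree ≠ 0) : IsLocalRing (AdjoinRoot Q) :=
  IsLocalRing.of_unique_max_ideal
    ⟨_, span_root_isMaximal hQ hE hn, fun M hM => eq_span_root_of_isMaximal hQ hE hn M hM⟩

theorem isDomain (hQ : Q.Monic) (hE : Q.IsEisensteinAt (IsLocalRing.maximalIdeal A))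
    (hn : Q.natDegree ≠ 0) : IsDomain (AdjoinRoot Q) := by
  have hirr : Irreducible Q :=
    hE.irreducible (IsLocalRing.maximalIdeal.isMaximal A).isPrime hQ.isPrimitive
      (Nat.pos_of_ne_zero hn)
  exact AdjoinRoot.isDomain_of_prime (UniqueFactorizationMonoid.irreducible_iff_prime.1 hirr)

theorem root_ne_zero (hQ : Q.Monic) (hE : Q.IsEisensteinAt (IsLocalRing.maximalIdeal A))
    (hn : Q.natDegree ≠ 0) : AdjoinRoot.root Q ≠ 0 := by
  obtain ⟨ϖ, hϖ⟩ := IsDiscreteValuationRing.exists_irreducible A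
  intro h
  have h1 := root_dvd_of_irreducible hQ hE hn hϖ
  rw [h, zero_dvd_iff] at h1
  exact hϖ.ne_zero (of_injective hn (h1.trans (map_zero _).symm))

theorem maximalIdeal_eq (hQ : Q.Monic) (hE : Q.IsEisensteinAt (IsLocalRing.maximalIdeal A))
    (hn : Q.natDegree ≠ 0) [IsLocalRing (AdjoinRoot Q)] :
    IsLocalRing.maximalIdeal (AdjoinRoot Q) = Ideal.span {AdjoinRoot.root Q} :=
  (IsLocalRing.eq_maximalIdeal (span_root_isMaximal hQ hE hn)).symm

theorem isDiscreteValuationRing (hQ : Q.Monic)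
    (hE : Q.IsEisensteinAt (IsLocalRing.maximalIdeal A)) (hn : Q.natDegree ≠ 0)
    [IsDomain (AdjoinRoot Q)] : IsDiscreteValuationRing (AdjoinRoot Q) := by
  have := isLocalRing hQ hE hn
  have : IsNoetherianRing (AdjoinRoot Q) :=
    isNoetherianRing_of_surjective A[X] _ (AdjoinRoot.mk Q) AdjoinRoot.mk_surjective
  have hmax := maximalIdeal_eq hQ hE hn
  have hnf : ¬ IsField (AdjoinRoot Q) := by
    rw [IsLocalRing.isField_iff_maximalIdeal_eq, hmax, Ideal.span_singleton_eq_bot]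
    exact root_ne_zero hQ hE hn
  have h04 := (IsDiscreteValuationRing.TFAE (AdjoinRoot Q) hnf).out 0 4
  exact h04.2 ⟨⟨AdjoinRoot.root Q, hmax⟩⟩

end Main

section Valuation

variable {Q : A[X]}

/-- The root is a uniformizer. -/
theorem irreducible_root (hQ : Q.Monic) (hE : Q.IsEisensteinAt (IsLocalRing.maximalIdeal A))
    (hn : Q.natDegree ≠ 0) [IsDomain (AdjoinRoot Q)] [IsDiscreteValuationRing (AdjoinRoot Q)] :
    Irreducible (AdjoinRoot.root Q) :=
  (IsDiscreteValuationRing.irreducible_iff_uniformizer _).2 (maximalIdeal_eq hQ hE hn)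

/-- `x` is a unit of `AdjoinRoot Q` iff its residue is nonzero. -/
theorem isUnit_iff_resHom_ne_zero (hQ : Q.Monic)
    (hE : Q.IsEisensteinAt (IsLocalRing.maximalIdeal A)) (hn : Q.natDegree ≠ 0)
    (x : AdjoinRoot Q) : IsUnit x ↔ resHom Q (coeff_zero_mem hE hn) x ≠ 0 := by
  have := isLocalRing hQ hE hn
  rw [← IsLocalRing.notMem_maximalIdeal, maximalIdeal_eq hQ hE hn, ← ker_resHom hQ hE hn,
    RingHom.mem_ker]

/-- `ϖ = ρ ^ n * unit`: total ramification. -/
theorem exists_unit_of_eq (hQ : Q.Monic) (hE : Q.IsEisensteinAt (IsLocalRing.maximalIdeal A))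
    (hn : Q.natDegree ≠ 0) {ϖ : A} (hϖ : Irreducible ϖ) :
    ∃ u : (AdjoinRoot Q)ˣ, AdjoinRoot.of Q ϖ = u * AdjoinRoot.root Q ^ Q.natDegree := by
  obtain ⟨w, hw, hw0⟩ := exists_root_pow_eq hQ hE hn hϖ
  obtain ⟨u, rfl⟩ := (isUnit_iff_resHom_ne_zero hQ hE hn w).2 hw0
  refine ⟨-u⁻¹, ?_⟩
  rw [hw, Units.val_neg, neg_mul_neg, mul_comm (AdjoinRoot.of Q ϖ), ← mul_assoc, Units.inv_mul,
    one_mul]

/-- The valuation of `AdjoinRoot Q` restricted to `A` is `n` times the valuation of `A`. -/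
theorem addVal_of (hQ : Q.Monic) (hE : Q.IsEisensteinAt (IsLocalRing.maximalIdeal A))
    (hn : Q.natDegree ≠ 0) [IsDomain (AdjoinRoot Q)] [IsDiscreteValuationRing (AdjoinRoot Q)]
    (a : A) :
    IsDiscreteValuationRing.addVal (AdjoinRoot Q) (AdjoinRoot.of Q a) =
      Q.natDegree • IsDiscreteValuationRing.addVal A a := by
  obtain ⟨ϖ, hϖ⟩ := IsDiscreteValuationRing.exists_irreducible A
  by_cases ha : a = 0
  · subst ha
    rw [map_zero, IsDiscreteValuationRing.addVal_zero, IsDiscreteValuationRing.addVal_zero,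
      nsmul_eq_mul, ENat.mul_top (Nat.cast_ne_zero.2 hn)]
  · obtain ⟨m, u, rfl⟩ := IsDiscreteValuationRing.eq_unit_mul_pow_irreducible ha hϖ
    obtain ⟨v, hv⟩ := exists_unit_of_eq hQ hE hn hϖ
    rw [IsDiscreteValuationRing.addVal_def _ u hϖ m rfl]
    have hC : AdjoinRoot.of Q (↑u * ϖ ^ m) =
        ↑(Units.map (AdjoinRoot.of Q).toMonoidHom u * v ^ m) *
          AdjoinRoot.root Q ^ (Q.natDegree * m) := by
      rw [map_mul, map_pow, hv, pow_mul, mul_pow]
      simp [mul_assoc]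
    rw [IsDiscreteValuationRing.addVal_def _ _ (irreducible_root hQ hE hn) _ hC, nsmul_eq_mul,
      Nat.cast_mul]

end Valuation

/-- **Eisenstein extension of a DVR** (packaged form requested by helper50; note the extra
hypothesis `Q.natDegree ≠ 0`, without which `Q = 1` is a counterexample). -/
theorem adjoinRoot_eisenstein (Q : A[X]) (hQ : Q.Monic)
    (hE : Q.IsEisensteinAt (IsLocalRing.maximalIdeal A)) (hn : Q.natDegree ≠ 0) :
    ∃ (_ : IsDomain (AdjoinRoot Q)) (_ : IsDiscreteValuationRing (AdjoinRoot Q)),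
      Irreducible (AdjoinRoot.root Q) ∧
      (∀ x : AdjoinRoot Q, ∃ a : A, AdjoinRoot.root Q ∣ x - AdjoinRoot.of Q a) ∧
      (∀ a : A, IsDiscreteValuationRing.addVal (AdjoinRoot Q) (AdjoinRoot.of Q a) =
        Q.natDegree • IsDiscreteValuationRing.addVal A a) ∧
      Function.Injective (AdjoinRoot.of Q) := by
  have hD := isDomain hQ hE hn
  have hV := isDiscreteValuationRing hQ hE hn
  exact ⟨hD, hV, irreducible_root hQ hE hn, exists_root_dvd_sub_of Q,
    fun a => addVal_of hQ hE hn a, of_injective hn⟩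

end Fermat.Agent.TW.Ram50.EisDVR84
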