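/-
Programme TW (S56), brick B5-R (ramification chapter), file 8 (helper50).

Fontaine's ramification bound from property `(P_m)`, unconditional form
(`Converse.fontaine_bound` with the Eisenstein lemma `EisDVR84.adjoinRoot_eisenstein` plugged in).
-/
import Mathlib
import Fermat.Agent.TW.Ram50.Converse
import Fermat.Agent.TW.Ram50.EisDVR84

set_option autoImplicit false
set_option linter.unusedSectionVars false

namespace Fermat.Agent.TW.Ram50.Bound

open IsDiscreteValuationRing Polynomial IsLocalRing
open Fermat.Agent.TW.Ram50.Norm Fermat.Agent.TW.Ram50.NoRoot Fermat.Agent.TW.Ram50.Converse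

universe u

variable {B : Type u} [CommRing B] [IsDomain B] [IsDiscreteValuationRing B]
variable {G : Type*} [Group G] [Fintype G] [DecidableEq G] [MulSemiringAction G B]
variable {A : Subring B} {π : B}

/-- **Fontaine's ramification bound** for totally ramified Galois data with finite residue field:
property `(P_m)` for all `m > e_K p/(p-1)` implies `(p-1) · |G| · u_{L/K} ≤ p · v_B(p)`. -/
theorem fontaine_bound (h : TotRam G A π) [Finite (ResidueField B)] (p : ℕ)
    (hpB : π ∣ (p : B)) (hPm : PmHyp B A p) :
    (((p - 1) * FT B G : ℕ) : ℕ∞) ≤ p * addVal B (p : B) :=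
  Converse.fontaine_bound h p hpB hPm fun Q hQ hE hn =>
    EisDVR84.adjoinRoot_eisenstein Q hQ hE hn

end Fermat.Agent.TW.Ram50.Bound
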