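/-
Programme TW (S56), brick B5-R (ramification chapter), helper67's share (joint with helper50).

`Comb67`: the purely combinatorial part of Herbrand's theory, for an abstract "depth function"
`d : G → ℕ∞` on a finite group (`d 1 = ⊤`, `min (d σ) (d τ) ≤ d (σ τ)`, `d σ⁻¹ = d σ`).

* `Phi d j = ∑_σ min (d σ) j`  (for the depth of a Galois action this is `e (φ(j-1)+1)`,
  Serre, Local Fields IV §3 Lemma 3).
* `upperIdx d σ = Phi d (d σ)`  (this is `e (u+1)`, `u = φ(i_G(σ)-1)` the upper-numbering index of `σ`).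
* given a surjection `r : G →* G'` and a depth function `d'` on `G'` satisfying the *quotient formula*
  `e' * d' σ' = ∑_{r σ = σ'} d σ`, we prove Herbrand's lemma
  `e' * d' σ' = Phi (d|ker r) (max_{r σ = σ'} d σ)` and Herbrand's theorem in the integral form
  `e' * upperIdx d' σ' = max_{r σ = σ'} upperIdx d σ`  (upper numbering passes to quotients).
-/
import Mathlib

set_option autoImplicit false

open Function

namespace Fermat.Agent.TW.Ram50.Comb67

/-- An abstract depth function on a group (Serre's `i_G`). -/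
structure IsDepth {G : Type*} [Group G] (d : G → ℕ∞) : Prop where
  map_one : d 1 = ⊤
  min_le_mul : ∀ σ τ : G, min (d σ) (d τ) ≤ d (σ * τ)
  map_inv : ∀ σ : G, d σ⁻¹ = d σ

section Phi

variable {G : Type*}

/-- `Phi d j = ∑_σ min (d σ) j`. -/
noncomputable def Phi (d : G → ℕ∞) (j : ℕ∞) : ℕ∞ := ∑ᶠ σ, min (d σ) j

theorem Phi_eq_sum [Fintype G] (d : G → ℕ∞) (j : ℕ∞) : Phi d j = ∑ σ, min (d σ) j :=
  finsum_eq_sum_of_fintype _

theorem Phi_mono [Finite G] (d : G → ℕ∞) : Monotone (Phi d) := by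
  intro a b hab
  cases nonempty_fintype G
  rw [Phi_eq_sum, Phi_eq_sum]
  exact Finset.sum_le_sum fun σ _ => min_le_min le_rfl hab

theorem min_Phi [Finite G] (d : G → ℕ∞) (a b : ℕ∞) : min (Phi d a) (Phi d b) = Phi d (min a b) :=
  ((Phi_mono d).map_min).symm

/-- The upper index `e (u + 1)` of `σ`, where `u` is the upper-numbering index of `σ`. -/
noncomputable def upperIdx (d : G → ℕ∞) (σ : G) : ℕ∞ := Phi d (d σ)

theorem Phi_congr {G₂ : Type*} (f : G ≃ G₂) (d : G → ℕ∞) (d₂ : G₂ → ℕ∞)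
    (h : ∀ σ, d₂ (f σ) = d σ) (j : ℕ∞) : Phi d j = Phi d₂ j := by
  unfold Phi
  rw [← finsum_comp_equiv f]
  simp only [h]

end Phi

section Coset

variable {G : Type*} [Group G] {d : G → ℕ∞}

/-- If `σ₀` has maximal depth in its coset `σ₀ N`, then `d (σ₀ τ) = min (d τ) (d σ₀)` for `τ ∈ N`. -/
theorem IsDepth.mul_eq_min (hd : IsDepth d) {σ₀ τ : G} (hmax : d (σ₀ * τ) ≤ d σ₀) :
    d (σ₀ * τ) = min (d τ) (d σ₀) := by
  apply le_antisymm
  · refine le_min ?_ hmax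
    -- `d τ ≥ min (d σ₀⁻¹) (d (σ₀ τ))`
    have h := hd.min_le_mul σ₀⁻¹ (σ₀ * τ)
    rw [inv_mul_cancel_left, hd.map_inv] at h
    by_contra hlt
    rw [not_le] at hlt
    have : d τ < min (d σ₀) (d (σ₀ * τ)) := lt_min (lt_of_lt_of_le hlt hmax) hlt
    exact absurd h (not_le.mpr this)
  · rw [min_comm]; exact hd.min_le_mul σ₀ τ

end Coset

section Quotient

variable {G G' : Type*} [Group G] [Group G']

/-- The maximal depth in the fibre of `r` over `σ'`. -/
noncomputable def fibreMax (d : G → ℕ∞) (r : G →* G') (σ' : G') : ℕ∞ :=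
  ⨆ σ : {σ : G // r σ = σ'}, d σ

theorem le_fibreMax (d : G → ℕ∞) (r : G →* G') {σ' : G'} {σ : G} (h : r σ = σ') :
    d σ ≤ fibreMax d r σ' :=
  le_iSup (fun σ : {σ : G // r σ = σ'} => d σ) ⟨σ, h⟩

theorem exists_eq_fibreMax [Finite G] (d : G → ℕ∞) {r : G →* G'} (hr : Surjective r) (σ' : G') :
    ∃ σ₀ : G, r σ₀ = σ' ∧ d σ₀ = fibreMax d r σ' ∧ ∀ σ, r σ = σ' → d σ ≤ d σ₀ := by
  obtain ⟨σ₁, h₁⟩ := hr σ'
  have : Nonempty {σ : G // r σ = σ'} := ⟨⟨σ₁, h₁⟩⟩
  obtain ⟨⟨σ₀, h₀⟩, hmax⟩ := Finite.exists_max (fun σ : {σ : G // r σ = σ'} => d σ)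
  refine ⟨σ₀, h₀, le_antisymm (le_fibreMax d r h₀) (iSup_le fun σ => hmax σ), fun σ hσ => hmax ⟨σ, hσ⟩⟩

/-- Reindexing a fibre of `r` by the kernel. -/
theorem finsum_fibre_eq (r : G →* G') {σ' : G'} {σ₀ : G} (h₀ : r σ₀ = σ') (f : G → ℕ∞) :
    ∑ᶠ σ : {σ : G // r σ = σ'}, f σ = ∑ᶠ τ : r.ker, f (σ₀ * τ) := by
  let e : r.ker ≃ {σ : G // r σ = σ'} :=
    { toFun := fun τ => ⟨σ₀ * τ, by rw [map_mul, h₀, MonoidHom.mem_ker.mp τ.2, mul_one]⟩
      invFun := fun σ => ⟨σ₀⁻¹ * σ, by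
        rw [MonoidHom.mem_ker, map_mul, map_inv, h₀, σ.2, inv_mul_cancel]⟩
      left_inv := fun τ => by simp
      right_inv := fun σ => by simp }
  rw [← finsum_comp_equiv e]
  rfl

/-- Summation over `G` fibrewise along `r`. -/
theorem finsum_eq_finsum_fibre [Finite G] [Finite G'] (r : G →* G') (f : G → ℕ∞) :
    ∑ᶠ σ, f σ = ∑ᶠ σ', ∑ᶠ σ : {σ : G // r σ = σ'}, f σ := by
  classical
  cases nonempty_fintype G
  cases nonempty_fintype G'
  rw [finsum_eq_sum_of_fintype, finsum_eq_sum_of_fintype]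
  rw [← Finset.sum_fiberwise (s := Finset.univ) (g := fun σ => r σ) (f := f)]
  refine Finset.sum_congr rfl fun σ' _ => ?_
  rw [finsum_eq_sum_of_fintype]
  rw [← Finset.sum_subtype (p := fun σ => r σ = σ') (Finset.univ.filter fun σ => r σ = σ')
    (by simp) f]

variable [Finite G] {d : G → ℕ∞} {d' : G' → ℕ∞} {r : G →* G'} {e' : ℕ}

/-- **Herbrand's lemma** (Serre IV §3 Lemma 4/5): `e' i_{G'}(σ') = Φ_N(max_{σ ↦ σ'} i_G(σ))`. -/
theorem herbrand_lemma (hd : IsDepth d) (hr : Surjective r)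
    (QF : ∀ σ', (e' : ℕ∞) * d' σ' = ∑ᶠ σ : {σ : G // r σ = σ'}, d σ) (σ' : G') :
    (e' : ℕ∞) * d' σ' = Phi (fun τ : r.ker => d τ) (fibreMax d r σ') := by
  obtain ⟨σ₀, h₀, hmax, hle⟩ := exists_eq_fibreMax d hr σ'
  rw [QF, finsum_fibre_eq r h₀, Phi, ← hmax]
  refine finsum_congr fun τ => ?_
  refine hd.mul_eq_min (hle _ ?_)
  rw [map_mul, h₀, MonoidHom.mem_ker.mp τ.2, mul_one]

/-- Integral form of the transitivity of the Herbrand function:
`Φ_G(j) = ∑_{σ' ∈ G'} min (e' i_{G'}(σ')) (Φ_N(j))`. -/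
theorem Phi_eq_finsum_min [Finite G'] (hd : IsDepth d) (hr : Surjective r)
    (QF : ∀ σ', (e' : ℕ∞) * d' σ' = ∑ᶠ σ : {σ : G // r σ = σ'}, d σ) (j : ℕ∞) :
    Phi d j = ∑ᶠ σ', min ((e' : ℕ∞) * d' σ') (Phi (fun τ : r.ker => d τ) j) := by
  rw [Phi, finsum_eq_finsum_fibre r]
  refine finsum_congr fun σ' => ?_
  obtain ⟨σ₀, h₀, hmax, hle⟩ := exists_eq_fibreMax d hr σ'
  rw [herbrand_lemma hd hr QF, min_Phi, finsum_fibre_eq r h₀ (fun σ => min (d σ) j), Phi, ← hmax]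
  refine finsum_congr fun τ => ?_
  have h1 : r (σ₀ * τ) = σ' := by rw [map_mul, h₀, MonoidHom.mem_ker.mp τ.2, mul_one]
  rw [hd.mul_eq_min (hle _ h1), min_assoc]

/-- **Herbrand's theorem**, integral form: `e' Φ_{G'}(i_{G'}(σ')) = Φ_G(max_{σ ↦ σ'} i_G(σ))`. -/
theorem mul_upperIdx_eq_Phi_fibreMax [Finite G'] (hd : IsDepth d) (hr : Surjective r)
    (QF : ∀ σ', (e' : ℕ∞) * d' σ' = ∑ᶠ σ : {σ : G // r σ = σ'}, d σ) (σ' : G') :
    (e' : ℕ∞) * upperIdx d' σ' = Phi d (fibreMax d r σ') := by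
  classical
  cases nonempty_fintype G'
  rw [Phi_eq_finsum_min hd hr QF, upperIdx, Phi_eq_sum, finsum_eq_sum_of_fintype, Finset.mul_sum]
  refine Finset.sum_congr rfl fun ρ' _ => ?_
  rw [← herbrand_lemma hd hr QF σ']
  have hmono : Monotone fun x : ℕ∞ => (e' : ℕ∞) * x := fun a b hab => mul_le_mul_right hab _
  exact hmono.map_min

/-- **Herbrand's theorem**: the upper index of `σ'` is the maximum of the upper indices in its fibre
(i.e. `(G/N)^v = G^v N / N`). -/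
theorem mul_upperIdx_eq_iSup [Finite G'] (hd : IsDepth d) (hr : Surjective r)
    (QF : ∀ σ', (e' : ℕ∞) * d' σ' = ∑ᶠ σ : {σ : G // r σ = σ'}, d σ) (σ' : G') :
    (e' : ℕ∞) * upperIdx d' σ' = ⨆ σ : {σ : G // r σ = σ'}, upperIdx d σ := by
  rw [mul_upperIdx_eq_Phi_fibreMax hd hr QF]
  obtain ⟨σ₀, h₀, hmax, hle⟩ := exists_eq_fibreMax d hr σ'
  apply le_antisymm
  · rw [← hmax]
    exact le_iSup (fun σ : {σ : G // r σ = σ'} => upperIdx d σ) ⟨σ₀, h₀⟩
  · exact iSup_le fun σ => Phi_mono d (le_fibreMax d r σ.2)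

end Quotient


/-! ## More combinatorics of `Phi`

* `Phi_succ` : `Φ(j+1) = Φ(j) + #{σ | j+1 ≤ d σ}`.
* `Phi_add_one_ne_upperIdx` : for `σ₀ ≠ 1` of finite positive depth there is NO `J` with
  `Φ(J) + 1 = Φ(d σ₀)` (the jump of `Φ` at `d σ₀` is at least `2`).
* `Phi_eq_Phi_subgroup_add` : the tame-base lemma: if every element of depth `≥ 2` lies in the
  subgroup `N`, then `Φ_G(j) = Φ_N(j) + #{σ ∉ N | 1 ≤ d σ}` for `1 ≤ j`.
-/


section Succ

variable {G : Type*} [Finite G]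

theorem min_succ_eq (a : ℕ∞) (j : ℕ) :
    min a ((j : ℕ∞) + 1) = min a j + (if (j : ℕ∞) + 1 ≤ a then 1 else 0) := by
  induction a using ENat.recTopCoe with
  | top => simp
  | coe a =>
    by_cases h : j + 1 ≤ a
    · have h' : ((j : ℕ∞) + 1 ≤ (a : ℕ∞)) := by exact_mod_cast h
      rw [if_pos h', min_eq_right h', min_eq_right (le_trans (by simp) h')]
    · have h' : ¬ ((j : ℕ∞) + 1 ≤ (a : ℕ∞)) := by exact_mod_cast h
      rw [if_neg h', add_zero]
      have h2 : (a : ℕ∞) ≤ j := by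
        have : a ≤ j := by omega
        exact_mod_cast this
      rw [min_eq_left h2, min_eq_left (h2.trans (by simp))]

theorem Phi_succ (d : G → ℕ∞) (j : ℕ) :
    Phi d ((j : ℕ∞) + 1) = Phi d j + (Nat.card {σ : G // (j : ℕ∞) + 1 ≤ d σ} : ℕ∞) := by
  classical
  cases nonempty_fintype G
  rw [Phi_eq_sum, Phi_eq_sum]
  simp_rw [min_succ_eq]
  rw [Finset.sum_add_distrib, Finset.sum_boole, Nat.card_eq_fintype_card, Fintype.card_subtype]

theorem Phi_zero (d : G → ℕ∞) : Phi d 0 = 0 := by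
  cases nonempty_fintype G
  rw [Phi_eq_sum]
  simp

theorem Phi_lt_top (d : G → ℕ∞) (j : ℕ) : Phi d j < ⊤ := by
  cases nonempty_fintype G
  rw [Phi_eq_sum]
  refine ENat.sum_lt_top.mpr fun σ _ => ?_
  exact lt_of_le_of_lt (min_le_right _ _) (ENat.natCast_lt_top j)

end Succ

section Jump

variable {G : Type*} [Group G] [Finite G] {d : G → ℕ∞}

/-- The jump of `Φ` at the depth of a nontrivial element is at least `2`:
there is no `J` with `Φ(J) + 1 = Φ(d σ₀)`. -/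
theorem Phi_add_one_ne_upperIdx (hd : IsDepth d) {σ₀ : G} (h1 : σ₀ ≠ 1) {i : ℕ}
    (hi : d σ₀ = ((i : ℕ∞) + 1)) (J : ℕ∞) : Phi d J + 1 ≠ upperIdx d σ₀ := by
  rw [upperIdx, hi]
  -- the jump at `i + 1` is at least two
  have hcard : 2 ≤ Nat.card {σ : G // (i : ℕ∞) + 1 ≤ d σ} := by
    classical
    cases nonempty_fintype G
    rw [Nat.card_eq_fintype_card, Fintype.card_subtype]
    have hsub : ({1, σ₀} : Finset G) ⊆ Finset.univ.filter fun σ => (i : ℕ∞) + 1 ≤ d σ := by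
      intro σ hσ
      simp only [Finset.mem_insert, Finset.mem_singleton] at hσ
      simp only [Finset.mem_filter, Finset.mem_univ, true_and]
      rcases hσ with rfl | rfl
      · rw [hd.map_one]; exact le_top
      · rw [hi]
    calc 2 = ({1, σ₀} : Finset G).card := by
          rw [Finset.card_pair (Ne.symm h1)]
      _ ≤ _ := Finset.card_le_card hsub
  have hjump : Phi d i + 2 ≤ Phi d ((i : ℕ∞) + 1) := by
    rw [Phi_succ]
    have : ((2 : ℕ) : ℕ∞) ≤ (Nat.card {σ : G // (i : ℕ∞) + 1 ≤ d σ} : ℕ∞) := by exact_mod_cast hcard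
    exact add_le_add le_rfl (by simpa using this)
  intro hJ
  rcases le_or_gt J i with hle | hgt
  · have h2 : Phi d J + 2 ≤ Phi d J + 1 := by
      calc Phi d J + 2 ≤ Phi d i + 2 := add_le_add (Phi_mono d hle) le_rfl
        _ ≤ Phi d ((i : ℕ∞) + 1) := hjump
        _ = Phi d J + 1 := hJ.symm
    have hfin : Phi d J ≠ ⊤ := by
      have hJi : Phi d J ≤ Phi d i := Phi_mono d hle
      exact ne_of_lt (lt_of_le_of_lt hJi (Phi_lt_top d i))
    lift Phi d J to ℕ using hfin with n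
    have : n + 2 ≤ n + 1 := by exact_mod_cast h2
    omega
  · have hge : (i : ℕ∞) + 1 ≤ J := Order.add_one_le_of_lt hgt
    have h2 : Phi d ((i : ℕ∞) + 1) ≤ Phi d J := Phi_mono d hge
    have hfin : Phi d ((i : ℕ∞) + 1) ≠ ⊤ := by
      have := Phi_lt_top d (i + 1)
      rw [Nat.cast_add, Nat.cast_one] at this
      exact ne_of_lt this
    rw [← hJ] at h2 hfin
    have hfin' : Phi d J ≠ ⊤ := fun h => hfin (by rw [h]; rfl)
    lift Phi d J to ℕ using hfin' with n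
    have : n + 1 ≤ n := by exact_mod_cast h2
    omega

end Jump

section TameBase

variable {G : Type*} [Group G] [Finite G] {d : G → ℕ∞}

/-- **Tame-base lemma**: if all elements of depth `≥ 2` lie in the subgroup `N`, then for `1 ≤ j`
`Φ_G(j) = Φ_N(j) + #{σ ∉ N | 1 ≤ d σ}`. -/
theorem Phi_eq_Phi_subgroup_add (N : Subgroup G) (hN : ∀ σ : G, 2 ≤ d σ → σ ∈ N) {j : ℕ∞}
    (hj : 1 ≤ j) :
    Phi d j = Phi (fun τ : N => d τ) j + (Nat.card {σ : G // σ ∉ N ∧ 1 ≤ d σ} : ℕ∞) := by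
  classical
  cases nonempty_fintype G
  rw [Phi_eq_sum, Phi_eq_sum, Nat.card_eq_fintype_card, Fintype.card_subtype]
  rw [← Finset.sum_add_sum_compl (Finset.univ.filter fun σ => σ ∈ N)]
  congr 1
  · rw [← Finset.sum_subtype (p := fun σ => σ ∈ N) (Finset.univ.filter fun σ => σ ∈ N)
      (by simp) fun σ => min (d σ) j]
  · rw [Finset.card_eq_sum_ones, Nat.cast_sum, Finset.compl_filter]
    rw [← Finset.sum_filter_add_sum_filter_not (Finset.univ.filter fun σ => σ ∉ N)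
      (fun σ => 1 ≤ d σ)]
    have hzero : ∑ σ ∈ (Finset.univ.filter fun σ => σ ∉ N).filter (fun σ => ¬ 1 ≤ d σ),
        min (d σ) j = 0 := by
      refine Finset.sum_eq_zero fun σ hσ => ?_
      simp only [Finset.mem_filter, Finset.mem_univ, true_and, not_le] at hσ
      have : d σ = 0 := Order.lt_one_iff.mp hσ.2
      simp [this]
    rw [hzero, add_zero, Finset.filter_filter]
    refine Finset.sum_congr rfl fun σ hσ => ?_
    simp only [Finset.mem_filter, Finset.mem_univ, true_and] at hσ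
    have h2 : d σ < 2 := by
      by_contra h
      exact hσ.1 (hN σ (not_lt.mp h))
    have h1 : d σ = 1 := by
      apply le_antisymm _ hσ.2
      have : d σ < 1 + 1 := by rwa [one_add_one_eq_two]
      exact Order.le_of_lt_add_one this
    rw [h1, min_eq_left hj, Nat.cast_one]

end TameBase

end Fermat.Agent.TW.Ram50.Comb67
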