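/-
Programme TW (S56), brick B5-R (ramification chapter), helper67's share (joint with helper50).

`RamIdx67`: the ramification index of an injective local homomorphism of discrete valuation rings,
defined as the valuation of a uniformizer: `v_B(ι z) = e(B/B') v_{B'}(z)`.
-/
import Mathlib

set_option autoImplicit false

open IsDiscreteValuationRing IsLocalRing

namespace Fermat.Agent.TW.Ram50.RamIdx67

variable (B' B : Type*) [CommRing B'] [IsDomain B'] [IsDiscreteValuationRing B']
  [CommRing B] [IsDomain B] [IsDiscreteValuationRing B] [Algebra B' B]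

/-- The ramification index `e(B/B')`: the `B`-valuation of a uniformizer of `B'`. -/
noncomputable def eIdx : ℕ :=
  (addVal B (algebraMap B' B (Classical.choose (exists_irreducible B')))).toNat

variable {B' B}

omit [IsDomain B'] [IsDiscreteValuationRing B'] in
theorem addVal_algebraMap_unit [FaithfulSMul B' B] (u : B'ˣ) :
    addVal B (algebraMap B' B u) = 0 :=
  addVal_eq_zero_iff.mpr (u.isUnit.map (algebraMap B' B))

omit [IsDomain B'] [IsDiscreteValuationRing B'] in
theorem addVal_algebraMap_ne_top [FaithfulSMul B' B] {z : B'} (hz : z ≠ 0) :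
    addVal B (algebraMap B' B z) ≠ ⊤ := by
  rw [Ne, addVal_eq_top_iff]
  exact fun h => hz ((FaithfulSMul.algebraMap_injective B' B) (by rw [h, map_zero]))

theorem addVal_algebraMap_irreducible [FaithfulSMul B' B] {ϖ : B'} (h : Irreducible ϖ) :
    addVal B (algebraMap B' B ϖ) = eIdx B' B := by
  have h0 := Classical.choose_spec (exists_irreducible B')
  obtain ⟨u, hu⟩ := associated_of_irreducible B' h0 h
  rw [eIdx, ← hu, map_mul, addVal_mul, addVal_algebraMap_unit, add_zero]
  exact (ENat.natCast_toNat (addVal_algebraMap_ne_top h0.ne_zero)).symm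

theorem addVal_algebraMap_of_ne_zero [FaithfulSMul B' B] {z : B'} (hz : z ≠ 0) :
    addVal B (algebraMap B' B z) = (eIdx B' B : ℕ∞) * addVal B' z := by
  obtain ⟨ϖ, hϖ⟩ := exists_irreducible B'
  obtain ⟨n, u, rfl⟩ := eq_unit_mul_pow_irreducible hz hϖ
  rw [map_mul, map_pow, addVal_mul, addVal_pow, addVal_algebraMap_unit, addVal_mul, addVal_pow,
    addVal_eq_zero_of_unit, addVal_uniformizer hϖ, addVal_algebraMap_irreducible hϖ]
  simp [mul_comm]

theorem eIdx_pos [FaithfulSMul B' B] [IsLocalHom (algebraMap B' B)] : 0 < eIdx B' B := by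
  obtain ⟨ϖ, hϖ⟩ := exists_irreducible B'
  have h := addVal_algebraMap_irreducible (B := B) hϖ
  rw [Nat.pos_iff_ne_zero]
  intro h0
  rw [h0, Nat.cast_zero, addVal_eq_zero_iff] at h
  exact hϖ.not_isUnit (isUnit_of_map_unit (algebraMap B' B) ϖ h)

theorem addVal_algebraMap [FaithfulSMul B' B] [IsLocalHom (algebraMap B' B)] (z : B') :
    addVal B (algebraMap B' B z) = (eIdx B' B : ℕ∞) * addVal B' z := by
  rcases eq_or_ne z 0 with rfl | hz
  · have : (eIdx B' B : ℕ∞) ≠ 0 := by exact_mod_cast (eIdx_pos (B' := B') (B := B)).ne'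
    simp [ENat.mul_top this]
  · exact addVal_algebraMap_of_ne_zero hz

theorem eIdx_mul {A : Type*} [CommRing A] [IsDomain A] [IsDiscreteValuationRing A] [Algebra A B']
    [Algebra A B] [IsScalarTower A B' B] [FaithfulSMul A B'] [FaithfulSMul B' B]
    [IsLocalHom (algebraMap B' B)] : eIdx A B = eIdx A B' * eIdx B' B := by
  have : FaithfulSMul A B := FaithfulSMul.trans A B' B
  obtain ⟨ϖ, hϖ⟩ := exists_irreducible A
  have h1 := addVal_algebraMap_irreducible (B := B) hϖ
  rw [IsScalarTower.algebraMap_apply A B' B, addVal_algebraMap,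
    addVal_algebraMap_irreducible hϖ] at h1
  have : ((eIdx B' B * eIdx A B' : ℕ) : ℕ∞) = (eIdx A B : ℕ∞) := by
    rw [← h1, Nat.cast_mul]
  rw [mul_comm]
  exact_mod_cast this.symm

end Fermat.Agent.TW.Ram50.RamIdx67
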