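/-
Programme TW (S56), brick B5-R (ramification chapter), helper67's share (joint with helper50).

`Herbrand67`: Serre, Local Fields IV §1 Prop. 3.  Tower `A → B' → B` of rings, `B = A[x]`, `B' = A[y]`,
`G` acting on `B`, `G'` on `B'`, `r : G →* G'` compatible with the actions, `B' = B^{ker r}`.  Then
`ι (r σ₀ • y - y)` and `∏_{τ ∈ ker r} (x - σ₀ τ x)` are associated in `B`  (`associated_fibre_prod`).
For discrete valuation rings this gives the QUOTIENT FORMULA
`e(B/B') i_{G'}(σ') = ∑_{r σ = σ'} i_G(σ)`  (`quotient_formula`), and with `Comb` Herbrand's theorem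
`e(B/B') upperIdx_{G'}(σ') = max_{r σ = σ'} upperIdx_G(σ)`  (`herbrand`).
-/
import Fermat.Agent.TW.Ram50.Norm
import Fermat.Agent.TW.Ram50.RamIdx67
import Fermat.Agent.TW.Ram50.Comb67

set_option autoImplicit false

open Polynomial

namespace Fermat.Agent.TW.Ram50.Herbrand67

section Monogenic

open IsDiscreteValuationRing Lower

variable {G : Type*} [Group G] {B : Type*} [CommRing B] [MulSemiringAction G B]
  {A : Type*} [CommRing A] [Algebra A B] [SMulCommClass G A B]

/-- If `B = A[x]` and `G` acts `A`-linearly, then `σ b - b` is divisible by `σ x - x`. -/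
theorem smul_sub_dvd_of_adjoin_eq_top {x : B} (hx : Algebra.adjoin A {x} = ⊤) (σ : G) (b : B) :
    σ • x - x ∣ σ • b - b := by
  have hb : b ∈ Algebra.adjoin A {x} := hx ▸ Algebra.mem_top
  rw [Algebra.adjoin_singleton_eq_range_aeval] at hb
  obtain ⟨p, hp⟩ := hb
  change Polynomial.aeval x p = b at hp
  subst hp
  have h : σ • (Polynomial.aeval x p) = Polynomial.aeval (σ • x) p := by
    have := Polynomial.aeval_algHom_apply (MulSemiringAction.toAlgHom A B σ) x p
    simpa using this.symm
  rw [h, ← Polynomial.eval_map_algebraMap, ← Polynomial.eval_map_algebraMap]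
  exact Polynomial.sub_dvd_eval_sub (σ • x) x (p.map (algebraMap A B))

/-- For a monogenic extension `B = A[x]`, `i_G(σ) = v_B(σ x - x)` (algebra form of
`Lower.iG_eq_of_adjoin`). -/
theorem iG_eq_of_adjoin_eq_top [IsDomain B] [IsDiscreteValuationRing B] {x : B}
    (hx : Algebra.adjoin A {x} = ⊤) (σ : G) : iG B σ = addVal B (σ • x - x) :=
  le_antisymm (iG_le σ x) <| le_iG_iff.mpr fun b =>
    addVal_le_iff_dvd.mpr (smul_sub_dvd_of_adjoin_eq_top hx σ b)

end Monogenic

section Assoc

variable {A B' B : Type*} [CommRing A] [CommRing B'] [CommRing B] [IsDomain B]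
  [Algebra A B'] [Algebra B' B] [Algebra A B] [IsScalarTower A B' B]
  {G G' : Type*} [Group G] [Group G']
  [MulSemiringAction G B] [MulSemiringAction G' B'] [SMulCommClass G A B] [SMulCommClass G' A B']

omit [IsDomain B] in
/-- `σ ∘ ι = ι ∘ r σ` as ring homomorphisms. -/
theorem toRingHom_comp_algebraMap (r : G →* G')
    (hr : ∀ (g : G) (z : B'), algebraMap B' B (r g • z) = g • algebraMap B' B z) (σ : G) :
    (MulSemiringAction.toRingHom G B σ).comp (algebraMap B' B) =
      (algebraMap B' B).comp (MulSemiringAction.toRingHom G' B' (r σ)) := by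
  ext z
  simp [hr]

variable (r : G →* G')
  (hr : ∀ (g : G) (z : B'), algebraMap B' B (r g • z) = g • algebraMap B' B z)
  [Fintype r.ker] [Algebra.IsInvariant B' B r.ker] [FaithfulSMul G B]
  (hinj : Function.Injective (algebraMap B' B))
  {x : B} (hx : Algebra.adjoin A {x} = ⊤) {y : B'} (hy : Algebra.adjoin A {y} = ⊤)

include hr hinj hx hy in
theorem associated_fibre_prod (σ₀ : G) :
    Associated (algebraMap B' B (r σ₀ • y - y)) (∏ τ : r.ker, (x - (σ₀ * (τ : G)) • x)) := by
  classical
  set ι := algebraMap B' B with hι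
  set σ' := r σ₀ with hσ'
  -- the polynomial `f = ∏ (X - τ x)` and its descent `f'` to `B'`
  obtain ⟨f', hf', hdeg, hmonic⟩ := Polynomial.lifts_and_natDegree_eq_and_monic
    (Algebra.IsInvariant.charpoly_mem_lifts B' B r.ker x) (MulSemiringAction.monic_charpoly r.ker x)
  have hfdeg : f'.natDegree = Fintype.card r.ker := by
    rw [hdeg, MulSemiringAction.charpoly_eq, natDegree_prod_of_monic _ _ fun _ _ => monic_X_sub_C _]
    simp
  -- the product in the statement is the value at `x` of `σ₀ f`
  have hb : ∏ τ : r.ker, (x - (σ₀ * (τ : G)) • x) =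
      ((f'.map (MulSemiringAction.toRingHom G' B' σ')).map ι).eval x := by
    rw [Polynomial.map_map, ← toRingHom_comp_algebraMap r hr, ← Polynomial.map_map, hf',
      MulSemiringAction.charpoly_eq, Polynomial.map_prod, eval_prod]
    refine Finset.prod_congr rfl fun τ _ => ?_
    simp [mul_smul, Subgroup.smul_def]
  have hfx : (f'.map ι).eval x = 0 := by
    rw [hf']; exact MulSemiringAction.eval_charpoly r.ker x
  -- the action of `G'` on `B'` is `A`-linear, hence `σ' c - c` is divisible by `σ' y - y`
  have hdvd : ∀ c : B', σ' • y - y ∣ σ' • c - c := fun c =>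
    smul_sub_dvd_of_adjoin_eq_top hy σ' c
  apply associated_of_dvd_dvd
  · -- `a ∣ b`
    rw [hb]
    have h1 : C (σ' • y - y) ∣ f'.map (MulSemiringAction.toRingHom G' B' σ') - f' := by
      rw [C_dvd_iff_dvd_coeff]
      intro i
      rw [coeff_sub, coeff_map]
      exact hdvd _
    obtain ⟨q, hq⟩ := h1
    have h2 : ((f'.map (MulSemiringAction.toRingHom G' B' σ')).map ι).eval x =
        ι (σ' • y - y) * ((q.map ι).eval x) := by
      have := congrArg (fun p => (p.map ι).eval x) hq
      simp only [Polynomial.map_sub, eval_sub, hfx, sub_zero, Polynomial.map_mul, map_C,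
        eval_mul, eval_C] at this
      exact this
    rw [h2]
    exact dvd_mul_right _ _
  · -- `b ∣ a`
    have hιy : ι y ∈ Algebra.adjoin A {x} := hx ▸ Algebra.mem_top
    rw [Algebra.adjoin_singleton_eq_range_aeval] at hιy
    obtain ⟨g, hg⟩ := hιy
    change aeval x g = ι y at hg
    set g' := g.map (algebraMap A B') with hg'
    set h := g' - C y with hh
    -- the remainder of `h` by `f'` vanishes
    have hrem : h %ₘ f' = 0 := by
      have hinj' : Function.Injective (Polynomial.map ι) := Polynomial.map_injective ι hinj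
      apply hinj'
      rw [Polynomial.map_zero]
      refine eq_zero_of_natDegree_lt_card_of_eval_eq_zero _
        (f := fun τ : r.ker => (τ : G) • x) ?_ ?_ ?_
      · -- distinct roots
        intro τ₁ τ₂ h12
        simp only at h12
        have hfix : ∀ b : B, ((τ₁ : G)⁻¹ * (τ₂ : G)) • b = b := by
          intro b
          have hdiv := smul_sub_dvd_of_adjoin_eq_top (A := A) hx ((τ₁ : G)⁻¹ * (τ₂ : G)) b
          have : ((τ₁ : G)⁻¹ * (τ₂ : G)) • x - x = 0 := by
            rw [mul_smul, ← h12, inv_smul_smul, sub_self]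
          rw [this, zero_dvd_iff, sub_eq_zero] at hdiv
          exact hdiv
        have h1 : (τ₁ : G)⁻¹ * (τ₂ : G) = 1 :=
          eq_of_smul_eq_smul (α := B) fun b => by rw [hfix b, one_smul]
        exact Subtype.ext (by rw [inv_mul_eq_one] at h1; exact h1)
      · intro τ
        have hmod := Polynomial.modByMonic_add_div h f'
        have h3 : (h %ₘ f').map ι = h.map ι - (f'.map ι) * ((h /ₘ f').map ι) := by
          rw [← Polynomial.map_mul, ← Polynomial.map_sub]
          congr 1
          rw [eq_sub_iff_add_eq]; exact hmod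
        rw [h3, eval_sub, eval_mul]
        have h4 : (f'.map ι).eval ((τ : G) • x) = 0 := by
          rw [hf', MulSemiringAction.charpoly_eq, eval_prod]
          apply Finset.prod_eq_zero (Finset.mem_univ τ)
          simp [Subgroup.smul_def]
        have h5 : (h.map ι).eval ((τ : G) • x) = 0 := by
          rw [hh, Polynomial.map_sub, eval_sub, map_C, eval_C, hg', Polynomial.map_map,
            ← IsScalarTower.algebraMap_eq, eval_map_algebraMap]
          have h6 : aeval ((τ : G) • x) g = (τ : G) • aeval x g := by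
            have := Polynomial.aeval_algHom_apply (MulSemiringAction.toAlgHom A B (τ : G)) x g
            simpa using this
          rw [h6, hg, hι, ← hr, MonoidHom.mem_ker.mp τ.2, one_smul, sub_self]
        rw [h4, h5, zero_mul, sub_zero]
      · calc ((h %ₘ f').map ι).natDegree ≤ (h %ₘ f').natDegree := natDegree_map_le
          _ < f'.natDegree := by
            apply Polynomial.natDegree_modByMonic_lt h hmonic
            intro h1
            have : f'.natDegree = 0 := by rw [h1]; simp
            rw [hfdeg] at this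
            exact Fintype.card_ne_zero this
          _ = Fintype.card r.ker := hfdeg
    have hfact : h = f' * (h /ₘ f') := by
      have hmod := Polynomial.modByMonic_add_div h f'
      rw [hrem, zero_add] at hmod
      exact hmod.symm
    -- apply `σ'` and evaluate at `x`
    have hσg : g'.map (MulSemiringAction.toRingHom G' B' σ') = g' := by
      rw [hg', Polynomial.map_map]
      congr 1
      ext a
      simp
    have h7 := congrArg (fun p => ((p.map (MulSemiringAction.toRingHom G' B' σ')).map ι).eval x) hfact
    simp only [hh, Polynomial.map_sub, hσg, Polynomial.map_mul, eval_sub, eval_mul, map_C, eval_C]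
      at h7
    have h8 : (g'.map ι).eval x = ι y := by
      rw [hg', Polynomial.map_map, ← IsScalarTower.algebraMap_eq, eval_map_algebraMap, hg]
    rw [h8] at h7
    rw [hb]
    refine ⟨-(((h /ₘ f').map (MulSemiringAction.toRingHom G' B' σ')).map ι).eval x, ?_⟩
    rw [mul_neg, ← h7]
    simp [map_sub]

end Assoc



section DVR

open IsDiscreteValuationRing IsLocalRing Lower RamIdx67 Comb67

variable {A B' B : Type*} [CommRing A] [CommRing B'] [CommRing B] [IsDomain B'] [IsDomain B]
  [IsDiscreteValuationRing B'] [IsDiscreteValuationRing B]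
  [Algebra A B'] [Algebra B' B] [Algebra A B] [IsScalarTower A B' B]
  [FaithfulSMul B' B] [IsLocalHom (algebraMap B' B)]
  {G G' : Type*} [Group G] [Group G'] [Finite G]
  [MulSemiringAction G B] [MulSemiringAction G' B'] [SMulCommClass G A B] [SMulCommClass G' A B']
  [FaithfulSMul G B]

omit [Finite G] [FaithfulSMul G B] in
/-- The depth function of a group action on a DVR is an abstract depth function. -/
theorem isDepth_iG : IsDepth (iG B (G := G)) where
  map_one := iG_one
  min_le_mul := iG_mul
  map_inv := iG_inv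

variable (r : G →* G')
  (hr : ∀ (g : G) (z : B'), algebraMap B' B (r g • z) = g • algebraMap B' B z)
  [Algebra.IsInvariant B' B r.ker]
  {x : B} (hx : Algebra.adjoin A {x} = ⊤) {y : B'} (hy : Algebra.adjoin A {y} = ⊤)

include hr hx hy in
/-- **Quotient formula** (Serre IV §1 Prop. 3): `e(B/B') i_{G'}(σ') = ∑_{r σ = σ'} i_G(σ)`. -/
theorem quotient_formula (hsurj : Function.Surjective r) (σ' : G') :
    (eIdx B' B : ℕ∞) * iG B' σ' = ∑ᶠ σ : {σ : G // r σ = σ'}, iG B (σ : G) := by
  classical
  obtain ⟨σ₀, rfl⟩ := hsurj σ'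
  have : Fintype r.ker := Fintype.ofFinite _
  rw [finsum_fibre_eq r rfl, finsum_eq_sum_of_fintype, iG_eq_of_adjoin_eq_top hy,
    ← addVal_algebraMap,
    (addVal_eq_iff_associated _ _).mpr
      (associated_fibre_prod r hr (FaithfulSMul.algebraMap_injective B' B) hx hy σ₀),
    Norm.addVal_prod]
  refine Finset.sum_congr rfl fun τ _ => ?_
  rw [iG_eq_of_adjoin_eq_top hx, ← neg_sub, (addVal B).map_neg]

include hr hx hy in
/-- **Herbrand's lemma**: `e(B/B') i_{G'}(σ') = Φ_N(max_{r σ = σ'} i_G(σ))`, `N = ker r`. -/
theorem herbrand_lemma_iG (hsurj : Function.Surjective r) (σ' : G') :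
    (eIdx B' B : ℕ∞) * iG B' σ' =
      Phi (fun τ : r.ker => iG B (τ : G)) (fibreMax (iG B) r σ') :=
  herbrand_lemma isDepth_iG hsurj (quotient_formula r hr hx hy hsurj) σ'

include hr hx hy in
/-- **Herbrand's theorem** (upper numbering passes to the quotient), integral form:
`e(B/B') upperIdx_{G'}(σ') = max_{r σ = σ'} upperIdx_G(σ)`. -/
theorem herbrand [Finite G'] (hsurj : Function.Surjective r) (σ' : G') :
    (eIdx B' B : ℕ∞) * upperIdx (iG B' (G := G')) σ' =
      ⨆ σ : {σ : G // r σ = σ'}, upperIdx (iG B (G := G)) (σ : G) :=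
  mul_upperIdx_eq_iSup isDepth_iG hsurj (quotient_formula r hr hx hy hsurj) σ'

end DVR

end Fermat.Agent.TW.Ram50.Herbrand67
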