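/-
Programme TW (S56), brick B5-R (ramification chapter), file 9 (helper50).

CONSUMER CHAIN: Fontaine's bound for a degree-`p` layer on top of a tame base.

`(B, G, A, π)` totally ramified Galois data (`L/K`), finite residue field, property `(P_m)` for all
`m > e_K p/(p-1)` (`PmHyp`).  `H0 ≤ G` a subgroup containing all elements of depth `≥ 2`
(`L0 = L^{H0}` contains the maximal tame subextension).  A quotient `r : H0 ↠ G'` acting on a DVR
`B' = B^{ker r}` (`L1 = Frac B'`, `Gal(L1/L0) = G'`) all of whose nontrivial elements have depth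
`b + 1` (e.g. `G'` of order `p`, `b` = the lower break of `L1/L0`).  Then
`(p-1) (|G| + |H0| b) ≤ p v_B(p)`, i.e. with `|G| = e0 |H0|`, `v_B(p) = |G| e_K`:
`(p-1) (e0 + b) ≤ p e0 e_K`;  for `e_K = 1`:  `(p-1) b ≤ e0`.
-/
import Mathlib
import Fermat.Agent.TW.Ram50.Bound
import Fermat.Agent.TW.Ram50.Herbrand67

set_option autoImplicit false
set_option linter.unusedSectionVars false

namespace Fermat.Agent.TW.Ram50.Consumer

open IsDiscreteValuationRing Polynomial IsLocalRing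
open Fermat.Agent.TW.Ram50.Lower Fermat.Agent.TW.Ram50.Norm Fermat.Agent.TW.Ram50.Value
open Fermat.Agent.TW.Ram50.NoRoot Fermat.Agent.TW.Ram50.Converse
open Fermat.Agent.TW.Ram50.Comb67 Fermat.Agent.TW.Ram50.RamIdx67 Fermat.Agent.TW.Ram50.Herbrand67

universe u

variable {B : Type u} [CommRing B] [IsDomain B] [IsDiscreteValuationRing B]
variable {G : Type*} [Group G] [Fintype G] [DecidableEq G] [MulSemiringAction G B]
variable {A : Subring B} {π : B}

theorem faithfulSMul (h : TotRam G A π) : FaithfulSMul G B :=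
  ⟨fun {σ τ} hστ => by
    have h1 : (τ⁻¹ * σ) • π = π := by rw [mul_smul, hστ π, inv_smul_smul]
    exact (inv_mul_eq_one.1 (h.faithful _ h1)).symm⟩

/-- `Phi (iG B) T = FT B G`. -/
theorem Phi_topBrk (h : TotRam G A π) :
    Phi (iG B (G := G)) (topBrk B G : ℕ∞) = (FT B G : ℕ) := by
  rw [Phi_eq_sum, FT, ← sum_min_eq_Fn (brk (G := G) B) (iG B) iG_one
    (fun τ hτ => (coe_brk h hτ).symm)]
  exact Finset.sum_congr rfl fun σ _ => min_comm _ _

theorem iG_le_topBrk (h : TotRam G A π) {σ : G} (hσ : σ ≠ 1) : iG B σ ≤ (topBrk B G : ℕ∞) := by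
  rw [← coe_brk h hσ]
  exact_mod_cast brk_le_topBrk hσ

/-- **Consumer chain**: the break bound for a layer `L1/L0` above a tame base. -/
theorem break_bound (h : TotRam G A π) [Finite (ResidueField B)] (p : ℕ)
    (hpB : π ∣ (p : B)) (hPm : PmHyp B A p)
    (H0 : Subgroup G) (hH0 : ∀ σ : G, 2 ≤ iG B σ → σ ∈ H0)
    {A0 B' : Type*} [CommRing A0] [CommRing B'] [IsDomain B'] [IsDiscreteValuationRing B']
    [Algebra A0 B'] [Algebra B' B] [Algebra A0 B] [IsScalarTower A0 B' B]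
    [FaithfulSMul B' B] [IsLocalHom (algebraMap B' B)]
    {G' : Type*} [Group G'] [Finite G'] [MulSemiringAction G' B']
    [SMulCommClass H0 A0 B] [SMulCommClass G' A0 B']
    (r : H0 →* G') (hr : ∀ (g : H0) (z : B'), algebraMap B' B (r g • z) = g • algebraMap B' B z)
    [Algebra.IsInvariant B' B r.ker] (hsurj : Function.Surjective r)
    {x : B} (hx : Algebra.adjoin A0 {x} = ⊤) {y : B'} (hy : Algebra.adjoin A0 {y} = ⊤)
    (he : eIdx B' B * Nat.card G' = Nat.card H0)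
    (b : ℕ) (hb : ∀ σ' : G', σ' ≠ 1 → iG B' σ' = (b + 1 : ℕ)) (σ'0 : G') (hσ'0 : σ'0 ≠ 1) :
    (((p - 1) * (Nat.card G + Nat.card H0 * b) : ℕ) : ℕ∞) ≤ p * addVal B (p : B) := by
  classical
  have hfaith : FaithfulSMul G B := faithfulSMul h
  have hdH : IsDepth (iG B (G := H0)) := isDepth_iG
  -- Herbrand
  have hQF := quotient_formula (A := A0) r hr hx hy hsurj
  have hH := mul_upperIdx_eq_Phi_fibreMax hdH hsurj hQF σ'0
  obtain ⟨σ0, hσ0, hmax, -⟩ := exists_eq_fibreMax (iG B (G := H0)) hsurj σ'0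
  rw [← hmax] at hH
  -- the quotient side
  have hup : upperIdx (iG B' (G := G')) σ'0 = ((Nat.card G' * (b + 1) : ℕ) : ℕ∞) := by
    cases nonempty_fintype G'
    rw [upperIdx, hb σ'0 hσ'0, Phi_eq_sum]
    have : ∀ τ' ∈ (Finset.univ : Finset G'), min (iG B' τ') ((b + 1 : ℕ) : ℕ∞) = (b + 1 : ℕ) := by
      intro τ' _
      by_cases hτ' : τ' = 1
      · rw [hτ', iG_one]; exact min_eq_right le_top
      · rw [hb τ' hτ', min_self]
    rw [Finset.sum_congr rfl this, Finset.sum_const, Finset.card_univ, Nat.card_eq_fintype_card]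
    push_cast
    rw [nsmul_eq_mul]
  -- σ0 ≠ 1
  have hσ0ne : (σ0 : G) ≠ 1 := by
    intro h1
    have : σ0 = 1 := Subtype.ext h1
    rw [this, map_one] at hσ0
    exact hσ'0 hσ0.symm
  have hiσ0 : iG B (σ0 : H0) = iG B (σ0 : G) := rfl
  -- tame base
  have hj : (1 : ℕ∞) ≤ iG B (σ0 : G) := TotRam'.one_le_iG h _
  have htame := Phi_eq_Phi_subgroup_add (d := iG B (G := G)) H0 hH0 hj
  have hcard : Nat.card {σ : G // σ ∉ H0 ∧ 1 ≤ iG B σ} + Nat.card H0 = Nat.card G := by
    have h1 : Nat.card {σ : G // σ ∉ H0 ∧ 1 ≤ iG B σ} = Nat.card {σ : G // σ ∉ H0} := by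
      apply Nat.card_congr
      exact Equiv.subtypeEquivRight fun σ => ⟨fun hh => hh.1, fun hh => ⟨hh, TotRam'.one_le_iG h σ⟩⟩
    rw [h1, Nat.card_eq_fintype_card, Nat.card_eq_fintype_card, Nat.card_eq_fintype_card,
      Fintype.card_subtype_compl, Fintype.card_subtype]
    have : (Finset.univ.filter fun σ : G => σ ∈ H0).card ≤ Fintype.card G :=
      Finset.card_le_univ _
    omega
  -- assemble
  have hPhiH0 : Phi (fun τ : H0 => iG B (τ : G)) (iG B (σ0 : G)) =
      ((Nat.card H0 * (b + 1) : ℕ) : ℕ∞) := by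
    have h2 : Phi (iG B (G := H0)) (iG B (σ0 : H0)) = (eIdx B' B : ℕ∞) *
        upperIdx (iG B' (G := G')) σ'0 := hH.symm
    have h3 : Phi (fun τ : H0 => iG B (τ : G)) (iG B (σ0 : G)) =
        Phi (iG B (G := H0)) (iG B (σ0 : H0)) := rfl
    rw [h3, h2, hup, ← he]
    push_cast
    ring
  have hPhiG : Phi (iG B (G := G)) (iG B (σ0 : G)) =
      ((Nat.card G + Nat.card H0 * b : ℕ) : ℕ∞) := by
    rw [htame, hPhiH0, ← hcard]
    push_cast
    ring
  have hle : ((Nat.card G + Nat.card H0 * b : ℕ) : ℕ∞) ≤ (FT B G : ℕ) := by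
    rw [← hPhiG, ← Phi_topBrk h]
    exact Phi_mono _ (iG_le_topBrk h hσ0ne)
  have hle' : Nat.card G + Nat.card H0 * b ≤ FT B G := by exact_mod_cast hle
  calc (((p - 1) * (Nat.card G + Nat.card H0 * b) : ℕ) : ℕ∞)
      ≤ (((p - 1) * FT B G : ℕ) : ℕ∞) := by exact_mod_cast Nat.mul_le_mul_left _ hle'
    _ ≤ p * addVal B (p : B) := Bound.fontaine_bound h p hpB hPm

end Fermat.Agent.TW.Ram50.Consumer
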