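/-
Programme TW (S56), brick B5-R (ramification chapter), helper67's share (joint with helper50).

`HerbrandB67`: the quotient formula of `Herbrand67` WITHOUT assuming that the intermediate ring `B'` is
monogenic over `A` (only `B = A[x]` is needed).  Tower `A → B' → B`, `G` on `B`, `G'` on `B'`,
`r : G →* G'` compatible with the actions, `B' = B^{ker r}`:

* `fibre_prod_dvd` : `∏_{τ ∈ ker r} (x - σ₀ τ x)` divides `ι (r σ₀ • c - c)` for EVERY `c : B'`;
* `fibre_prod_eq_eval` : `∏_{τ ∈ ker r} (x - σ₀ τ x) = (σ' f' - f')(x)` for a polynomial `f'` over `B'`;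
* `quotient_formula'` : `e(B/B') i_{G'}(σ') = ∑_{r σ = σ'} i_G(σ)` for discrete valuation rings;
* `herbrand_lemma_iG'`, `herbrand'` : Herbrand's lemma and theorem under these weaker hypotheses.
-/
import Fermat.Agent.TW.Ram50.Herbrand67

set_option autoImplicit false

open Polynomial

namespace Fermat.Agent.TW.Ram50.HerbrandB67

open Fermat.Agent.TW.Ram50.Herbrand67

section Domain

variable {A B' B : Type*} [CommRing A] [CommRing B'] [CommRing B] [IsDomain B]
  [Algebra A B'] [Algebra B' B] [Algebra A B] [IsScalarTower A B' B]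
  {G G' : Type*} [Group G] [Group G']
  [MulSemiringAction G B] [MulSemiringAction G' B'] [SMulCommClass G A B] [SMulCommClass G' A B']

variable (r : G →* G')
  (hr : ∀ (g : G) (z : B'), algebraMap B' B (r g • z) = g • algebraMap B' B z)
  [Fintype r.ker] [Algebra.IsInvariant B' B r.ker] [FaithfulSMul G B]
  (hinj : Function.Injective (algebraMap B' B))
  {x : B} (hx : Algebra.adjoin A {x} = ⊤)

omit [FaithfulSMul G B] in
include hr in
/-- The fibre product is the value at `x` of `σ' f' - f'`, `f'` the descent to `B'` of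
`∏_{τ ∈ ker r} (X - τ x)`. -/
theorem fibre_prod_eq_eval (σ₀ : G) :
    ∃ f' : B'[X], f'.Monic ∧ f'.natDegree = Fintype.card r.ker ∧
      f'.map (algebraMap B' B) = MulSemiringAction.charpoly r.ker x ∧
      ∏ τ : r.ker, (x - (σ₀ * (τ : G)) • x) =
        (((f'.map (MulSemiringAction.toRingHom G' B' (r σ₀))) - f').map (algebraMap B' B)).eval x := by
  classical
  set ι := algebraMap B' B with hι
  obtain ⟨f', hf', hdeg, hmonic⟩ := Polynomial.lifts_and_natDegree_eq_and_monic
    (Algebra.IsInvariant.charpoly_mem_lifts B' B r.ker x) (MulSemiringAction.monic_charpoly r.ker x)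
  have hfdeg : f'.natDegree = Fintype.card r.ker := by
    rw [hdeg, MulSemiringAction.charpoly_eq, natDegree_prod_of_monic _ _ fun _ _ => monic_X_sub_C _]
    simp
  refine ⟨f', hmonic, hfdeg, hf', ?_⟩
  have hb : ∏ τ : r.ker, (x - (σ₀ * (τ : G)) • x) =
      ((f'.map (MulSemiringAction.toRingHom G' B' (r σ₀))).map ι).eval x := by
    rw [Polynomial.map_map, ← toRingHom_comp_algebraMap r hr, ← Polynomial.map_map, hf',
      MulSemiringAction.charpoly_eq, Polynomial.map_prod, eval_prod]
    refine Finset.prod_congr rfl fun τ _ => ?_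
    simp [mul_smul, Subgroup.smul_def]
  have hfx : (f'.map ι).eval x = 0 := by
    rw [hf']; exact MulSemiringAction.eval_charpoly r.ker x
  rw [Polynomial.map_sub, eval_sub, hfx, sub_zero, hb]

include hr hinj hx in
/-- The fibre product divides `ι (r σ₀ • c - c)` for every `c : B'`. -/
theorem fibre_prod_dvd (σ₀ : G) (c : B') :
    (∏ τ : r.ker, (x - (σ₀ * (τ : G)) • x)) ∣ algebraMap B' B (r σ₀ • c - c) := by
  classical
  set ι := algebraMap B' B with hι
  set σ' := r σ₀ with hσ'
  obtain ⟨f', hmonic, hfdeg, hf', hprod⟩ := fibre_prod_eq_eval r hr (x := x) σ₀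
  have hfx : (f'.map ι).eval x = 0 := by
    rw [hf']; exact MulSemiringAction.eval_charpoly r.ker x
  have hb : ∏ τ : r.ker, (x - (σ₀ * (τ : G)) • x) =
      ((f'.map (MulSemiringAction.toRingHom G' B' σ')).map ι).eval x := by
    rw [hprod, Polynomial.map_sub, eval_sub, hfx, sub_zero]
  have hιc : ι c ∈ Algebra.adjoin A {x} := hx ▸ Algebra.mem_top
  rw [Algebra.adjoin_singleton_eq_range_aeval] at hιc
  obtain ⟨g, hg⟩ := hιc
  change aeval x g = ι c at hg
  set g' := g.map (algebraMap A B') with hg'
  set h := g' - C c with hh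
  -- the remainder of `h` by `f'` vanishes
  have hrem : h %ₘ f' = 0 := by
    have hinj' : Function.Injective (Polynomial.map ι) := Polynomial.map_injective ι hinj
    apply hinj'
    rw [Polynomial.map_zero]
    refine eq_zero_of_natDegree_lt_card_of_eval_eq_zero _
      (f := fun τ : r.ker => (τ : G) • x) ?_ ?_ ?_
    · intro τ₁ τ₂ h12
      simp only at h12
      have hfix : ∀ b : B, ((τ₁ : G)⁻¹ * (τ₂ : G)) • b = b := by
        intro b
        have hdiv := smul_sub_dvd_of_adjoin_eq_top (A := A) hx ((τ₁ : G)⁻¹ * (τ₂ : G)) b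
        have : ((τ₁ : G)⁻¹ * (τ₂ : G)) • x - x = 0 := by
          rw [mul_smul, ← h12, inv_smul_smul, sub_self]
        rw [this, zero_dvd_iff, sub_eq_zero] at hdiv
        exact hdiv
      have h1 : (τ₁ : G)⁻¹ * (τ₂ : G) = 1 :=
        eq_of_smul_eq_smul (α := B) fun b => by rw [hfix b, one_smul]
      exact Subtype.ext (by rw [inv_mul_eq_one] at h1; exact h1)
    · intro τ
      have hmod := Polynomial.modByMonic_add_div h f'
      have h3 : (h %ₘ f').map ι = h.map ι - (f'.map ι) * ((h /ₘ f').map ι) := by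
        rw [← Polynomial.map_mul, ← Polynomial.map_sub]
        congr 1
        rw [eq_sub_iff_add_eq]; exact hmod
      rw [h3, eval_sub, eval_mul]
      have h4 : (f'.map ι).eval ((τ : G) • x) = 0 := by
        rw [hf', MulSemiringAction.charpoly_eq, eval_prod]
        apply Finset.prod_eq_zero (Finset.mem_univ τ)
        simp [Subgroup.smul_def]
      have h5 : (h.map ι).eval ((τ : G) • x) = 0 := by
        rw [hh, Polynomial.map_sub, eval_sub, map_C, eval_C, hg', Polynomial.map_map,
          ← IsScalarTower.algebraMap_eq, eval_map_algebraMap]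
        have h6 : aeval ((τ : G) • x) g = (τ : G) • aeval x g := by
          have := Polynomial.aeval_algHom_apply (MulSemiringAction.toAlgHom A B (τ : G)) x g
          simpa using this
        rw [h6, hg, hι, ← hr, MonoidHom.mem_ker.mp τ.2, one_smul, sub_self]
      rw [h4, h5, zero_mul, sub_zero]
    · calc ((h %ₘ f').map ι).natDegree ≤ (h %ₘ f').natDegree := natDegree_map_le
        _ < f'.natDegree := by
          apply Polynomial.natDegree_modByMonic_lt h hmonic
          intro h1
          have : f'.natDegree = 0 := by rw [h1]; simp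
          rw [hfdeg] at this
          exact Fintype.card_ne_zero this
        _ = Fintype.card r.ker := hfdeg
  have hfact : h = f' * (h /ₘ f') := by
    have hmod := Polynomial.modByMonic_add_div h f'
    rw [hrem, zero_add] at hmod
    exact hmod.symm
  have hσg : g'.map (MulSemiringAction.toRingHom G' B' σ') = g' := by
    rw [hg', Polynomial.map_map]
    congr 1
    ext a
    simp
  have h7 := congrArg (fun p => ((p.map (MulSemiringAction.toRingHom G' B' σ')).map ι).eval x) hfact
  simp only [hh, Polynomial.map_sub, hσg, Polynomial.map_mul, eval_sub, eval_mul, map_C, eval_C]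
    at h7
  have h8 : (g'.map ι).eval x = ι c := by
    rw [hg', Polynomial.map_map, ← IsScalarTower.algebraMap_eq, eval_map_algebraMap, hg]
  rw [h8] at h7
  rw [hb]
  refine ⟨-(((h /ₘ f').map (MulSemiringAction.toRingHom G' B' σ')).map ι).eval x, ?_⟩
  rw [mul_neg, ← h7]
  simp [map_sub]

end Domain

section DVR

open IsDiscreteValuationRing IsLocalRing Lower RamIdx67 Comb67

variable {A B' B : Type*} [CommRing A] [CommRing B'] [CommRing B] [IsDomain B'] [IsDomain B]
  [IsDiscreteValuationRing B'] [IsDiscreteValuationRing B]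
  [Algebra A B'] [Algebra B' B] [Algebra A B] [IsScalarTower A B' B]
  [FaithfulSMul B' B] [IsLocalHom (algebraMap B' B)]
  {G G' : Type*} [Group G] [Group G'] [Finite G]
  [MulSemiringAction G B] [MulSemiringAction G' B'] [SMulCommClass G A B] [SMulCommClass G' A B']
  [FaithfulSMul G B]

variable (r : G →* G')
  (hr : ∀ (g : G) (z : B'), algebraMap B' B (r g • z) = g • algebraMap B' B z)
  [Algebra.IsInvariant B' B r.ker]
  {x : B} (hx : Algebra.adjoin A {x} = ⊤)

omit [Finite G] in
include hr hx in
/-- The valuation of the fibre product is `e(B/B') i_{G'}(r σ₀)`. -/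
theorem addVal_fibre_prod [Fintype r.ker] (σ₀ : G) :
    addVal B (∏ τ : r.ker, (x - (σ₀ * (τ : G)) • x)) = (eIdx B' B : ℕ∞) * iG B' (r σ₀) := by
  apply le_antisymm
  · -- `≤`: the product divides `ι (σ' c - c)` for a minimiser `c`
    obtain ⟨c, hc⟩ := ENat.exists_eq_iInf fun c : B' => addVal B' (r σ₀ • c - c)
    have hdvd := fibre_prod_dvd (A := A) r hr (FaithfulSMul.algebraMap_injective B' B) hx σ₀ c
    rw [← addVal_le_iff_dvd, addVal_algebraMap, hc] at hdvd
    exact hdvd
  · -- `≥`: the product is `∑ ι (σ' c_k - c_k) x^k`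
    obtain ⟨f', -, -, -, hprod⟩ := fibre_prod_eq_eval r hr (x := x) σ₀
    rw [hprod, eval_eq_sum_range]
    apply (addVal B).map_le_sum
    intro k _
    rw [coeff_map, coeff_sub, coeff_map, addVal_mul, addVal_algebraMap]
    refine le_trans ?_ le_self_add
    exact mul_le_mul_right (iG_le (r σ₀) (f'.coeff k)) _

include hr hx in
/-- **Quotient formula** (Serre IV §1 Prop. 3), only `B = A[x]` assumed:
`e(B/B') i_{G'}(σ') = ∑_{r σ = σ'} i_G(σ)`. -/
theorem quotient_formula' (hsurj : Function.Surjective r) (σ' : G') :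
    (eIdx B' B : ℕ∞) * iG B' σ' = ∑ᶠ σ : {σ : G // r σ = σ'}, iG B (σ : G) := by
  classical
  obtain ⟨σ₀, rfl⟩ := hsurj σ'
  have : Fintype r.ker := Fintype.ofFinite _
  rw [finsum_fibre_eq r rfl, finsum_eq_sum_of_fintype, ← addVal_fibre_prod (A := A) r hr hx σ₀,
    Norm.addVal_prod]
  refine Finset.sum_congr rfl fun τ _ => ?_
  rw [iG_eq_of_adjoin_eq_top hx, ← neg_sub, (addVal B).map_neg]

include hr hx in
/-- **Herbrand's lemma**, only `B = A[x]` assumed. -/
theorem herbrand_lemma_iG' (hsurj : Function.Surjective r) (σ' : G') :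
    (eIdx B' B : ℕ∞) * iG B' σ' =
      Phi (fun τ : r.ker => iG B (τ : G)) (fibreMax (iG B) r σ') :=
  herbrand_lemma isDepth_iG hsurj (quotient_formula' r hr hx hsurj) σ'

include hr hx in
/-- **Herbrand's theorem** (upper numbering passes to the quotient), only `B = A[x]` assumed:
`e(B/B') upperIdx_{G'}(σ') = max_{r σ = σ'} upperIdx_G(σ)`. -/
theorem herbrand' [Finite G'] (hsurj : Function.Surjective r) (σ' : G') :
    (eIdx B' B : ℕ∞) * upperIdx (iG B' (G := G')) σ' =
      ⨆ σ : {σ : G // r σ = σ'}, upperIdx (iG B (G := G)) (σ : G) :=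
  mul_upperIdx_eq_iSup isDepth_iG hsurj (quotient_formula' r hr hx hsurj) σ'

include hr hx in
/-- Fontaine-form Herbrand: `e(B/B') Φ_{G'}(i_{G'}(σ')) = Φ_G(max_{r σ = σ'} i_G(σ))`. -/
theorem herbrand_Phi' [Finite G'] (hsurj : Function.Surjective r) (σ' : G') :
    (eIdx B' B : ℕ∞) * upperIdx (iG B' (G := G')) σ' = Phi (iG B (G := G)) (fibreMax (iG B) r σ') :=
  mul_upperIdx_eq_Phi_fibreMax isDepth_iG hsurj (quotient_formula' r hr hx hsurj) σ'

end DVR

end Fermat.Agent.TW.Ram50.HerbrandB67
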