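/-
Programme TW (S56), brick B5-R (ramification chapter), helper67's share (joint with helper50).

`Quot67`: sub- and quotient data of helper50's totally ramified Galois data `TotRam G A π`.

* `isDiscreteValuationRing_of_invariants` / instance `isDiscreteValuationRing_fixedPoints`:
  the invariants of a finite group acting on a DVR form a DVR (no finiteness of `B` over `B^H` needed).
* `isDiscreteValuationRing_base`, `adjoin_eq_top`, `module_finite` : `A` is a DVR, `B = A[π]` is a finite `A`-module.
* `exists_aeval_eq_of_mem_invariants` : GENERATION LEMMA: `B^H = A[ϖ]` for every uniformizer `ϖ` of `B^H` (Nakayama).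
* `totRam_subgroup` : `TotRam H (B^H) π`;   `totRam_quotient` : `TotRam (G ⧸ H) A ϖ` (`H` normal).
* `eIdx_fixedPoints` : `e(B / B^H) = |H|`.
* `quotient_formula_fixedPoints` : `|H| · i_{G/H}(σ H) = ∑_{τ ∈ H} i_G(σ τ)`;
  `addVal_smul_sub_uniformizer` : `v_B(σ ϖ - ϖ) = ∑_{τ ∈ H} i_G(σ τ)` (Serre IV §1 Prop. 3);
  `herbrand_fixedPoints`, `herbrand_fixedPoints_iSup` : Herbrand's theorem for `G ⧸ H` acting on `B^H`.
-/
import Fermat.Agent.TW.Ram50.HerbrandB67
import Fermat.Agent.TW.Ram50.Value

set_option autoImplicit false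
set_option linter.unusedSectionVars false

namespace Fermat.Agent.TW.Ram50.Quot67

open IsDiscreteValuationRing Polynomial IsLocalRing
open Fermat.Agent.TW.Ram50.Lower Fermat.Agent.TW.Ram50.Norm Fermat.Agent.TW.Ram50.RamIdx67
open Fermat.Agent.TW.Ram50.Comb67

section Invariants

variable {B : Type*} [CommRing B] [IsDomain B] [IsDiscreteValuationRing B]
variable {H : Type*} [Group H] [MulSemiringAction H B]
variable (R : Subring B) (hfix : ∀ σ : H, ∀ r ∈ R, σ • r = r)
  (hmem : ∀ b : B, (∀ σ : H, σ • b = b) → b ∈ R)

include hfix hmem in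
/-- Division in `B` of invariant elements stays invariant. -/
theorem dvd_of_dvd_coe {r s : R} (hs : s ≠ 0) (h : (s : B) ∣ (r : B)) : s ∣ r := by
  obtain ⟨c, hc⟩ := h
  have hcR : c ∈ R := by
    apply hmem
    intro σ
    have h1 : σ • (r : B) = σ • ((s : B) * c) := by rw [hc]
    rw [smul_mul', hfix σ _ r.2, hfix σ _ s.2, hc] at h1
    have hs' : (s : B) ≠ 0 := fun h0 => hs (Subtype.ext h0)
    exact (mul_left_cancel₀ hs' h1).symm
  exact ⟨⟨c, hcR⟩, Subtype.ext hc⟩

include hfix hmem in
/-- An invariant element which is a unit of `B` is a unit of the ring of invariants. -/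
theorem isUnit_of_isUnit_coe {r : R} (h : IsUnit (r : B)) : IsUnit r := by
  have h1 : r ≠ 0 := by
    rintro rfl
    exact not_isUnit_zero (M₀ := B) (by simp at h)
  have : r ∣ 1 := dvd_of_dvd_coe R hfix hmem h1 (by simpa using h.dvd)
  exact isUnit_of_dvd_one this

include hfix hmem in
/-- The ring of invariants of a finite group acting on a discrete valuation ring is a discrete
valuation ring. -/
theorem isDiscreteValuationRing_of_invariants [Finite H] : IsDiscreteValuationRing R := by
  classical
  cases nonempty_fintype H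
  -- a non-unit: the norm of a uniformizer
  obtain ⟨π, hπ⟩ := exists_irreducible B
  have hN : (∏ σ : H, σ • π) ∈ R := hmem _ fun τ => by
    rw [Finset.smul_prod']
    simp only [← mul_smul]
    exact Fintype.prod_equiv (Equiv.mulLeft τ) _ _ fun σ => rfl
  have hNval : addVal B (∏ σ : H, σ • π) = Fintype.card H := by
    rw [addVal_prod]; simp [addVal_smul, addVal_uniformizer hπ]
  -- the set of positive valuations of invariant elements
  let S : ℕ → Prop := fun n => 0 < n ∧ ∃ r : R, addVal B (r : B) = n
  have hS : ∃ n, S n := ⟨Fintype.card H, Fintype.card_pos, ⟨_, hN⟩, hNval⟩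
  obtain ⟨he'pos, ϖ, hϖ⟩ := Nat.find_spec hS
  set e' := Nat.find hS with he'
  have hmin : ∀ r : R, ∀ n : ℕ, addVal B (r : B) = n → 0 < n → e' ≤ n := fun r n hr hn =>
    Nat.find_min' hS ⟨hn, r, hr⟩
  have hϖ0 : ϖ ≠ 0 := by
    rintro rfl
    rw [Subring.coe_zero, addVal_zero] at hϖ
    exact ENat.top_ne_natCast _ hϖ
  have hϖnu : ¬ IsUnit ϖ := by
    intro hu
    have : IsUnit (ϖ : B) := hu.map R.subtype
    rw [← addVal_eq_zero_iff, hϖ] at this
    exact he'pos.ne' (by exact_mod_cast this)
  have hirr : Irreducible ϖ := by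
    rw [irreducible_iff]
    refine ⟨hϖnu, fun a b hab => ?_⟩
    have hval : addVal B (a : B) + addVal B (b : B) = e' := by
      rw [← addVal_mul, ← hϖ, hab]; rfl
    have ha0 : addVal B (a : B) ≠ ⊤ := by
      intro h; rw [h, top_add] at hval; exact ENat.top_ne_natCast _ hval
    have hb0 : addVal B (b : B) ≠ ⊤ := by
      intro h; rw [h, add_top] at hval; exact ENat.top_ne_natCast _ hval
    lift addVal B (a : B) to ℕ using ha0 with m hm
    lift addVal B (b : B) to ℕ using hb0 with n hn
    have hmn : m + n = e' := by exact_mod_cast hval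
    rcases Nat.eq_zero_or_pos m with h0 | hpos
    · left
      apply isUnit_of_isUnit_coe R hfix hmem
      rw [← addVal_eq_zero_iff, ← hm, h0]; rfl
    · right
      apply isUnit_of_isUnit_coe R hfix hmem
      rw [← addVal_eq_zero_iff, ← hn]
      have := hmin a m hm.symm hpos
      have hn0 : n = 0 := by omega
      rw [hn0]; rfl
  apply IsDiscreteValuationRing.ofHasUnitMulPowIrreducibleFactorization
  refine ⟨ϖ, hirr, ?_⟩
  -- factorisation, by strong induction on the valuation
  have key : ∀ n : ℕ, ∀ x : R, addVal B (x : B) = n → ∃ k : ℕ, Associated (ϖ ^ k) x := by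
    intro n
    induction n using Nat.strong_induction_on with
    | _ n ih =>
      intro x hx
      rcases Nat.eq_zero_or_pos n with h0 | hpos
      · refine ⟨0, ?_⟩
        rw [pow_zero]
        have : IsUnit x := by
          apply isUnit_of_isUnit_coe R hfix hmem
          rw [← addVal_eq_zero_iff, hx, h0]; rfl
        exact (associated_one_iff_isUnit.mpr this).symm
      · have hle := hmin x n hx hpos
        have hdvd : ϖ ∣ x := by
          apply dvd_of_dvd_coe R hfix hmem hϖ0
          rw [← addVal_le_iff_dvd, hϖ, hx]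
          exact_mod_cast hle
        obtain ⟨c, rfl⟩ := hdvd
        have hc : addVal B (c : B) = (n - e' : ℕ) := by
          have h1 : addVal B ((ϖ : B) * (c : B)) = n := hx
          rw [addVal_mul, hϖ] at h1
          have hc0 : addVal B (c : B) ≠ ⊤ := by
            intro h; rw [h, add_top] at h1; exact ENat.top_ne_natCast _ h1
          lift addVal B (c : B) to ℕ using hc0 with m hm
          have : e' + m = n := by exact_mod_cast h1
          have : m = n - e' := by omega
          rw [this]
        obtain ⟨k, hk⟩ := ih (n - e') (by omega) c hc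
        refine ⟨k + 1, ?_⟩
        rw [pow_succ, mul_comm]
        exact hk.mul_left ϖ
  intro x hx
  have hx' : addVal B (x : B) ≠ ⊤ := by
    rw [Ne, addVal_eq_top_iff]
    exact fun h => hx (Subtype.ext h)
  lift addVal B (x : B) to ℕ using hx' with n hn
  exact key n x hn.symm

end Invariants


section TotRamBasics

variable {B : Type*} [CommRing B] [IsDomain B] [IsDiscreteValuationRing B]
variable {G : Type*} [Group G] [Fintype G] [MulSemiringAction G B]
variable {A : Subring B} {π : B} (h : TotRam G A π)

include h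

/-- The base ring of totally ramified Galois data is a discrete valuation ring. -/
theorem isDiscreteValuationRing_base : IsDiscreteValuationRing A :=
  isDiscreteValuationRing_of_invariants A h.fixed h.mem_of_fixed

/-- `B = A[π]` in the `Algebra.adjoin` form. -/
theorem adjoin_eq_top : Algebra.adjoin A {π} = ⊤ := by
  rw [eq_top_iff]
  intro b _
  obtain ⟨q, rfl⟩ := h.gen b
  exact Polynomial.aeval_mem_adjoin_singleton _ _

/-- `π` is integral over `A`. -/
theorem isIntegral_pi : IsIntegral A π := ⟨h.polyA, h.polyA_monic, by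
  have := h.aeval_polyA_self
  rwa [aeval_def] at this⟩

/-- `B` is a finite `A`-module. -/
theorem module_finite : Module.Finite A B := by
  refine ⟨?_⟩
  rw [← Algebra.top_toSubmodule, ← adjoin_eq_top h]
  exact (isIntegral_pi h).fg_adjoin_singleton

end TotRamBasics


section Generation

variable {B : Type*} [CommRing B] [IsDomain B] [IsDiscreteValuationRing B]
variable {G : Type*} [Group G] [Fintype G] [MulSemiringAction G B]
variable {A : Subring B} {π : B} (h : TotRam G A π)

include h

theorem le_fixedPoints (H : Subgroup G) : A ≤ FixedPoints.subring B H :=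
  fun a ha σ => h.fixed (σ : G) a ha

/-- **Generation lemma.**  For totally ramified Galois data `(B, G, A, π)` and a subgroup `H ≤ G`,
the ring of invariants `R = B^H` is generated over `A` by any of its uniformizers. -/
theorem exists_aeval_eq_of_mem_invariants (R : Subring B) {H' : Type*} [Group H'] [Finite H']
    [MulSemiringAction H' B] (hfixR : ∀ σ : H', ∀ r ∈ R, σ • r = r)
    (hmemR : ∀ b : B, (∀ σ : H', σ • b = b) → b ∈ R) (hAR : A ≤ R) {ϖ : R}
    (hϖ : Irreducible ϖ) (r : B) (hr : r ∈ R) :
    ∃ q : A[X], aeval (ϖ : B) q = r := by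
  classical
  have hdvrR : IsDiscreteValuationRing R := isDiscreteValuationRing_of_invariants R hfixR hmemR
  have hdvrA : IsDiscreteValuationRing A := isDiscreteValuationRing_base h
  -- Step 1: successive approximation
  have step : ∀ k : ℕ, ∀ r : R, ∃ q : A[X], ∃ r' : R,
      (r : B) = aeval (ϖ : B) q + (ϖ : B) ^ k * (r' : B) := by
    intro k
    induction k with
    | zero => intro r; exact ⟨0, r, by simp⟩
    | succ k ih =>
      intro r
      obtain ⟨q, r', hq⟩ := ih r
      obtain ⟨a, ha⟩ := h.exists_rep (r' : B)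
      set d : R := r' - ⟨a, hAR a.2⟩ with hd
      have hdnu : ¬ IsUnit d := by
        intro hu
        have hu' : IsUnit (d : B) := hu.map R.subtype
        have : IsUnit π := isUnit_of_dvd_unit ha hu'
        exact h.irr.not_isUnit this
      have hdm : d ∈ IsLocalRing.maximalIdeal R := (mem_maximalIdeal d).mpr hdnu
      rw [(irreducible_iff_uniformizer ϖ).mp hϖ, Ideal.mem_span_singleton] at hdm
      obtain ⟨r'', hr''⟩ := hdm
      refine ⟨q + C a * X ^ k, r'', ?_⟩
      have h1 : (r' : B) = (a : B) + (ϖ : B) * (r'' : B) := by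
        have := congrArg (fun z : R => (z : B)) hr''
        have h2 : ((d : R) : B) = (r' : B) - (a : B) := rfl
        have h3 : ((ϖ * r'' : R) : B) = (ϖ : B) * (r'' : B) := rfl
        simp only [h2, h3] at this
        rw [← this]; ring
      have h4 : algebraMap A B a = (a : B) := rfl
      rw [hq, h1, map_add, map_mul, aeval_C, map_pow, aeval_X, pow_succ, h4]
      ring
  -- Step 2: `ϖ ^ n` is a multiple of the norm of `π` inside `R`
  set n := Fintype.card G with hn
  have hνR : (h.normPi : B) ∈ R := hAR h.normPi.2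
  have hν0 : (⟨(h.normPi : B), hνR⟩ : R) ≠ 0 := fun h0 =>
    h.normPi_ne_zero (congrArg (fun z : R => (z : B)) h0)
  have hϖ1 : 1 ≤ addVal B (ϖ : B) := by
    rw [Order.one_le_iff_ne_zero, Ne, addVal_eq_zero_iff]
    intro hu
    exact hϖ.not_isUnit (isUnit_of_isUnit_coe R hfixR hmemR hu)
  have hdvdB : (h.normPi : B) ∣ (ϖ : B) ^ n := by
    rw [← addVal_le_iff_dvd, h.addVal_normPi, addVal_pow]
    calc (n : ℕ∞) = n • (1 : ℕ∞) := by simp
      _ ≤ n • addVal B (ϖ : B) := nsmul_le_nsmul_right hϖ1 n
  obtain ⟨c, hc⟩ := dvd_of_dvd_coe R hfixR hmemR (r := ϖ ^ n) hν0 (by simpa using hdvdB)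
  -- Step 3: Nakayama
  have hfin : Module.Finite A B := module_finite h
  have hnoeth : IsNoetherian A B := isNoetherian_of_isNoetherianRing_of_finite A B
  let N' : Submodule A B :=
    { carrier := R
      add_mem' := fun ha hb => R.add_mem ha hb
      zero_mem' := R.zero_mem
      smul_mem' := fun a b hb => R.mul_mem (hAR a.2) hb }
  let N : Submodule A B := (Algebra.adjoin A {(ϖ : B)}).toSubmodule
  have hfg : N'.FG := IsNoetherian.noetherian N'
  have hνm : h.normPi ∈ IsLocalRing.maximalIdeal A := by
    rw [mem_maximalIdeal, mem_nonunits_iff]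
    intro hu
    have hu' : IsUnit (h.normPi : B) := hu.map A.subtype
    rw [← addVal_eq_zero_iff, h.addVal_normPi] at hu'
    have : n = 0 := by exact_mod_cast hu'
    exact Fintype.card_ne_zero this
  have hNN : N' ≤ N ⊔ IsLocalRing.maximalIdeal A • N' := by
    intro r hr
    obtain ⟨q, r', hq⟩ := step n ⟨r, hr⟩
    have hq' : r = aeval (ϖ : B) q + (ϖ : B) ^ n * (r' : B) := hq
    rw [hq']
    refine Submodule.add_mem_sup (Polynomial.aeval_mem_adjoin_singleton _ _) ?_
    have h2 : (ϖ : B) ^ n * (r' : B) = h.normPi • ((c : B) * (r' : B)) := by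
      have := congrArg (fun z : R => (z : B)) hc
      simp only [Subring.coe_pow, Subring.coe_mul] at this
      rw [this, Subring.smul_def, smul_eq_mul, mul_assoc]
    rw [h2]
    exact Submodule.smul_mem_smul hνm (R.mul_mem c.2 r'.2)
  have hle : N' ≤ N :=
    Submodule.le_of_le_smul_of_le_jacobson_bot hfg (maximalIdeal_le_jacobson ⊥) hNN
  have hrN : r ∈ N := hle hr
  have : r ∈ Algebra.adjoin A {(ϖ : B)} := hrN
  rw [Algebra.adjoin_singleton_eq_range_aeval] at this
  obtain ⟨q, hq⟩ := this
  exact ⟨q, hq⟩

end Generation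


section Instances

variable {B : Type*} [CommRing B] [IsDomain B] [IsDiscreteValuationRing B]
variable {H' : Type*} [Group H'] [Finite H'] [MulSemiringAction H' B]

/-- The invariants of a finite group acting on a discrete valuation ring form a discrete valuation
ring. -/
instance isDiscreteValuationRing_fixedPoints : IsDiscreteValuationRing (FixedPoints.subring B H') :=
  isDiscreteValuationRing_of_invariants (H := H') (FixedPoints.subring B H')
    (fun σ _ hr => hr σ) (fun _ hb => hb)

/-- The inclusion of the ring of invariants is a local homomorphism. -/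
instance isLocalHom_fixedPoints : IsLocalHom (algebraMap (FixedPoints.subring B H') B) :=
  ⟨fun _ hr => isUnit_of_isUnit_coe (H := H') (FixedPoints.subring B H')
    (fun σ _ hr => hr σ) (fun _ hb => hb) hr⟩

end Instances

section Sub

variable {B : Type*} [CommRing B] [IsDomain B] [IsDiscreteValuationRing B]
variable {G : Type*} [Group G] [Fintype G] [MulSemiringAction G B]
variable {A : Subring B} {π : B} (h : TotRam G A π)

include h

/-- Totally ramified Galois data for a subgroup: `(B, H, B^H, π)`. -/
theorem totRam_subgroup (H : Subgroup G) [Fintype H] : TotRam H (FixedPoints.subring B H) π where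
  irr := h.irr
  fixed := fun σ _ ha => ha σ
  mem_of_fixed := fun _ hb => hb
  gen := fun b => by
    obtain ⟨q, hq⟩ := h.gen b
    refine ⟨q.map (Subring.inclusion (le_fixedPoints h H)), ?_⟩
    rw [← hq, aeval_def, aeval_def, eval₂_map]
    rfl
  faithful := fun σ hσ => Subtype.ext (h.faithful σ hσ)

end Sub


section Quot

variable {B : Type*} [CommRing B] [IsDomain B] [IsDiscreteValuationRing B]
variable {G : Type*} [Group G] [Fintype G] [MulSemiringAction G B]
variable {A : Subring B} {π : B} (h : TotRam G A π)

omit [IsDomain B] [IsDiscreteValuationRing B] [Fintype G] in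
/-- The action of `G ⧸ H` on `B^H` is induced by the action of `G`. -/
theorem coe_mk_smul (H : Subgroup G) [H.Normal] (σ : G) (x : FixedPoints.subring B H) :
    (((σ : G ⧸ H) • x : FixedPoints.subring B H) : B) = σ • (x : B) := rfl

include h

/-- An element of `G` fixing a uniformizer of `B^H` lies in `H`. -/
theorem mem_of_smul_uniformizer_eq (H : Subgroup G) {ϖ : FixedPoints.subring B H}
    (hϖ : Irreducible ϖ) {σ : G} (hσ : σ • (ϖ : B) = ϖ) : σ ∈ H := by
  classical
  have : Fintype H := Fintype.ofFinite H
  -- `σ` fixes `B^H` pointwise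
  have hfixR : ∀ r ∈ FixedPoints.subring B H, σ • r = r := by
    intro r hr
    obtain ⟨q, rfl⟩ := exists_aeval_eq_of_mem_invariants h (FixedPoints.subring B H) (H' := H)
      (fun τ _ hr => hr τ) (fun _ hb => hb) (le_fixedPoints h H) hϖ r hr
    rw [smul_aeval A σ (h.fixed σ), hσ]
  -- hence `σ` fixes the polynomial `∏_{τ ∈ H} (X - τ π)`
  have hmap : (polyB H π).map (MulSemiringAction.toRingHom G B σ) = polyB H π := by
    ext j
    rw [coeff_map]
    exact hfixR _ fun τ => polyB_coeff_fixed π τ j
  have hroot : (polyB H π).eval (σ • π) = 0 := by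
    have h0 : (polyB H π).eval π = 0 := by
      rw [eval_polyB]
      exact Finset.prod_eq_zero (Finset.mem_univ (1 : H)) (by simp)
    calc (polyB H π).eval (σ • π)
        = ((polyB H π).map (MulSemiringAction.toRingHom G B σ)).eval
            (MulSemiringAction.toRingHom G B σ π) := by rw [hmap]; rfl
      _ = MulSemiringAction.toRingHom G B σ ((polyB H π).eval π) := eval_map_apply _ _
      _ = 0 := by rw [h0, map_zero]
  rw [eval_polyB, Finset.prod_eq_zero_iff] at hroot
  obtain ⟨τ, -, hτ⟩ := hroot
  rw [sub_eq_zero] at hτ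
  have h2 : ((τ : G)⁻¹ * σ) • π = π := by
    rw [mul_smul, hτ]
    exact inv_smul_smul (τ : G) π
  have h3 := h.faithful _ h2
  rw [inv_mul_eq_one] at h3
  rw [← h3]
  exact τ.2

end Quot


section Quot2

variable {B : Type*} [CommRing B] [IsDomain B] [IsDiscreteValuationRing B]
variable {G : Type*} [Group G] [Fintype G] [MulSemiringAction G B]
variable {A : Subring B} {π : B} (h : TotRam G A π)

include h

/-- Totally ramified Galois data for a quotient: `(B^H, G ⧸ H, A, ϖ)` for any uniformizer `ϖ` of
`B^H` (`A` viewed as a subring of `B^H`). -/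
theorem totRam_quotient (H : Subgroup G) [H.Normal] [Fintype (G ⧸ H)]
    {ϖ : FixedPoints.subring B H} (hϖ : Irreducible ϖ) :
    TotRam (G ⧸ H) (A.comap (FixedPoints.subring B H).subtype) ϖ where
  irr := hϖ
  fixed := by
    intro σ' a ha
    induction σ' using QuotientGroup.induction_on with
    | H σ =>
      apply Subtype.ext
      rw [coe_mk_smul]
      exact h.fixed σ _ ha
  mem_of_fixed := by
    intro b hb
    change (b : B) ∈ A
    apply h.mem_of_fixed
    intro σ
    have := congrArg (fun z : FixedPoints.subring B H => (z : B)) (hb (σ : G ⧸ H))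
    simpa [coe_mk_smul] using this
  gen := by
    intro b
    obtain ⟨q, hq⟩ := exists_aeval_eq_of_mem_invariants h (FixedPoints.subring B H) (H' := H)
      (fun τ _ hr => hr τ) (fun _ hb => hb) (le_fixedPoints h H) hϖ (b : B) b.2
    let φ : A →+* (A.comap (FixedPoints.subring B H).subtype) :=
      { toFun := fun a => ⟨⟨a, le_fixedPoints h H a.2⟩, a.2⟩
        map_one' := rfl
        map_mul' := fun _ _ => rfl
        map_zero' := rfl
        map_add' := fun _ _ => rfl }
    refine ⟨q.map φ, ?_⟩
    apply Subtype.ext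
    rw [← hq, aeval_def, aeval_def, eval₂_map]
    have := Polynomial.hom_eval₂ q
      ((algebraMap (A.comap (FixedPoints.subring B H).subtype) (FixedPoints.subring B H)).comp φ)
      (FixedPoints.subring B H).subtype ϖ
    exact this
  faithful := by
    intro σ' hσ'
    induction σ' using QuotientGroup.induction_on with
    | H σ =>
      have h1 : σ • (ϖ : B) = ϖ := by
        have := congrArg (fun z : FixedPoints.subring B H => (z : B)) hσ'
        simpa [coe_mk_smul] using this
      exact (QuotientGroup.eq_one_iff σ).mpr (mem_of_smul_uniformizer_eq h H hϖ h1)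

end Quot2


section Formula

variable {B : Type*} [CommRing B] [IsDomain B] [IsDiscreteValuationRing B]
variable {G : Type*} [Group G] [Fintype G] [MulSemiringAction G B]
variable {A : Subring B} {π : B} (h : TotRam G A π)

include h

theorem faithfulSMul : FaithfulSMul G B :=
  ⟨fun {σ τ} hστ => by
    have h1 : (τ⁻¹ * σ) • π = π := by rw [mul_smul, hστ π, inv_smul_smul]
    have := h.faithful _ h1
    rw [inv_mul_eq_one] at this
    exact this.symm⟩

theorem smulCommClass : SMulCommClass G A B :=
  ⟨fun σ a b => by
    rw [Subring.smul_def, Subring.smul_def, smul_eq_mul, smul_eq_mul, smul_mul', h.fixed σ a a.2]⟩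

/-- The ramification index of `B` over `B^H` is `|H|`. -/
theorem eIdx_fixedPoints (H : Subgroup G) : eIdx (FixedPoints.subring B H) B = Nat.card H := by
  classical
  have : Fintype H := Fintype.ofFinite H
  obtain ⟨ϖ, hϖ⟩ := exists_irreducible (FixedPoints.subring B H)
  have hsub := totRam_subgroup h H
  have h1 : addVal B (ϖ : B) = eIdx (FixedPoints.subring B H) B :=
    addVal_algebraMap_irreducible (B := B) hϖ
  have hnu : ¬ IsUnit (ϖ : B) := fun hu =>
    hϖ.not_isUnit (isUnit_of_isUnit_coe (H := H) (FixedPoints.subring B H)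
      (fun σ _ hr => hr σ) (fun _ hb => hb) hu)
  have hπdvd : π ∣ (ϖ : B) := by
    have : (ϖ : B) ∈ IsLocalRing.maximalIdeal B := (mem_maximalIdeal _).mpr hnu
    rwa [(irreducible_iff_uniformizer π).mp h.irr, Ideal.mem_span_singleton] at this
  have hle : (Fintype.card H : ℕ∞) ≤ addVal B (ϖ : B) := hsub.le_addVal_of_dvd ϖ hπdvd
  have hge : addVal B (ϖ : B) ≤ Fintype.card H := by
    rw [← hsub.addVal_normPi]
    -- `ϖ` divides the norm of `π` (a non-unit of `B^H`)
    have hN : ¬ IsUnit hsub.normPi := by
      intro hu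
      have hu' : IsUnit (hsub.normPi : B) := hu.map (FixedPoints.subring B H).subtype
      rw [← addVal_eq_zero_iff, hsub.addVal_normPi] at hu'
      have : Fintype.card H = 0 := by exact_mod_cast hu'
      exact Fintype.card_ne_zero this
    have : hsub.normPi ∈ IsLocalRing.maximalIdeal (FixedPoints.subring B H) :=
      (mem_maximalIdeal _).mpr hN
    rw [(irreducible_iff_uniformizer ϖ).mp hϖ, Ideal.mem_span_singleton] at this
    obtain ⟨c, hc⟩ := this
    rw [addVal_le_iff_dvd]
    exact ⟨c, congrArg (fun z : FixedPoints.subring B H => (z : B)) hc⟩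
  have h2 : addVal B (ϖ : B) = Fintype.card H := le_antisymm hge hle
  rw [h1] at h2
  rw [Nat.card_eq_fintype_card]
  exact_mod_cast h2

end Formula


section Formula2

variable {B : Type*} [CommRing B] [IsDomain B] [IsDiscreteValuationRing B]
variable {G : Type*} [Group G] [Fintype G] [MulSemiringAction G B]
variable {A : Subring B} {π : B} (h : TotRam G A π)

include h

/-- **Quotient formula** for the ring of invariants of a normal subgroup:
`|H| · i_{G/H}(σ H) = ∑_{τ ∈ H} i_G(σ τ)`. -/
theorem quotient_formula_fixedPoints (H : Subgroup G) [H.Normal] (σ : G) :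
    (Nat.card H : ℕ∞) * iG (FixedPoints.subring B H) (σ : G ⧸ H) =
      ∑ᶠ τ : H, iG B (σ * (τ : G)) := by
  classical
  let _ : Algebra A (FixedPoints.subring B H) := (Subring.inclusion (le_fixedPoints h H)).toAlgebra
  have : IsScalarTower A (FixedPoints.subring B H) B := IsScalarTower.of_algebraMap_eq fun _ => rfl
  have := faithfulSMul h
  have := smulCommClass h
  have : SMulCommClass (G ⧸ H) A (FixedPoints.subring B H) := ⟨fun σ' a x => by
    induction σ' using QuotientGroup.induction_on with
    | H g =>
      apply Subtype.ext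
      change g • ((a : B) * (x : B)) = (a : B) * (g • (x : B))
      rw [smul_mul', h.fixed g a a.2]⟩
  have hr : ∀ (g : G) (z : FixedPoints.subring B H),
      algebraMap (FixedPoints.subring B H) B ((QuotientGroup.mk' H) g • z) =
        g • algebraMap (FixedPoints.subring B H) B z := fun _ _ => rfl
  have : Algebra.IsInvariant (FixedPoints.subring B H) B (QuotientGroup.mk' H).ker :=
    ⟨fun b hb => ⟨⟨b, fun τ => hb ⟨τ, by rw [QuotientGroup.ker_mk']; exact τ.2⟩⟩, rfl⟩⟩
  have key := HerbrandB67.quotient_formula' (A := A) (QuotientGroup.mk' H) hr (adjoin_eq_top h)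
    (QuotientGroup.mk'_surjective H) (σ : G ⧸ H)
  rw [eIdx_fixedPoints h H] at key
  rw [key, finsum_fibre_eq (QuotientGroup.mk' H) (σ' := (σ : G ⧸ H)) (σ₀ := σ) rfl (fun g => iG B g)]
  rw [← finsum_comp_equiv (MulEquiv.subgroupCongr (QuotientGroup.ker_mk' H)).toEquiv]
  rfl

/-- helper50's form of the quotient formula: for a uniformizer `ϖ` of `B^H`,
`v_B(σ ϖ - ϖ) = ∑_{τ ∈ H} i_G(σ τ)`. -/
theorem addVal_smul_sub_uniformizer (H : Subgroup G) [H.Normal] (σ : G)
    {ϖ : FixedPoints.subring B H} (hϖ : Irreducible ϖ) :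
    addVal B (σ • (ϖ : B) - ϖ) = ∑ᶠ τ : H, iG B (σ * (τ : G)) := by
  classical
  have : Fintype (G ⧸ H) := Fintype.ofFinite _
  rw [← quotient_formula_fixedPoints h H σ, Value.TotRam'.iG_eq (totRam_quotient h H hϖ),
    ← eIdx_fixedPoints h H, ← addVal_algebraMap]
  rfl

end Formula2

section HerbrandFixed

variable {B : Type*} [CommRing B] [IsDomain B] [IsDiscreteValuationRing B]
variable {G : Type*} [Group G] [Fintype G] [MulSemiringAction G B]
variable {A : Subring B} {π : B} (h : TotRam G A π)

include h

/-- The quotient formula for all classes of `G ⧸ H` at once (fibre form). -/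
theorem quotient_formula_fibre (H : Subgroup G) [H.Normal] (σ' : G ⧸ H) :
    (Nat.card H : ℕ∞) * iG (FixedPoints.subring B H) σ' =
      ∑ᶠ σ : {σ : G // (QuotientGroup.mk' H) σ = σ'}, iG B (σ : G) := by
  induction σ' using QuotientGroup.induction_on with
  | H σ =>
    rw [quotient_formula_fixedPoints h H σ,
      finsum_fibre_eq (QuotientGroup.mk' H) (σ' := (σ : G ⧸ H)) (σ₀ := σ) rfl (fun g => iG B g),
      ← finsum_comp_equiv (MulEquiv.subgroupCongr (QuotientGroup.ker_mk' H)).toEquiv]
    rfl

/-- **Herbrand's theorem** for `G ⧸ H` acting on `B^H`, Fontaine's form: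
`|H| · Φ_{G/H}(i_{G/H}(σ')) = Φ_G(max_{σ ↦ σ'} i_G(σ))`. -/
theorem herbrand_fixedPoints (H : Subgroup G) [H.Normal] (σ' : G ⧸ H) :
    (Nat.card H : ℕ∞) * upperIdx (iG (FixedPoints.subring B H) (G := G ⧸ H)) σ' =
      Phi (iG B (G := G)) (fibreMax (iG B) (QuotientGroup.mk' H) σ') :=
  mul_upperIdx_eq_Phi_fibreMax Herbrand67.isDepth_iG (QuotientGroup.mk'_surjective H)
    (quotient_formula_fibre h H) σ'

/-- **Herbrand's theorem** for `G ⧸ H` acting on `B^H`: the upper index of `σ'` is the maximum of the
upper indices of its lifts. -/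
theorem herbrand_fixedPoints_iSup (H : Subgroup G) [H.Normal] (σ' : G ⧸ H) :
    (Nat.card H : ℕ∞) * upperIdx (iG (FixedPoints.subring B H) (G := G ⧸ H)) σ' =
      ⨆ σ : {σ : G // (QuotientGroup.mk' H) σ = σ'}, upperIdx (iG B (G := G)) (σ : G) :=
  mul_upperIdx_eq_iSup Herbrand67.isDepth_iG (QuotientGroup.mk'_surjective H)
    (quotient_formula_fibre h H) σ'

end HerbrandFixed

end Fermat.Agent.TW.Ram50.Quot67
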