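/-
Programme TW (S56), brick B5-R (ramification chapter), helper67's share (joint with helper50).

`Wild67`: the wild inertia group is a `p`-group.

`B` a DVR with residue characteristic `p` (`(p : B) ∈ 𝔪`), `G` a group acting on `B`.
* `le_addVal_smul_sub` : `σ ∈ G_{n-1}` (`n ≤ i_G σ`), `v(c) ≥ m ≥ 1`  ⇒  `v(σ c - c) ≥ m + n - 1`
  (Serre, Local Fields IV §2 Lemma 1).
* `pow_prime_mem_lowerGroup` : `n ≥ 2`, `σ ∈ lowerGroup n`  ⇒  `σ ^ p ∈ lowerGroup (n + 1)`.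
* `isPGroup_lowerGroup_two` : for `G` finite acting faithfully, `lowerGroup B G 2` (= `G_1`) is a `p`-group.
* `mem_of_two_le_iG` : a normal subgroup `H0` of index prime to `p` contains every `σ` with `2 ≤ i_G σ`
  (this is hypothesis `hH0` of `Consumer.break_bound`).
-/
import Fermat.Agent.TW.Ram50.Lower

set_option autoImplicit false

namespace Fermat.Agent.TW.Ram50.Wild67

open IsDiscreteValuationRing IsLocalRing
open Fermat.Agent.TW.Ram50.Lower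

variable {B : Type*} [CommRing B] [IsDomain B] [IsDiscreteValuationRing B]
variable {G : Type*} [Group G] [MulSemiringAction G B]

/-- `σ ∈ G_{n-1}`, `v(c) ≥ m + 1`  ⇒  `v(σ c - c) ≥ m + n`. -/
theorem le_addVal_smul_sub {σ : G} {n : ℕ} (hσ : (n : ℕ∞) ≤ iG B σ) {m : ℕ} {c : B}
    (hc : ((m + 1 : ℕ) : ℕ∞) ≤ addVal B c) : ((m + n : ℕ) : ℕ∞) ≤ addVal B (σ • c - c) := by
  obtain ⟨ϖ, hϖ⟩ := exists_irreducible B
  have hdvd : ϖ ^ (m + 1) ∣ c := by
    rw [← addVal_le_iff_dvd, hϖ.addVal_pow]; exact hc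
  obtain ⟨c', rfl⟩ := hdvd
  have h1 : σ • (ϖ ^ (m + 1) * c') - ϖ ^ (m + 1) * c' =
      (σ • ϖ) ^ (m + 1) * (σ • c' - c') + ((σ • ϖ) ^ (m + 1) - ϖ ^ (m + 1)) * c' := by
    rw [smul_mul', smul_pow']; ring
  rw [h1]
  refine le_trans ?_ addVal_add
  refine le_min ?_ ?_
  · rw [addVal_mul, addVal_pow, addVal_smul, addVal_uniformizer hϖ]
    have h2 : (n : ℕ∞) ≤ addVal B (σ • c' - c') := hσ.trans (iG_le σ c')
    calc ((m + n : ℕ) : ℕ∞) = (m : ℕ∞) + n := by push_cast; rfl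
      _ ≤ (m + 1 : ℕ) • (1 : ℕ∞) + addVal B (σ • c' - c') := by
        refine add_le_add ?_ h2
        simp
  · rw [← geom_sum₂_mul, addVal_mul, addVal_mul]
    refine le_trans ?_ le_self_add
    have h2 : (n : ℕ∞) ≤ addVal B (σ • ϖ - ϖ) := hσ.trans (iG_le σ ϖ)
    have h3 : (m : ℕ∞) ≤ addVal B (∑ i ∈ Finset.range (m + 1), (σ • ϖ) ^ i * ϖ ^ (m + 1 - 1 - i)) := by
      apply (addVal B).map_le_sum
      intro i hi
      rw [Finset.mem_range] at hi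
      rw [addVal_mul, addVal_pow, addVal_pow, addVal_smul, addVal_uniformizer hϖ]
      have : i + (m + 1 - 1 - i) = m := by omega
      rw [← add_nsmul, this]
      simp
    calc ((m + n : ℕ) : ℕ∞) = (m : ℕ∞) + n := by push_cast; rfl
      _ ≤ _ := add_le_add h3 h2

/-- `σ ^ k` lies in the same lower ramification group as `σ`. -/
theorem le_iG_pow {σ : G} {n : ℕ∞} (hσ : n ≤ iG B σ) (k : ℕ) : n ≤ iG B (σ ^ k) :=
  (lowerGroup B G n).pow_mem hσ k

/-- Modulo `𝔪^(n+1)`, `σ^k b - b ≡ k (σ b - b)` for `σ ∈ G_{n-1}`, `n ≥ 2`. -/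
theorem le_addVal_pow_smul_sub {σ : G} {n : ℕ} (hn : 2 ≤ n) (hσ : (n : ℕ∞) ≤ iG B σ) (b : B)
    (k : ℕ) : ((n + 1 : ℕ) : ℕ∞) ≤ addVal B ((σ ^ k • b - b) - k • (σ • b - b)) := by
  induction k with
  | zero => simp
  | succ k ih =>
    have h1 : (σ ^ (k + 1) • b - b) - (k + 1) • (σ • b - b) =
        (σ ^ k • (σ • b - b) - (σ • b - b)) + ((σ ^ k • b - b) - k • (σ • b - b)) := by
      rw [pow_succ, mul_smul, smul_sub, succ_nsmul, smul_sub]; ring
    rw [h1]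
    refine le_trans (le_min ?_ ih) addVal_add
    obtain ⟨n', rfl⟩ : ∃ n', n = n' + 1 := ⟨n - 1, by omega⟩
    have hδ : ((n' + 1 : ℕ) : ℕ∞) ≤ addVal B (σ • b - b) := hσ.trans (iG_le σ b)
    have := le_addVal_smul_sub (le_iG_pow hσ k) hδ
    refine le_trans ?_ this
    have : n' + 1 + 1 ≤ n' + (n' + 1) := by omega
    exact_mod_cast this

/-- In residue characteristic `p`: `σ ∈ G_{n-1}`, `n ≥ 2`  ⇒  `σ ^ p ∈ G_n`. -/
theorem pow_prime_mem_lowerGroup {p : ℕ} (hp : (p : B) ∈ IsLocalRing.maximalIdeal B) {σ : G} {n : ℕ}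
    (hn : 2 ≤ n) (hσ : (n : ℕ∞) ≤ iG B σ) : ((n + 1 : ℕ) : ℕ∞) ≤ iG B (σ ^ p) := by
  rw [le_iG_iff]
  intro b
  have h1 := le_addVal_pow_smul_sub hn hσ b p
  have h2 : ((n + 1 : ℕ) : ℕ∞) ≤ addVal B (p • (σ • b - b)) := by
    rw [nsmul_eq_mul, addVal_mul]
    have hp1 : (1 : ℕ∞) ≤ addVal B (p : B) := by
      rw [Order.one_le_iff_ne_zero, Ne, addVal_eq_zero_iff]
      exact (mem_maximalIdeal _).mp hp
    have hδ : (n : ℕ∞) ≤ addVal B (σ • b - b) := hσ.trans (iG_le σ b)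
    calc ((n + 1 : ℕ) : ℕ∞) = 1 + (n : ℕ∞) := by push_cast; rw [add_comm]
      _ ≤ _ := add_le_add hp1 hδ
  have h3 : σ ^ p • b - b = ((σ ^ p • b - b) - p • (σ • b - b)) + p • (σ • b - b) := by ring
  rw [h3]
  exact le_trans (le_min h1 h2) addVal_add

/-- Iteration: `σ ∈ G_{n-1}`, `n ≥ 2`  ⇒  `σ ^ (p ^ k) ∈ G_{n+k-1}`. -/
theorem pow_prime_pow_mem_lowerGroup {p : ℕ} (hp : (p : B) ∈ IsLocalRing.maximalIdeal B) {σ : G} {n : ℕ}
    (hn : 2 ≤ n) (hσ : (n : ℕ∞) ≤ iG B σ) (k : ℕ) :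
    ((n + k : ℕ) : ℕ∞) ≤ iG B (σ ^ p ^ k) := by
  induction k with
  | zero => simpa using hσ
  | succ k ih =>
    rw [pow_succ, pow_mul]
    have h2 : 2 ≤ n + k := by omega
    exact pow_prime_mem_lowerGroup hp h2 ih

section Finite

variable [Finite G] [FaithfulSMul G B]

omit [Finite G] in
theorem iG_ne_top_of_ne_one {σ : G} (hσ : σ ≠ 1) : iG B σ ≠ ⊤ := by
  rw [Ne, iG_eq_top_iff]
  intro h
  exact hσ (eq_of_smul_eq_smul (α := B) fun b => by rw [h b, one_smul])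

/-- A uniform bound for the depth of the nontrivial elements of a finite group acting faithfully. -/
theorem exists_iG_le : ∃ M : ℕ, ∀ σ : G, σ ≠ 1 → iG B σ ≤ M := by
  classical
  cases nonempty_fintype G
  refine ⟨∑ σ : G, (iG B σ).toNat, fun σ hσ => ?_⟩
  have h1 : iG B σ = ((iG B σ).toNat : ℕ∞) := (ENat.natCast_toNat (iG_ne_top_of_ne_one hσ)).symm
  rw [h1]
  have : (iG B σ).toNat ≤ ∑ τ : G, (iG B τ).toNat :=
    Finset.single_le_sum (f := fun τ : G => (iG B τ).toNat) (fun _ _ => Nat.zero_le _)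
      (Finset.mem_univ σ)
  exact_mod_cast this

/-- **The wild inertia group `G_1` is a `p`-group** (`p` the residue characteristic). -/
theorem exists_pow_prime_pow_eq_one {p : ℕ} (hp : (p : B) ∈ IsLocalRing.maximalIdeal B) {σ : G}
    (hσ : 2 ≤ iG B σ) : ∃ k : ℕ, σ ^ p ^ k = 1 := by
  obtain ⟨M, hM⟩ := exists_iG_le (B := B) (G := G)
  refine ⟨M, ?_⟩
  by_contra hne
  have h1 := hM _ hne
  have h2 := pow_prime_pow_mem_lowerGroup hp (n := 2) le_rfl (by exact_mod_cast hσ) M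
  have h3 : ((2 + M : ℕ) : ℕ∞) ≤ (M : ℕ∞) := h2.trans h1
  have : 2 + M ≤ M := by exact_mod_cast h3
  omega

theorem isPGroup_lowerGroup_two {p : ℕ} (hp : (p : B) ∈ IsLocalRing.maximalIdeal B) :
    IsPGroup p (lowerGroup B G 2) := by
  intro σ
  obtain ⟨k, hk⟩ := exists_pow_prime_pow_eq_one hp (σ := (σ : G)) σ.2
  exact ⟨k, Subtype.ext (by simpa using hk)⟩

/-- A normal subgroup of index prime to `p` contains the wild inertia group: this is the hypothesis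
`hH0` of `Consumer.break_bound`. -/
theorem mem_of_two_le_iG {p : ℕ} [Fact p.Prime] (hp : (p : B) ∈ IsLocalRing.maximalIdeal B) (H0 : Subgroup G)
    [H0.Normal] (hidx : ¬ p ∣ H0.index) {σ : G} (hσ : 2 ≤ iG B σ) : σ ∈ H0 := by
  obtain ⟨k, hk⟩ := exists_pow_prime_pow_eq_one hp hσ
  rw [← QuotientGroup.eq_one_iff]
  have h1 : ((σ : G ⧸ H0)) ^ p ^ k = 1 := by
    rw [← QuotientGroup.mk_pow, hk]; rfl
  have h2 : orderOf (σ : G ⧸ H0) ∣ p ^ k := orderOf_dvd_of_pow_eq_one h1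
  have h3 : orderOf (σ : G ⧸ H0) ∣ Nat.card (G ⧸ H0) := orderOf_dvd_natCard _
  have hcop : Nat.Coprime (p ^ k) (Nat.card (G ⧸ H0)) := by
    apply Nat.Coprime.pow_left
    rw [Nat.Prime.coprime_iff_not_dvd (Fact.out)]
    rwa [← Subgroup.index_eq_card]
  have h4 : orderOf (σ : G ⧸ H0) = 1 := Nat.eq_one_of_dvd_coprimes hcop h2 h3
  exact orderOf_eq_one_iff.mp h4

end Finite

end Fermat.Agent.TW.Ram50.Wild67
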