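/-
Programme TW (S56), brick B5-R (ramification chapter), file Layer67 (helper67).

`Consumer.break_bound` (helper50) instantiated at the canonical tower of rings of invariants:
for totally ramified Galois data `(B, G, A, π)`, a subgroup `H0 ≤ G` containing all elements of
depth `≥ 2`, and a normal subgroup `H1 ⊴ H0`, take
  `A0 = B^{H0}`,  `B' = B^{H1}`,  `G' = H0 ⧸ H1`.
All the tower hypotheses of `break_bound` (`hx`, `hy`, `he`, invariance, …) are discharged here
from `Quot67`; what remains is the arithmetic input: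
  * `(P_m)` (`PmHyp`), finite residue field, `π ∣ p`;
  * all nontrivial elements of `H0 ⧸ H1` have depth `b + 1` on `B^{H1}`.
Conclusion: `(p - 1) (|G| + |H0| b) ≤ p · v_B(p)`.

`break_bound_of_index`: the hypothesis "`H0` contains all elements of depth `≥ 2`" is replaced by
"`H0` is normal of index prime to `p`" (`Wild67.mem_of_two_le_iG`).
-/
import Mathlib
import Fermat.Agent.TW.Ram50.Consumer
import Fermat.Agent.TW.Ram50.Quot67
import Fermat.Agent.TW.Ram50.Wild67

set_option autoImplicit false
set_option linter.unusedSectionVars false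

namespace Fermat.Agent.TW.Ram50.Layer67

open IsDiscreteValuationRing Polynomial IsLocalRing
open Fermat.Agent.TW.Ram50.Lower Fermat.Agent.TW.Ram50.Norm Fermat.Agent.TW.Ram50.RamIdx67
open Fermat.Agent.TW.Ram50.Comb67 Fermat.Agent.TW.Ram50.Converse

universe u

variable {B : Type u} [CommRing B] [IsDomain B] [IsDiscreteValuationRing B]
variable {G : Type*} [Group G] [Fintype G] [MulSemiringAction G B]
variable {A : Subring B} {π : B}

/-- A uniformizer of the ring of invariants `B^H` generates it over the base ring `A`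
(algebra form of `Quot67.exists_aeval_eq_of_mem_invariants`). -/
theorem adjoin_uniformizer_eq_top (h : TotRam G A π) (H : Subgroup G)
    [Algebra A (FixedPoints.subring B H)] [IsScalarTower A (FixedPoints.subring B H) B]
    {ϖ : FixedPoints.subring B H} (hϖ : Irreducible ϖ) :
    Algebra.adjoin A {ϖ} = ⊤ := by
  classical
  rw [eq_top_iff]
  intro r _
  obtain ⟨q, hq⟩ := Quot67.exists_aeval_eq_of_mem_invariants h (FixedPoints.subring B H) (H' := H)
    (fun τ _ hr => hr τ) (fun _ hb => hb) (Quot67.le_fixedPoints h H) hϖ (r : B) r.2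
  have h1 : aeval ϖ q = r := by
    apply Subtype.ext
    have := Polynomial.aeval_algebraMap_apply (A := FixedPoints.subring B H) B ϖ q
    rw [← hq]
    exact this.symm
  rw [← h1, Algebra.adjoin_singleton_eq_range_aeval]
  exact ⟨q, rfl⟩

/-- **Break bound for a layer of rings of invariants.** -/
theorem break_bound_fixedPoints (h : TotRam G A π) [Finite (ResidueField B)] (p : ℕ)
    (hpB : π ∣ (p : B)) (hPm : PmHyp B A p)
    (H0 : Subgroup G) (hH0 : ∀ σ : G, 2 ≤ iG B σ → σ ∈ H0)
    (H1 : Subgroup H0) [H1.Normal]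
    (b : ℕ) (hb : ∀ σ' : H0 ⧸ H1, σ' ≠ 1 → iG (FixedPoints.subring B H1) σ' = (b + 1 : ℕ))
    (σ'0 : H0 ⧸ H1) (hσ'0 : σ'0 ≠ 1) :
    (((p - 1) * (Nat.card G + Nat.card H0 * b) : ℕ) : ℕ∞) ≤ p * addVal B (p : B) := by
  classical
  have : Fintype H0 := Fintype.ofFinite H0
  have h0 : TotRam H0 (FixedPoints.subring B H0) π := Quot67.totRam_subgroup h H0
  let _ : Algebra (FixedPoints.subring B H0) (FixedPoints.subring B H1) :=
    (Subring.inclusion (Quot67.le_fixedPoints h0 H1)).toAlgebra
  have : IsScalarTower (FixedPoints.subring B H0) (FixedPoints.subring B H1) B :=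
    IsScalarTower.of_algebraMap_eq fun _ => rfl
  have := Quot67.smulCommClass h0
  have : SMulCommClass (H0 ⧸ H1) (FixedPoints.subring B H0) (FixedPoints.subring B H1) :=
    ⟨fun σ' a x => by
      induction σ' using QuotientGroup.induction_on with
      | H g =>
        apply Subtype.ext
        change g • ((a : B) * (x : B)) = (a : B) * (g • (x : B))
        rw [smul_mul', h0.fixed g a a.2]⟩
  have hr : ∀ (g : H0) (z : FixedPoints.subring B H1),
      algebraMap (FixedPoints.subring B H1) B ((QuotientGroup.mk' H1) g • z) =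
        g • algebraMap (FixedPoints.subring B H1) B z := fun _ _ => rfl
  have : Algebra.IsInvariant (FixedPoints.subring B H1) B (QuotientGroup.mk' H1).ker :=
    ⟨fun b hb => ⟨⟨b, fun τ => hb ⟨τ, by rw [QuotientGroup.ker_mk']; exact τ.2⟩⟩, rfl⟩⟩
  obtain ⟨ϖ, hϖ⟩ := exists_irreducible (FixedPoints.subring B H1)
  have hy : Algebra.adjoin (FixedPoints.subring B H0) {ϖ} = ⊤ :=
    adjoin_uniformizer_eq_top h0 H1 hϖ
  have he : eIdx (FixedPoints.subring B H1) B * Nat.card (H0 ⧸ H1) = Nat.card H0 := by
    rw [Quot67.eIdx_fixedPoints h0 H1, mul_comm]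
    exact (Subgroup.card_eq_card_quotient_mul_card_subgroup H1).symm
  exact Consumer.break_bound h p hpB hPm H0 hH0 (A0 := FixedPoints.subring B H0)
    (B' := FixedPoints.subring B H1) (G' := H0 ⧸ H1) (QuotientGroup.mk' H1) hr
    (QuotientGroup.mk'_surjective H1) (Quot67.adjoin_eq_top h0) hy he b hb σ'0 hσ'0

/-- **Break bound for a layer of rings of invariants above a tame base**: `H0 ⊴ G` of index prime
to the residue characteristic `p`. -/
theorem break_bound_of_index (h : TotRam G A π) [Finite (ResidueField B)] (p : ℕ) [Fact p.Prime]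
    (hpB : π ∣ (p : B)) (hPm : PmHyp B A p)
    (H0 : Subgroup G) [H0.Normal] (hidx : ¬ p ∣ H0.index)
    (H1 : Subgroup H0) [H1.Normal]
    (b : ℕ) (hb : ∀ σ' : H0 ⧸ H1, σ' ≠ 1 → iG (FixedPoints.subring B H1) σ' = (b + 1 : ℕ))
    (σ'0 : H0 ⧸ H1) (hσ'0 : σ'0 ≠ 1) :
    (((p - 1) * (Nat.card G + Nat.card H0 * b) : ℕ) : ℕ∞) ≤ p * addVal B (p : B) := by
  refine break_bound_fixedPoints h p hpB hPm H0 ?_ H1 b hb σ'0 hσ'0
  intro σ hσ
  have := Quot67.faithfulSMul h
  have hp : (p : B) ∈ IsLocalRing.maximalIdeal B := by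
    rw [mem_maximalIdeal, mem_nonunits_iff]
    intro hu
    exact h.irr.not_isUnit (isUnit_of_dvd_unit hpB hu)
  exact Wild67.mem_of_two_le_iG hp H0 hidx hσ

end Fermat.Agent.TW.Ram50.Layer67
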