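/-
Programme TW (S56), brick B5-R (ramification chapter), file 10 (helper50).

INSTANTIATION of the abstract ramification chapter (`Ram50/*`) at the model of `p`-adic fields of
`PT/LOC/Interface12` (`𝒪 = intRing p E`), used by helper8's Kummer chapter (`Ram8/*`).

* dictionary `addVal (intRing p E) x  ↔  ord p E x`;
* `totRam` : for `L/K` Galois and totally ramified (`ramIdx = finrank`), `π` a uniformizer of `L`,
  `(𝒪_L, Gal(L/K), im 𝒪_K, π)` is totally ramified Galois data (`Norm.TotRam`);
* `pmHyp_of_pmAbs` : helper8's `PmAbs p K L` gives `Converse.PmHyp 𝒪_L (im 𝒪_K) p`;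
* finite residue field, `π ∣ p`, `v_L(p) = e(L/ℚ_p)`.
-/
import Mathlib
import Fermat.Agent.TW.Ram50.Layer67
import Fermat.Agent.TW.Ram8.TotRam
import Fermat.Agent.PT.LOC.Unram11

set_option autoImplicit false
set_option linter.unusedSectionVars false

namespace Fermat.Agent.TW.Ram50.ModelInst

open scoped Fermat.Agent.PT.LOC.Interface12 Fermat.Agent.PT.LOC.StructureTower27
open Fermat.Agent.PT.LOC.Interface12 Fermat.Agent.PT.LOC.Structure14
  Fermat.Agent.PT.LOC.StructureNorm14 Fermat.Agent.PT.LOC.StructureTower27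
  Fermat.Agent.PT.LOC.StructureTowerEF27 Fermat.Agent.PT.LOC.Unram11
  Fermat.Agent.TW.Ram8.Val Fermat.Agent.TW.Ram8.KIface
open IsDiscreteValuationRing IsLocalRing Polynomial
open Fermat.Agent.TW.Ram50.Lower Fermat.Agent.TW.Ram50.Norm Fermat.Agent.TW.Ram50.Converse

variable (p : ℕ) [hp : Fact p.Prime]

/-! ### Dictionary `addVal ↔ ord` -/

section Dict

variable (E : Type) [Field E] [Algebra ℚ_[p] E] [FiniteDimensional ℚ_[p] E]

/-- `n ≤ v(x) ↔ n ≤ ord x`. -/
theorem le_addVal_iff (x : intRing p E) (hx : (x : E) ≠ 0) (n : ℕ) :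
    (n : ℕ∞) ≤ addVal (intRing p E) x ↔ (n : ℤ) ≤ ord p E (Units.mk0 (x : E) hx) := by
  obtain ⟨ϖ, hϖ⟩ := exists_irreducible (intRing p E)
  have h1 := mem_maximalIdeal_pow_iff p E (Units.mk0 (x : E) hx) x.2 n
  rw [← h1]
  change _ ↔ x ∈ _
  rw [hϖ.maximalIdeal_eq, Ideal.span_singleton_pow, Ideal.mem_span_singleton, ← addVal_le_iff_dvd,
    addVal_pow, addVal_uniformizer hϖ]
  simp

theorem addVal_ne_top (x : intRing p E) (hx : (x : E) ≠ 0) : addVal (intRing p E) x ≠ ⊤ := by
  rw [Ne, addVal_eq_top_iff]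
  intro h
  exact hx (by rw [h]; rfl)

/-- `ord x = v(x)`. -/
theorem ord_eq_addVal (x : intRing p E) (hx : (x : E) ≠ 0) :
    ord p E (Units.mk0 (x : E) hx) = ((addVal (intRing p E) x).toNat : ℤ) := by
  obtain ⟨m, hm⟩ := ENat.ne_top_iff_exists.1 (addVal_ne_top p E x hx)
  rw [← hm, ENat.toNat_natCast]
  have h1 := (le_addVal_iff p E x hx m).1 (by rw [← hm])
  have h2 : ¬ ((m + 1 : ℕ) : ℤ) ≤ ord p E (Units.mk0 (x : E) hx) := by
    intro h
    have := (le_addVal_iff p E x hx (m + 1)).2 h
    rw [← hm] at this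
    have : m + 1 ≤ m := by exact_mod_cast this
    omega
  push_cast at h2
  omega

/-- `v(x) = n ↔ ord x = n`. -/
theorem addVal_eq_iff (x : intRing p E) (hx : (x : E) ≠ 0) (n : ℕ) :
    addVal (intRing p E) x = n ↔ ord p E (Units.mk0 (x : E) hx) = n := by
  rw [ord_eq_addVal p E x hx]
  obtain ⟨m, hm⟩ := ENat.ne_top_iff_exists.1 (addVal_ne_top p E x hx)
  rw [← hm, ENat.toNat_natCast]
  constructor
  · intro h; have : m = n := by exact_mod_cast h
    rw [this]
  · intro h; have : m = n := by exact_mod_cast h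
    rw [this]

/-- `v(x) = n` from `val x = n / e`. -/
theorem addVal_eq_of_val (x : intRing p E) (hx : (x : E) ≠ 0) (n : ℕ)
    (h : val p E (x : E) = (n : ℝ) / (eAbs p E : ℝ)) : addVal (intRing p E) x = n := by
  rw [addVal_eq_iff p E x hx]
  rw [val_eq_ord_div' p E hx] at h
  have hpos : (0 : ℝ) < eAbs p E := by exact_mod_cast eAbs_pos p E
  have h2 : (ord p E (Units.mk0 (x : E) hx) : ℝ) = (n : ℝ) := by
    field_simp at h
    linarith
  exact_mod_cast h2

/-- `v_E(p) = e(E/ℚ_p)`. -/
theorem addVal_natCast_p : addVal (intRing p E) (p : intRing p E) = (eAbs p E : ℕ) := by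
  have h0 : (((p : intRing p E) : intRing p E) : E) ≠ 0 := by
    have := natCast_p_ne_zero p E
    simpa using this
  rw [addVal_eq_iff p E _ h0, eAbs_cast]
  congr 1

instance finite_residueField : Finite (ResidueField (intRing p E)) :=
  (finite_resF p E : Finite (resF p E))

theorem dvd_natCast_p {π : intRing p E} (hπ : Irreducible π) : π ∣ (p : intRing p E) := by
  have h1 : (p : intRing p E) ∈ IsLocalRing.maximalIdeal (intRing p E) := by
    rw [← maxId_eq_maximalIdeal]
    exact natCast_mem_maxId p E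
  rw [hπ.maximalIdeal_eq, Ideal.mem_span_singleton] at h1
  exact h1

end Dict

/-! ### Totally ramified Galois data -/

section TotRamInst

variable (K L : Type) [Field K] [Algebra ℚ_[p] K] [FiniteDimensional ℚ_[p] K]
  [Field L] [Algebra ℚ_[p] L] [FiniteDimensional ℚ_[p] L] [Algebra K L] [IsScalarTower ℚ_[p] K L]

/-- The image of `𝒪_K` in `𝒪_L`. -/
noncomputable def baseRing : Subring (intRing p L) := (algebraMap (intRing p K) (intRing p L)).range

theorem mem_baseRing_iff (x : intRing p L) :
    x ∈ baseRing p K L ↔ ∃ a : intRing p K, algebraMap (intRing p K) (intRing p L) a = x :=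
  Iff.rfl

/-- Polynomial expansion of integers in a totally ramified extension. -/
theorem exists_aeval_eq (htot : ramIdx p K L = Module.finrank K L) {π : intRing p L}
    (hπ : IsUniformizer p L (π : L)) (b : intRing p L) :
    ∃ q : (baseRing p K L)[X], aeval π q = b := by
  obtain ⟨a, hrepr, hint⟩ := Fermat.Agent.TW.Ram8.TotRam.exists_repr p K L htot hπ (b : L)
  have ha : ∀ i, a i ∈ intRing p K := fun i =>
    (mem_intRing_iff_vle p K (a i)).2 (hint ((mem_intRing_iff_vle p L (b : L)).1 b.2) i)
  refine ⟨∑ i, C (⟨algebraMap (intRing p K) (intRing p L) ⟨a i, ha i⟩, ⟨_, rfl⟩⟩ : baseRing p K L) *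
    X ^ (i : ℕ), ?_⟩
  apply Subtype.ext
  rw [hrepr, map_sum]
  simp only [map_mul, aeval_C, map_pow, aeval_X]
  rw [AddSubmonoidClass.coe_finsetSum]
  rfl

theorem totRam [IsGalois K L] [Fintype (L ≃ₐ[K] L)] (htot : ramIdx p K L = Module.finrank K L)
    {π : intRing p L} (hπ : IsUniformizer p L (π : L)) :
    TotRam (L ≃ₐ[K] L) (baseRing p K L) π where
  irr := (isUniformizer_iff_irreducible p L π).1 hπ
  fixed := by
    rintro σ _ ⟨a, rfl⟩
    apply Subtype.ext
    rw [coe_smul_intRing, coe_algebraMap_intRing, σ.commutes]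
  mem_of_fixed := by
    intro b hb
    obtain ⟨a, ha⟩ := Algebra.IsInvariant.isInvariant (A := intRing p K) (G := L ≃ₐ[K] L) b hb
    exact ⟨a, ha⟩
  gen := exists_aeval_eq p K L htot hπ
  faithful := by
    intro σ hσ
    have hσπ : σ (π : L) = π := congrArg Subtype.val hσ
    ext x
    obtain ⟨a, hrepr, -⟩ := Fermat.Agent.TW.Ram8.TotRam.exists_repr p K L htot hπ x
    rw [hrepr, map_sum]
    simp only [map_mul, map_pow, AlgEquiv.commutes, hσπ, AlgEquiv.one_apply]

/-- helper8's abstract `(P_m)` is the hypothesis `PmHyp` of the ramification chapter. -/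
theorem pmHyp_of_pmAbs (hPm : PmAbs p K L) : PmHyp (intRing p L) (baseRing p K L) p := by
  intro C _ _ _ _ _ hinj N hN hη
  obtain ⟨η⟩ := hη
  let ρ : intRing p K →+* baseRing p K L := (algebraMap (intRing p K) (intRing p L)).rangeRestrict
  have hρ : Function.Surjective ρ := RingHom.rangeRestrict_surjective _
  let _ : Algebra (intRing p K) (baseRing p K L) := ρ.toAlgebra
  let _ : Algebra (intRing p K) C := ((algebraMap (baseRing p K L) C).comp ρ).toAlgebra
  have : IsScalarTower (intRing p K) (baseRing p K L) C :=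
    IsScalarTower.of_algebraMap_eq fun _ => rfl
  have : Module.Finite (intRing p K) (baseRing p K L) :=
    Module.Finite.of_surjective (Algebra.linearMap (intRing p K) (baseRing p K L)) hρ
  have : Module.Finite (intRing p K) C := Module.Finite.trans (baseRing p K L) C
  have hinj' : Function.Injective (algebraMap (intRing p K) C) := by
    intro a b hab
    have h1 : ρ a = ρ b := hinj hab
    have h2 := congrArg Subtype.val h1
    exact intRingMap_injective p K L h2
  let η' : intRing p L →ₐ[intRing p K] C ⧸ IsLocalRing.maximalIdeal C ^ N :=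
    { η.toRingHom with
      commutes' := fun a => η.commutes (ρ a) }
  obtain ⟨ι'⟩ := hPm C hinj' N hN ⟨η'⟩
  refine ⟨{ ι'.toRingHom with commutes' := ?_ }⟩
  intro a'
  obtain ⟨a, rfl⟩ := hρ a'
  exact ι'.commutes a

end TotRamInst

/-! ### Towers of totally ramified extensions -/

section TowerTot

variable (E E' E'' : Type) [Field E] [Algebra ℚ_[p] E] [FiniteDimensional ℚ_[p] E]
  [Field E'] [Algebra ℚ_[p] E'] [FiniteDimensional ℚ_[p] E']
  [Field E''] [Algebra ℚ_[p] E''] [FiniteDimensional ℚ_[p] E'']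
  [Algebra E E'] [Algebra E' E''] [Algebra E E''] [IsScalarTower E E' E'']
  [IsScalarTower ℚ_[p] E E'] [IsScalarTower ℚ_[p] E' E''] [IsScalarTower ℚ_[p] E E'']

theorem ramIdx_le_finrank' : ramIdx p E E' ≤ Module.finrank E E' := by
  rw [← ramIdx_mul_resDeg p E E']
  exact Nat.le_mul_of_pos_right _ (resDeg_pos p E E')

/-- Sub- and quotient extensions of a totally ramified extension are totally ramified. -/
theorem totRam_tower (h : ramIdx p E E'' = Module.finrank E E'') :
    ramIdx p E E' = Module.finrank E E' ∧ ramIdx p E' E'' = Module.finrank E' E'' := by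
  have h1 := ramIdx_tower p E E' E''
  have h2 := Module.finrank_mul_finrank E E' E''
  have h3 := ramIdx_le_finrank' p E E'
  have h4 := ramIdx_le_finrank' p E' E''
  have h5 := ramIdx_pos p E E'
  have h6 := ramIdx_pos p E' E''
  rw [h1, ← h2] at h
  constructor
  · by_contra hne
    have hlt : ramIdx p E E' < Module.finrank E E' := lt_of_le_of_ne h3 hne
    have : ramIdx p E E' * ramIdx p E' E'' < Module.finrank E E' * Module.finrank E' E'' :=
      calc ramIdx p E E' * ramIdx p E' E'' < Module.finrank E E' * ramIdx p E' E'' :=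
            Nat.mul_lt_mul_of_pos_right hlt h6
        _ ≤ Module.finrank E E' * Module.finrank E' E'' := Nat.mul_le_mul_left _ h4
    omega
  · by_contra hne
    have hlt : ramIdx p E' E'' < Module.finrank E' E'' := lt_of_le_of_ne h4 hne
    have : ramIdx p E E' * ramIdx p E' E'' < Module.finrank E E' * Module.finrank E' E'' :=
      calc ramIdx p E E' * ramIdx p E' E'' < ramIdx p E E' * Module.finrank E' E'' :=
            Nat.mul_lt_mul_of_pos_left hlt h5
        _ ≤ Module.finrank E E' * Module.finrank E' E'' := Nat.mul_le_mul_right _ h3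
    omega

end TowerTot

/-! ### Abstract lemmas -/

section Abstract

variable {B : Type*} [CommRing B] [IsDomain B] [IsDiscreteValuationRing B]

theorem irreducible_of_addVal_eq_one {x : B} (h : addVal B x = 1) : Irreducible x := by
  obtain ⟨ϖ, hϖ⟩ := exists_irreducible B
  have h1 : ϖ ∣ x := by rw [← addVal_le_iff_dvd, addVal_uniformizer hϖ, h]
  have h2 : x ∣ ϖ := by rw [← addVal_le_iff_dvd, addVal_uniformizer hϖ, h]
  exact (associated_of_dvd_dvd h1 h2).irreducible hϖ

variable {G : Type*} [Group G] [MulSemiringAction G B] [Finite G] [FaithfulSMul G B]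

/-- A subgroup of index prime to the residue characteristic contains the wild inertia group
(no normality assumption, compare `Wild67.mem_of_two_le_iG`). -/
theorem mem_of_two_le_iG' {q : ℕ} [Fact q.Prime] (hq : (q : B) ∈ IsLocalRing.maximalIdeal B)
    (H0 : Subgroup G) (hidx : ¬ q ∣ H0.index) {σ : G} (hσ : 2 ≤ iG B σ) : σ ∈ H0 := by
  have hP : IsPGroup q (lowerGroup B G 2) := Wild67.isPGroup_lowerGroup_two hq
  obtain ⟨x, hx⟩ := hP.nonempty_fixed_point_of_prime_not_dvd_card (G ⧸ H0)
    (by rwa [← Subgroup.index_eq_card])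
  induction x using QuotientGroup.induction_on with
  | H g =>
    have hmem : g * σ * g⁻¹ ∈ lowerGroup B G 2 :=
      (lowerGroup_normal (B := B) (G := G) 2).conj_mem σ hσ g
    have h1 := hx ⟨g * σ * g⁻¹, hmem⟩
    have h2 : ((g * σ * g⁻¹ * g : G) : G ⧸ H0) = (g : G ⧸ H0) := h1
    rw [QuotientGroup.eq] at h2
    have h3 : (g * σ * g⁻¹ * g)⁻¹ * g = σ⁻¹ := by group
    rw [h3] at h2
    exact (Subgroup.inv_mem_iff H0).1 h2

end Abstract

end Fermat.Agent.TW.Ram50.ModelInst
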